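import Fermat.Agent.R.Transfer
import Fermat.Prelude.Def_GaloisRep_Flat

/-!
# Cluster R: interfaces for S32 (flat at `p ∤ N`) and S33 (ordinary at `p ∥ N`)

Owner: helper86.  Consumers: `Fermat/Agent/S33/Wiring.lean`, `Fermat/Agent/S32/Wiring.lean`.

The frozen statements S32/S33 are about a representation over an arbitrary local `𝒪`-algebra
`T` generated by the image of the Hecke algebra.  The wirings reduce them to the same
statements over complete discrete valuation rings (the "points" of `T`):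

* `Stmt_OrdPoint`  : S33 for a representation over a complete DVR (geometric input:
  `ρ_f` is ordinary at `p` when `p ∥ N` resp. when `f` is `p`-old with unit `a_p`).
* `Stmt_FlatPoint` : S32 for a representation over a complete DVR (geometric input: S19,
  good reduction of `J₀(N)` at `p ∤ N`).
* `Stmt_CycInertia` : inertia at an odd prime `p` acts non-trivially on the `p`-th roots of
  unity.
* `Stmt_FrobCyc` : a Frobenius element at `ℓ` raises roots of unity of order prime to `ℓ`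
  to the `ℓ`-th power.
* `IsFlatGaloisModule` : the finite Galois module `M` is the group of `ℚ̄`-points of a finite
  flat commutative group scheme over `ℤ_(p)` (the condition inside `GaloisRepAdic.IsFlatAt`),
  with the closure properties `Stmt_FlatSub`, `Stmt_FlatQuot`, `Stmt_FlatProd` (scheme
  theoretic closure).
-/

set_option autoImplicit false

open Polynomial IsLocalRing

namespace Fermat.Agent.R

/-- **S33 over a complete discrete valuation ring.** -/
def Stmt_OrdPoint : Prop :=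
  ∀ (p : ℕ) (N : ℕ) [NeZero N] (S : Finset ℕ)
    (𝒪 : Type) [CommRing 𝒪] [IsDomain 𝒪] [IsDiscreteValuationRing 𝒪]
    [IsAdicComplete (maximalIdeal 𝒪) 𝒪] [Finite (ResidueField 𝒪)] [CharZero 𝒪],
    p.Prime → p ≠ 2 → (p : 𝒪) ∈ maximalIdeal 𝒪 → (p ∣ N ∧ ¬ p ^ 2 ∣ N) →
    (∀ q : ℕ, q.Prime → q ∣ N → q ∈ S) →
    ∀ (χ : CuspForm.heckeAlgebra N 2 (↑S : Set ℕ) →+* 𝒪) (ρ : GaloisRepAdic 𝒪),
      HasFrobCharpoly χ ρ → ρ.residual.IsAbsolutelyIrreducible →
      (GaloisRepAdic.ofResidualGaloisRep ρ.residual).IsOrdinaryAt p →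
      ρ.IsOrdinaryAt p

/-- **S32 over a complete discrete valuation ring.** -/
def Stmt_FlatPoint : Prop :=
  ∀ (p : ℕ) (N : ℕ) [NeZero N] (S : Finset ℕ)
    (𝒪 : Type) [CommRing 𝒪] [IsDomain 𝒪] [IsDiscreteValuationRing 𝒪]
    [IsAdicComplete (maximalIdeal 𝒪) 𝒪] [Finite (ResidueField 𝒪)] [CharZero 𝒪],
    p.Prime → p ≠ 2 → (p : 𝒪) ∈ maximalIdeal 𝒪 → ¬ p ∣ N → p ∈ S →
    (∀ q : ℕ, q.Prime → q ∣ N → q ∈ S) →
    ∀ (χ : CuspForm.heckeAlgebra N 2 (↑S : Set ℕ) →+* 𝒪) (ρ : GaloisRepAdic 𝒪),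
      HasFrobCharpoly χ ρ → ρ.residual.IsAbsolutelyIrreducible →
      ρ.IsFlatAt p

/-- Inertia at an odd prime `p` moves some `p`-th root of unity. -/
def Stmt_CycInertia : Prop :=
  ∀ (p : ℕ), p.Prime → p ≠ 2 →
    ∀ P : ValuationSubring (AlgebraicClosure ℚ), P.LiesOverPrime p →
      ∃ σ ∈ P.inertiaSubgroupIn ℚ, ∃ ζ : AlgebraicClosure ℚ, ζ ^ p = 1 ∧ σ ζ ≠ ζ

/-- A Frobenius element at `ℓ` acts on the roots of unity of order prime to `ℓ` as the
`ℓ`-th power map. -/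
def Stmt_FrobCyc : Prop :=
  ∀ (ℓ : ℕ), ℓ.Prime →
    ∀ A : ValuationSubring (AlgebraicClosure ℚ), A.LiesOverPrime ℓ →
      ∀ σ : AlgebraicClosure ℚ ≃ₐ[ℚ] AlgebraicClosure ℚ, A.IsFrobeniusAt σ ℓ →
        ∀ (n : ℕ), n.Coprime ℓ → ∀ ζ : AlgebraicClosure ℚ, ζ ^ n = 1 → σ ζ = ζ ^ ℓ

/-- The points of the local Hecke algebra `T` of a Hecke–Galois datum (in characteristic `0`)
separate its elements: every non-zero `t` is non-zero at some local homomorphism to a complete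
discrete valuation ring of characteristic `0` with finite residue field which is finite
over `𝒪`. -/
def Stmt_SepT : Prop :=
  ∀ (N : ℕ) [NeZero N] (S : Finset ℕ)
    (𝒪 : Type) [CommRing 𝒪] [IsDomain 𝒪] [IsDiscreteValuationRing 𝒪]
    [IsAdicComplete (maximalIdeal 𝒪) 𝒪] [Finite (ResidueField 𝒪)] [CharZero 𝒪]
    (θ : CuspForm.heckeAlgebra N 2 (↑S : Set ℕ) →+* ResidueField 𝒪)
    (T : Type) [CommRing T] [IsLocalRing T] [IsNoetherianRing T]
    [IsAdicComplete (maximalIdeal T) T] [Algebra 𝒪 T] [IsLocalHom (algebraMap 𝒪 T)]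
    [Module.Finite 𝒪 T] [Module.Free 𝒪 T],
    (∀ q : ℕ, q.Prime → q ∣ N → q ∈ S) →
    ∀ (_H : CuspForm.HeckeGaloisRepDatum N (↑S : Set ℕ) 𝒪 θ T) (t : T), t ≠ 0 →
      ∃ (𝒪' : Type) (_ : CommRing 𝒪') (_ : IsDomain 𝒪') (_ : IsDiscreteValuationRing 𝒪')
        (_ : IsAdicComplete (maximalIdeal 𝒪') 𝒪') (_ : Finite (ResidueField 𝒪'))
        (_ : CharZero 𝒪') (ψ : T →+* 𝒪'), IsLocalHom ψ ∧ ψ t ≠ 0

/-- The finite Galois module `M` is the group of `ℚ̄`-points of a finite flat commutative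
group scheme over `ℤ_(p)`: this is exactly the condition on `V ⧸ I V` in
`GaloisRepAdic.IsFlatAt`. -/
def IsFlatGaloisModule (p : ℕ) (M : Type) [AddCommGroup M]
    (act : (AlgebraicClosure ℚ ≃ₐ[ℚ] AlgebraicClosure ℚ) → M → M) : Prop :=
  ∃ (H : Type) (_ : CommRing H) (_ : HopfAlgebra (GaloisRep.ratLocalizedAt p) H),
    Module.Finite (GaloisRep.ratLocalizedAt p) H ∧
    Module.Flat (GaloisRep.ratLocalizedAt p) H ∧
    Coalgebra.IsCocomm (GaloisRep.ratLocalizedAt p) H ∧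
    ∃ e : WithConv (H →ₐ[GaloisRep.ratLocalizedAt p] AlgebraicClosure ℚ) ≃ M,
      (∀ f g : WithConv (H →ₐ[GaloisRep.ratLocalizedAt p] AlgebraicClosure ℚ),
        e (f * g) = e f + e g) ∧
      ∀ (σ : AlgebraicClosure ℚ ≃ₐ[ℚ] AlgebraicClosure ℚ)
        (f g : WithConv (H →ₐ[GaloisRep.ratLocalizedAt p] AlgebraicClosure ℚ)),
        (∀ h : H, g h = σ (f h)) → e g = act σ (e f)

theorem isFlatAt_iff {A : Type} [CommRing A] [IsLocalRing A] (ρ : GaloisRepAdic A) (p : ℕ) :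
    ρ.IsFlatAt p ↔ Finite (ResidueField A) ∧ ∀ I : Ideal A, Finite (A ⧸ I) →
      IsFlatGaloisModule p (ρ.V ⧸ (I • (⊤ : Submodule A ρ.V)))
        (fun σ => ρ.levelAction I σ) :=
  Iff.rfl

/-- Flatness passes to Galois-stable subgroups (scheme-theoretic closure). -/
def Stmt_FlatSub : Prop :=
  ∀ (p : ℕ), p.Prime →
    ∀ (M M' : Type) [AddCommGroup M] [AddCommGroup M']
      (act : (AlgebraicClosure ℚ ≃ₐ[ℚ] AlgebraicClosure ℚ) → M → M)
      (act' : (AlgebraicClosure ℚ ≃ₐ[ℚ] AlgebraicClosure ℚ) → M' → M')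
      (ι : M' →+ M), Function.Injective ι → (∀ σ x, ι (act' σ x) = act σ (ι x)) →
      IsFlatGaloisModule p M act → IsFlatGaloisModule p M' act'

/-- Flatness passes to Galois-equivariant quotients. -/
def Stmt_FlatQuot : Prop :=
  ∀ (p : ℕ), p.Prime →
    ∀ (M M' : Type) [AddCommGroup M] [AddCommGroup M']
      (act : (AlgebraicClosure ℚ ≃ₐ[ℚ] AlgebraicClosure ℚ) → M → M)
      (act' : (AlgebraicClosure ℚ ≃ₐ[ℚ] AlgebraicClosure ℚ) → M' → M')
      (π : M →+ M'), Function.Surjective π → (∀ σ x, π (act σ x) = act' σ (π x)) →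
      IsFlatGaloisModule p M act → IsFlatGaloisModule p M' act'

/-- Flatness passes to binary products. -/
def Stmt_FlatProd : Prop :=
  ∀ (p : ℕ), p.Prime →
    ∀ (M M' : Type) [AddCommGroup M] [AddCommGroup M']
      (act : (AlgebraicClosure ℚ ≃ₐ[ℚ] AlgebraicClosure ℚ) → M → M)
      (act' : (AlgebraicClosure ℚ ≃ₐ[ℚ] AlgebraicClosure ℚ) → M' → M'),
      IsFlatGaloisModule p M act → IsFlatGaloisModule p M' act' →
      IsFlatGaloisModule p (M × M') (fun σ x => (act σ x.1, act' σ x.2))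

end Fermat.Agent.R
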