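import Mathlib
import Fermat.Agent.S30.Defs
import Fermat.Agent.S05.H95_Inertia

/-!
# S30 wiring, WP A: the `p`-adic cyclotomic character with values in a complete DVR

`stmt_CycChar : Fermat.Agent.S30.Stmt_CycChar`.
-/

set_option autoImplicit false

namespace Fermat.Agent.R.H89

open Fermat.Agent.S30

section RingHom

variable (p : ℕ) [Fact p.Prime] (𝒪 : Type) [CommRing 𝒪] [IsLocalRing 𝒪]

omit [Fact p.Prime] in
theorem h89_pow_eq_zero_quot (hp : (p : 𝒪) ∈ IsLocalRing.maximalIdeal 𝒪) (n : ℕ) :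
    (((p ^ n : ℕ)) : 𝒪 ⧸ (IsLocalRing.maximalIdeal 𝒪) ^ n) = 0 := by
  have h : ((p ^ n : ℕ) : 𝒪) ∈ (IsLocalRing.maximalIdeal 𝒪) ^ n := by
    rw [Nat.cast_pow]
    exact Ideal.pow_mem_pow hp n
  have := (Ideal.Quotient.eq_zero_iff_mem (I := (IsLocalRing.maximalIdeal 𝒪) ^ n)).2 h
  rwa [map_natCast] at this

/-- The level-`n` map `ℤ_[p] → 𝒪 / 𝔪^n`. -/
noncomputable def h89Level (hp : (p : 𝒪) ∈ IsLocalRing.maximalIdeal 𝒪) (n : ℕ) :
    ℤ_[p] →+* 𝒪 ⧸ (IsLocalRing.maximalIdeal 𝒪) ^ n :=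
  (ZMod.castHom (ringChar.dvd (h89_pow_eq_zero_quot p 𝒪 hp n))
    (𝒪 ⧸ (IsLocalRing.maximalIdeal 𝒪) ^ n)).comp (PadicInt.toZModPow n)

/-- A ring hom from `ℤ_[p]` to a ring killed by `p ^ n` is determined by `appr`. -/
theorem h89_hom_eq_appr {R : Type*} [CommRing R] (n : ℕ) (h0 : ((p ^ n : ℕ) : R) = 0)
    (g : ℤ_[p] →+* R) (x : ℤ_[p]) : g x = ((x.appr n : ℕ) : R) := by
  have h := PadicInt.appr_spec n x
  rw [Ideal.mem_span_singleton] at h
  obtain ⟨y, hy⟩ := h
  have hx : x = (x.appr n : ℤ_[p]) + (p : ℤ_[p]) ^ n * y := by rw [← hy]; ring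
  have hp0 : g ((p : ℤ_[p]) ^ n) = 0 := by
    rw [map_pow, map_natCast, ← Nat.cast_pow]; exact h0
  conv_lhs => rw [hx]
  rw [map_add, map_mul, hp0, zero_mul, add_zero, map_natCast]

theorem h89Level_compat (hp : (p : 𝒪) ∈ IsLocalRing.maximalIdeal 𝒪) {m n : ℕ} (hle : m ≤ n) :
    (Ideal.Quotient.factorPow (IsLocalRing.maximalIdeal 𝒪) hle).comp (h89Level p 𝒪 hp n) =
      h89Level p 𝒪 hp m := by
  ext x
  rw [h89_hom_eq_appr p m (h89_pow_eq_zero_quot p 𝒪 hp m) _ x,
    h89_hom_eq_appr p m (h89_pow_eq_zero_quot p 𝒪 hp m) _ x]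

variable [IsAdicComplete (IsLocalRing.maximalIdeal 𝒪) 𝒪]

/-- The canonical ring hom `ℤ_[p] → 𝒪` for a complete local ring with `p ∈ 𝔪`. -/
noncomputable def h89PadicHom (hp : (p : 𝒪) ∈ IsLocalRing.maximalIdeal 𝒪) : ℤ_[p] →+* 𝒪 :=
  IsAdicComplete.liftRingHom (IsLocalRing.maximalIdeal 𝒪) (h89Level p 𝒪 hp)
    (fun hle => h89Level_compat p 𝒪 hp hle)

theorem h89PadicHom_sub_mem (hp : (p : 𝒪) ∈ IsLocalRing.maximalIdeal 𝒪) (n : ℕ) (x y : ℤ_[p])
    (h : PadicInt.toZModPow n x = PadicInt.toZModPow n y) :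
    h89PadicHom p 𝒪 hp x - h89PadicHom p 𝒪 hp y ∈ (IsLocalRing.maximalIdeal 𝒪) ^ n := by
  rw [← Ideal.Quotient.eq]
  unfold h89PadicHom
  rw [IsAdicComplete.mk_liftRingHom, IsAdicComplete.mk_liftRingHom]
  simp only [h89Level, RingHom.comp_apply, h]

end RingHom

section Roots

theorem pow_eq_zero_iff_of_pos_h89 {p n : ℕ} (h : p ^ n = 0) : p = 0 := by
  by_contra hp
  exact pow_ne_zero n hp h

variable {L : Type*} [Field L]

/-- A root of unity has valuation one. -/
theorem h89_valuation_eq_one_of_pow_eq_one (A : ValuationSubring L) {w : L} {m : ℕ} (hm : m ≠ 0)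
    (hw : w ^ m = 1) : A.valuation w = 1 := by
  have h : A.valuation w ^ m = 1 := by rw [← map_pow, hw, map_one]
  exact (pow_eq_one_iff.1 h).resolve_right hm

/-- Integers have valuation at most one. -/
theorem h89_valuation_intCast_le_one (A : ValuationSubring L) (a : ℤ) :
    A.valuation (a : L) ≤ 1 := by
  rw [A.valuation_le_one_iff]
  exact intCast_mem A a

theorem h89_valuation_natCast_le_one (A : ValuationSubring L) (a : ℕ) :
    A.valuation (a : L) ≤ 1 := by
  rw [A.valuation_le_one_iff]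
  exact natCast_mem A a

/-- A prime different from the residue characteristic is a unit of the valuation subring. -/
theorem h89_prime_not_mem_nonunits (A : ValuationSubring L) {p q : ℕ} (hp : p.Prime)
    (hq : q.Prime) (hpq : q ≠ p) (hA : A.LiesOverPrime q) : (p : L) ∉ A.nonunits := by
  intro hpA
  have hqA : (q : L) ∈ A.nonunits := hA
  rw [A.mem_nonunits_iff] at hpA hqA
  have hcop : IsCoprime (p : ℤ) (q : ℤ) :=
    Nat.isCoprime_iff_coprime.2 ((Nat.coprime_primes hp hq).2 (Ne.symm hpq))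
  obtain ⟨a, b, hab⟩ := hcop
  have h1 : (1 : L) = (a : L) * (p : L) + (b : L) * (q : L) := by
    have := congrArg (fun z : ℤ => (z : L)) hab
    simp only [Int.cast_add, Int.cast_mul, Int.cast_natCast, Int.cast_one] at this
    exact this.symm
  have h2 : A.valuation ((a : L) * (p : L)) < 1 := by
    rw [map_mul]
    calc A.valuation (a : L) * A.valuation (p : L) ≤ 1 * A.valuation (p : L) :=
          mul_le_mul_left (h89_valuation_intCast_le_one A a) _
      _ < 1 := by rw [one_mul]; exact hpA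
  have h3 : A.valuation ((b : L) * (q : L)) < 1 := by
    rw [map_mul]
    calc A.valuation (b : L) * A.valuation (q : L) ≤ 1 * A.valuation (q : L) :=
          mul_le_mul_left (h89_valuation_intCast_le_one A b) _
      _ < 1 := by rw [one_mul]; exact hqA
  have h4 : A.valuation (1 : L) < 1 := by
    rw [h1]
    exact Valuation.map_add_lt _ h2 h3
  rw [map_one] at h4
  exact lt_irrefl _ h4

/-- Reduction is injective on `p`-power roots of unity when `p` is a unit. -/
theorem h89_eq_one_of_sub_one_mem (A : ValuationSubring L) (p : ℕ)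
    (hpA : (p : L) ∉ A.nonunits) {w : L} {n : ℕ} (hw : w ^ (p ^ n) = 1)
    (h1 : w - 1 ∈ A.nonunits) : w = 1 := by
  by_contra hne
  rw [A.mem_nonunits_iff] at h1 hpA
  have hp0 : p ^ n ≠ 0 := by
    intro h0
    have hp : p = 0 := pow_eq_zero_iff_of_pos_h89 h0
    apply hpA
    rw [hp, Nat.cast_zero, map_zero]
    exact zero_lt_one
  have hsum : ∑ i ∈ Finset.range (p ^ n), w ^ i = 0 := by
    have h := mul_geom_sum w (p ^ n)
    rw [hw, sub_self] at h
    rcases mul_eq_zero.1 h with h | h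
    · exact absurd (sub_eq_zero.1 h) hne
    · exact h
  have hterm : ∀ i : ℕ, A.valuation (1 - w ^ i) < 1 := by
    intro i
    have h := mul_geom_sum w i
    have h' : 1 - w ^ i = -((w - 1) * ∑ j ∈ Finset.range i, w ^ j) := by rw [h]; ring
    rw [h', Valuation.map_neg, map_mul]
    have hS : A.valuation (∑ j ∈ Finset.range i, w ^ j) ≤ 1 := by
      refine Valuation.map_sum_le _ (fun j _ => ?_)
      rw [map_pow]
      rw [h89_valuation_eq_one_of_pow_eq_one A hp0 hw, one_pow]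
    calc A.valuation (w - 1) * A.valuation (∑ j ∈ Finset.range i, w ^ j)
        ≤ A.valuation (w - 1) * 1 := mul_le_mul_right hS _
      _ < 1 := by rw [mul_one]; exact h1
  have hpn : ((p ^ n : ℕ) : L) = ∑ i ∈ Finset.range (p ^ n), (1 - w ^ i) := by
    rw [Finset.sum_sub_distrib, hsum, sub_zero, Finset.sum_const, Finset.card_range,
      nsmul_eq_mul, mul_one]
  have hlt : A.valuation ((p ^ n : ℕ) : L) < 1 := by
    rw [hpn]
    exact Valuation.map_sum_lt _ one_ne_zero (fun i _ => hterm i)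
  rw [Nat.cast_pow, map_pow] at hlt
  have hp1 : A.valuation (p : L) = 1 :=
    le_antisymm (h89_valuation_natCast_le_one A p) (not_lt.1 hpA)
  rw [hp1, one_pow] at hlt
  exact lt_irrefl _ hlt

theorem h89_eq_of_sub_mem (A : ValuationSubring L) (p : ℕ) (hp : p ≠ 0)
    (hpA : (p : L) ∉ A.nonunits) {u v : L} {n : ℕ} (hu : u ^ (p ^ n) = 1)
    (hv : v ^ (p ^ n) = 1) (h : u - v ∈ A.nonunits) : u = v := by
  have hm : p ^ n ≠ 0 := pow_ne_zero _ hp
  have hv0 : v ≠ 0 := by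
    rintro rfl
    rw [zero_pow hm] at hv
    exact zero_ne_one hv
  have hw : (u * v⁻¹) ^ (p ^ n) = 1 := by rw [mul_pow, inv_pow, hu, hv, inv_one, mul_one]
  have hw1 : u * v⁻¹ - 1 ∈ A.nonunits := by
    rw [A.mem_nonunits_iff] at h ⊢
    have : u * v⁻¹ - 1 = (u - v) * v⁻¹ := by field_simp
    rw [this, map_mul, map_inv₀, h89_valuation_eq_one_of_pow_eq_one A hm hv, inv_one, mul_one]
    exact h
  have := h89_eq_one_of_sub_one_mem A p hpA hw hw1
  field_simp at this
  exact this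

end Roots

section Frob

variable {K L : Type*} [Field K] [Field L] [Algebra K L]

/-- A Frobenius element acts as `x ↦ x ^ q` modulo the maximal ideal. -/
theorem h89_frob_sub_mem (A : ValuationSubring L) {σ : L ≃ₐ[K] L} {q : ℕ}
    (h : A.IsFrobeniusAt σ q) {x : L} (hx : x ∈ A) : σ x - x ^ q ∈ A.nonunits := by
  obtain ⟨hd, hF⟩ := h
  have h1 := hF (IsLocalRing.residue A ⟨x, hx⟩)
  have hσx : σ x ∈ A := Fermat.Agent.S05.H95.mem_of_mem_decomposition A hd hx
  have h2 : IsLocalRing.residue A (⟨σ x, hσx⟩ - (⟨x, hx⟩ : A) ^ q) = 0 := by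
    rw [map_sub, sub_eq_zero, map_pow, ← h1]
    rfl
  have h3 : (⟨σ x, hσx⟩ - (⟨x, hx⟩ : A) ^ q : A) ∈ IsLocalRing.maximalIdeal A :=
    (IsLocalRing.residue_eq_zero_iff _).1 h2
  exact (A.mem_nonunits_iff_exists_mem_maximalIdeal (a := σ x - x ^ q)).2
    ⟨A.sub_mem hσx (A.pow_mem hx q), h3⟩

end Frob

section Chi

variable (p : ℕ) [Fact p.Prime]

/-- The `p`-adic cyclotomic character of the absolute Galois group of `ℚ`. -/
noncomputable def h89Chi : GQ →* ℤ_[p]ˣ :=
  (cyclotomicCharacter (AlgebraicClosure ℚ) p).comp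
    (MulSemiringAction.toRingAut GQ (AlgebraicClosure ℚ))

instance h89_neZero_prime_rat : NeZero (p : ℚ) :=
  ⟨Nat.cast_ne_zero.2 (Fact.out : p.Prime).ne_zero⟩

theorem h89Chi_toZModPow_eq (σ : GQ) (n k : ℕ)
    (h : ∀ t : AlgebraicClosure ℚ, t ^ (p ^ n) = 1 → σ t = t ^ k) :
    PadicInt.toZModPow n ((h89Chi p σ : ℤ_[p]ˣ) : ℤ_[p]) = (k : ZMod (p ^ n)) := by
  unfold h89Chi
  rw [MonoidHom.comp_apply, cyclotomicCharacter.toZModPow]
  symm
  apply modularCyclotomicCharacter.unique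
  intro t ht
  have ht' : ((t : (AlgebraicClosure ℚ)ˣ) : AlgebraicClosure ℚ) ^ (p ^ n) = 1 := by
    have := (mem_rootsOfUnity _ _).1 ht
    rw [← Units.val_pow_eq_pow_val, this, Units.val_one]
  have h1 : (MulSemiringAction.toRingAut GQ (AlgebraicClosure ℚ) σ)
      ((t : (AlgebraicClosure ℚ)ˣ) : AlgebraicClosure ℚ) = σ (t : AlgebraicClosure ℚ) := rfl
  rw [h1, h _ ht', ZMod.val_natCast]
  conv_lhs => rw [← Nat.mod_add_div k (p ^ n)]
  rw [pow_add, pow_mul, ht', one_pow, mul_one]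

theorem h89Chi_eq_natCast (σ : GQ) (k : ℕ)
    (h : ∀ (n : ℕ) (t : AlgebraicClosure ℚ), t ^ (p ^ n) = 1 → σ t = t ^ k) :
    ((h89Chi p σ : ℤ_[p]ˣ) : ℤ_[p]) = (k : ℤ_[p]) := by
  refine PadicInt.ext_of_toZModPow.1 (fun n => ?_)
  rw [h89Chi_toZModPow_eq p σ n k (h n), map_natCast]

end Chi

/-- **WP A (CycChar).** The `p`-adic cyclotomic character with values in a complete discrete
valuation ring of residue characteristic `p`. -/
theorem stmt_CycChar : Stmt_CycChar := by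
  intro p _ 𝒪 _ _ _ _ _ hp S hpS
  have hpp : p.Prime := Fact.out
  refine ⟨(Units.map ((h89PadicHom p 𝒪 hp : ℤ_[p] →+* 𝒪) : ℤ_[p] →* 𝒪)).comp (h89Chi p),
    ?_, ?_, ?_⟩
  · -- adic continuity
    intro n
    obtain ⟨ζ, hζ⟩ :=
      HasEnoughRootsOfUnity.exists_primitiveRoot (AlgebraicClosure ℚ) (p ^ n)
    have hm : p ^ n ≠ 0 := pow_ne_zero _ hpp.ne_zero
    refine ⟨IntermediateField.adjoin ℚ {ζ}, ?_, ?_⟩
    · exact IntermediateField.adjoin.finiteDimensional
        (hζ.isIntegral (Nat.pos_of_ne_zero hm)).tower_top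
    · intro σ hσ
      have hζσ : σ ζ = ζ := hσ ζ (IntermediateField.mem_adjoin_simple_self ℚ ζ)
      have key : PadicInt.toZModPow n ((h89Chi p σ : ℤ_[p]ˣ) : ℤ_[p]) =
          PadicInt.toZModPow n 1 := by
        rw [map_one, h89Chi_toZModPow_eq p σ n 1 ?_, Nat.cast_one]
        intro t ht
        have : NeZero (p ^ n) := ⟨hm⟩
        obtain ⟨i, _, rfl⟩ := hζ.eq_pow_of_pow_eq_one ht
        rw [map_pow, hζσ, pow_one]
      have := h89PadicHom_sub_mem p 𝒪 hp n _ _ key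
      rw [map_one] at this
      exact this
  · -- Frobenius values
    intro ℓ hℓ hℓS A hA σ hσ
    have hℓp : ℓ ≠ p := fun h => hℓS (h ▸ hpS)
    have hpA := h89_prime_not_mem_nonunits A hpp hℓ hℓp hA
    have key := h89Chi_eq_natCast p σ ℓ (fun n t ht => by
      have hm : p ^ n ≠ 0 := pow_ne_zero _ hpp.ne_zero
      have htA : t ∈ A := (A.valuation_le_one_iff t).1
        (le_of_eq (h89_valuation_eq_one_of_pow_eq_one A hm ht))
      refine h89_eq_of_sub_mem A p hpp.ne_zero hpA (n := n) ?_ ?_ (h89_frob_sub_mem A hσ htA)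
      · rw [← map_pow, ht, map_one]
      · rw [← pow_mul, mul_comm, pow_mul, ht, one_pow])
    show h89PadicHom p 𝒪 hp ((h89Chi p σ : ℤ_[p]ˣ) : ℤ_[p]) = (ℓ : 𝒪)
    rw [key, map_natCast]
  · -- unramified outside `p`
    intro q hq hqp P hP σ hσ
    have hpA := h89_prime_not_mem_nonunits P hpp hq hqp hP
    have key := h89Chi_eq_natCast p σ 1 (fun n t ht => by
      have hm : p ^ n ≠ 0 := pow_ne_zero _ hpp.ne_zero
      have htA : t ∈ P := (P.valuation_le_one_iff t).1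
        (le_of_eq (h89_valuation_eq_one_of_pow_eq_one P hm ht))
      rw [pow_one]
      refine h89_eq_of_sub_mem P p hpp.ne_zero hpA (n := n) ?_ ht
        (Fermat.Agent.S05.H95.sub_mem_nonunits_of_mem_inertia P hσ htA)
      rw [← map_pow, ht, map_one])
    apply Units.ext
    show h89PadicHom p 𝒪 hp ((h89Chi p σ : ℤ_[p]ˣ) : ℤ_[p]) = ((1 : 𝒪ˣ) : 𝒪)
    rw [key, Nat.cast_one, map_one, Units.val_one]

end Fermat.Agent.R.H89
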