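import Mathlib
import Fermat.Agent.R.H86_Defs2
import Fermat.Agent.R.H89_CycChar

/-!
# Cluster R leaf `Stmt_FrobCyc`

A Frobenius element at `ℓ` acts on the roots of unity of order prime to `ℓ` as the `ℓ`-th power
map: `stmt_FrobCyc : Fermat.Agent.R.Stmt_FrobCyc`.  Also the inertia analogue
`inertia_fixes_rootsOfUnity`: inertia at `ℓ` fixes the roots of unity of order prime to `ℓ`.
-/

set_option autoImplicit false

namespace Fermat.Agent.R.H89

section Roots

variable {L : Type*} [Field L]

/-- An integer prime to the residue characteristic is a unit of the valuation subring. -/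
theorem h89_coprime_not_mem_nonunits (A : ValuationSubring L) {n q : ℕ}
    (hnq : n.Coprime q) (hA : A.LiesOverPrime q) : (n : L) ∉ A.nonunits := by
  intro hnA
  have hqA : (q : L) ∈ A.nonunits := hA
  rw [A.mem_nonunits_iff] at hnA hqA
  have hcop : IsCoprime (n : ℤ) (q : ℤ) := Nat.isCoprime_iff_coprime.2 hnq
  obtain ⟨a, b, hab⟩ := hcop
  have h1 : (1 : L) = (a : L) * (n : L) + (b : L) * (q : L) := by
    have := congrArg (fun z : ℤ => (z : L)) hab
    simp only [Int.cast_add, Int.cast_mul, Int.cast_natCast, Int.cast_one] at this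
    exact this.symm
  have h2 : A.valuation ((a : L) * (n : L)) < 1 := by
    rw [map_mul]
    calc A.valuation (a : L) * A.valuation (n : L) ≤ 1 * A.valuation (n : L) :=
          mul_le_mul_left (h89_valuation_intCast_le_one A a) _
      _ < 1 := by rw [one_mul]; exact hnA
  have h3 : A.valuation ((b : L) * (q : L)) < 1 := by
    rw [map_mul]
    calc A.valuation (b : L) * A.valuation (q : L) ≤ 1 * A.valuation (q : L) :=
          mul_le_mul_left (h89_valuation_intCast_le_one A b) _
      _ < 1 := by rw [one_mul]; exact hqA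
  have h4 : A.valuation (1 : L) < 1 := by
    rw [h1]
    exact Valuation.map_add_lt _ h2 h3
  rw [map_one] at h4
  exact lt_irrefl _ h4

/-- Reduction is injective on `n`-th roots of unity when `n` is a unit. -/
theorem h89_eq_one_of_sub_one_mem' (A : ValuationSubring L) (n : ℕ)
    (hnA : (n : L) ∉ A.nonunits) {w : L} (hw : w ^ n = 1)
    (h1 : w - 1 ∈ A.nonunits) : w = 1 := by
  by_contra hne
  rw [A.mem_nonunits_iff] at h1 hnA
  have hn0 : n ≠ 0 := by
    intro h0
    apply hnA
    rw [h0, Nat.cast_zero, map_zero]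
    exact zero_lt_one
  have hsum : ∑ i ∈ Finset.range n, w ^ i = 0 := by
    have h := mul_geom_sum w n
    rw [hw, sub_self] at h
    rcases mul_eq_zero.1 h with h | h
    · exact absurd (sub_eq_zero.1 h) hne
    · exact h
  have hterm : ∀ i : ℕ, A.valuation (1 - w ^ i) < 1 := by
    intro i
    have h := mul_geom_sum w i
    have h' : 1 - w ^ i = -((w - 1) * ∑ j ∈ Finset.range i, w ^ j) := by rw [h]; ring
    rw [h', Valuation.map_neg, map_mul]
    have hS : A.valuation (∑ j ∈ Finset.range i, w ^ j) ≤ 1 := by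
      refine Valuation.map_sum_le _ (fun j _ => ?_)
      rw [map_pow]
      rw [h89_valuation_eq_one_of_pow_eq_one A hn0 hw, one_pow]
    calc A.valuation (w - 1) * A.valuation (∑ j ∈ Finset.range i, w ^ j)
        ≤ A.valuation (w - 1) * 1 := mul_le_mul_right hS _
      _ < 1 := by rw [mul_one]; exact h1
  have hpn : ((n : ℕ) : L) = ∑ i ∈ Finset.range n, (1 - w ^ i) := by
    rw [Finset.sum_sub_distrib, hsum, sub_zero, Finset.sum_const, Finset.card_range,
      nsmul_eq_mul, mul_one]
  have hlt : A.valuation ((n : ℕ) : L) < 1 := by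
    rw [hpn]
    exact Valuation.map_sum_lt _ one_ne_zero (fun i _ => hterm i)
  exact hnA hlt

theorem h89_eq_of_sub_mem' (A : ValuationSubring L) (n : ℕ)
    (hnA : (n : L) ∉ A.nonunits) {u v : L} (hu : u ^ n = 1)
    (hv : v ^ n = 1) (h : u - v ∈ A.nonunits) : u = v := by
  have hn0 : n ≠ 0 := by
    intro h0
    apply hnA
    rw [h0, Nat.cast_zero, A.mem_nonunits_iff, map_zero]
    exact zero_lt_one
  have hv0 : v ≠ 0 := by
    rintro rfl
    rw [zero_pow hn0] at hv
    exact zero_ne_one hv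
  have hw : (u * v⁻¹) ^ n = 1 := by rw [mul_pow, inv_pow, hu, hv, inv_one, mul_one]
  have hw1 : u * v⁻¹ - 1 ∈ A.nonunits := by
    rw [A.mem_nonunits_iff] at h ⊢
    have : u * v⁻¹ - 1 = (u - v) * v⁻¹ := by field_simp
    rw [this, map_mul, map_inv₀, h89_valuation_eq_one_of_pow_eq_one A hn0 hv, inv_one, mul_one]
    exact h
  have := h89_eq_one_of_sub_one_mem' A n hnA hw hw1
  field_simp at this
  exact this

end Roots

/-- **Leaf `Stmt_FrobCyc`.** -/
theorem stmt_FrobCyc : Fermat.Agent.R.Stmt_FrobCyc := by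
  intro ℓ _ A hA σ hσ n hn ζ hζ
  have hnA := h89_coprime_not_mem_nonunits A hn hA
  have hn0 : n ≠ 0 := by
    intro h0
    apply hnA
    rw [h0, Nat.cast_zero, A.mem_nonunits_iff, map_zero]
    exact zero_lt_one
  have hζA : ζ ∈ A := (A.valuation_le_one_iff ζ).1
    (le_of_eq (h89_valuation_eq_one_of_pow_eq_one A hn0 hζ))
  refine h89_eq_of_sub_mem' A n hnA ?_ ?_ (h89_frob_sub_mem A hσ hζA)
  · rw [← map_pow, hζ, map_one]
  · rw [← pow_mul, mul_comm, pow_mul, hζ, one_pow]

/-- Inertia at `q` fixes the roots of unity of order prime to `q`. -/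
theorem inertia_fixes_rootsOfUnity (q : ℕ)
    (P : ValuationSubring (AlgebraicClosure ℚ)) (hP : P.LiesOverPrime q)
    (σ : AlgebraicClosure ℚ ≃ₐ[ℚ] AlgebraicClosure ℚ) (hσ : σ ∈ P.inertiaSubgroupIn ℚ)
    (n : ℕ) (hn : n.Coprime q) (ζ : AlgebraicClosure ℚ) (hζ : ζ ^ n = 1) : σ ζ = ζ := by
  have hnA := h89_coprime_not_mem_nonunits P hn hP
  have hn0 : n ≠ 0 := by
    intro h0
    apply hnA
    rw [h0, Nat.cast_zero, P.mem_nonunits_iff, map_zero]
    exact zero_lt_one
  have hζA : ζ ∈ P := (P.valuation_le_one_iff ζ).1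
    (le_of_eq (h89_valuation_eq_one_of_pow_eq_one P hn0 hζ))
  refine h89_eq_of_sub_mem' P n hnA ?_ hζ
    (Fermat.Agent.S05.H95.sub_mem_nonunits_of_mem_inertia P hσ hζA)
  rw [← map_pow, hζ, map_one]

end Fermat.Agent.R.H89
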