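import Fermat.Agent.R.H86_Defs3

/-!
# Cluster R: interfaces for the split of S33 (`p ∥ N`, ordinary) into an old and a new case
(helper86)

`Stmt_OrdPoint` (S33 over a complete discrete valuation ring) splits according to whether the
eigensystem `χ` of level `N = M p` already occurs at level `M = N / p`:

* **old case** (`χ` occurs at level `N / p`): `ρ` is flat at `p` by `Stmt_FlatPoint` at level
  `N / p`, and a flat, residually ordinary representation whose determinant is ramified at `p`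
  is ordinary: `Stmt_FlatOrd` (pure algebra, from `Stmt_FlatInf`).
* **new case** (`χ` does not occur at level `N / p`): `Stmt_OrdNew` (geometric input: the toric
  part of `J₀(N)` at `p`).

Leaves:

* `Stmt_UnrFix`  : the field fixed by an inertia group at `ℓ` is unramified at `ℓ`
  (non-normal form of `Fermat.Agent.Lib.UnramVal.valuation_eq_zpow`).
* `Stmt_FlatInf` : the points of a finite flat group scheme over `ℤ_(p)`, `p` odd, which reduce
  to the identity ("infinitesimal points") contain `(σ - 1) M` for `σ` in inertia, and an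
  infinitesimal point of order `p` whose class modulo a decomposition-stable subgroup `N` is
  fixed by inertia lies in `N` (a connected finite flat group scheme over an unramified base, `p` odd,
  has no non-trivial unramified quotient).
-/

set_option autoImplicit false

open Polynomial IsLocalRing

namespace Fermat.Agent.R

/-- Every non-zero element of `ℚ̄` fixed by the inertia group of `A` (over `ℓ`) has valuation an
integral power of the valuation of `ℓ`. -/
def Stmt_UnrFix : Prop :=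
  ∀ (ℓ : ℕ), ℓ.Prime →
    ∀ A : ValuationSubring (AlgebraicClosure ℚ), A.LiesOverPrime ℓ →
      ∀ x : AlgebraicClosure ℚ, x ≠ 0 → (∀ σ ∈ A.inertiaSubgroupIn ℚ, σ x = x) →
        ∃ k : ℤ, A.valuation x = A.valuation (ℓ : AlgebraicClosure ℚ) ^ k

/-- **Infinitesimal points of a flat Galois module**, `p` odd.  For every place `P` over `p`
there is a subgroup `Inf` of `M` (the points reducing to the identity at `P`) which contains
`(σ - 1) M` for all `σ` in the inertia group of `P`, and such that: if `N` is a subgroup stable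
under the decomposition group of `P`, `x ∈ Inf`, `p • x ∈ N` and inertia fixes the class of `x`
modulo `N`, then `x ∈ N`. -/
def Stmt_FlatInf : Prop :=
  ∀ (p : ℕ), p.Prime → p ≠ 2 →
    ∀ (M : Type) [AddCommGroup M]
      (act : (AlgebraicClosure ℚ ≃ₐ[ℚ] AlgebraicClosure ℚ) → M → M),
      IsFlatGaloisModule p M act →
      ∀ P : ValuationSubring (AlgebraicClosure ℚ), P.LiesOverPrime p →
        ∃ Inf : AddSubgroup M,
          (∀ σ ∈ P.inertiaSubgroupIn ℚ, ∀ x : M, act σ x - x ∈ Inf) ∧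
          ∀ N : AddSubgroup M, (∀ σ ∈ P.decompositionSubgroup ℚ, ∀ x ∈ N, act σ x ∈ N) →
            ∀ x ∈ Inf, p • x ∈ N → (∀ σ ∈ P.inertiaSubgroupIn ℚ, act σ x - x ∈ N) → x ∈ N

/-- **Flat and residually ordinary implies ordinary** (when inertia at `p` acts non-trivially on
the residual representation, e.g. when the determinant is cyclotomic), `p` odd. -/
def Stmt_FlatOrd : Prop :=
  ∀ (p : ℕ), p.Prime → p ≠ 2 →
    ∀ (𝒪 : Type) [CommRing 𝒪] [IsDomain 𝒪] [IsDiscreteValuationRing 𝒪]
      [Finite (ResidueField 𝒪)],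
      (p : 𝒪) ∈ maximalIdeal 𝒪 →
      ∀ ρ : GaloisRepAdic 𝒪, ρ.IsFlatAt p →
        (∀ P : ValuationSubring (AlgebraicClosure ℚ), P.LiesOverPrime p →
          ∃ σ₀ ∈ P.inertiaSubgroupIn ℚ, ∃ v₀ : ρ.V,
            ρ.ρ σ₀ v₀ - v₀ ∉ maximalIdeal 𝒪 • (⊤ : Submodule 𝒪 ρ.V)) →
        (GaloisRepAdic.ofResidualGaloisRep ρ.residual).IsOrdinaryAt p →
        ρ.IsOrdinaryAt p

/-- The eigensystem `χ` of level `N` (away from `S`) occurs at level `M`. -/
def OccursAtLevel {N : ℕ} [NeZero N] {S : Finset ℕ} {𝒪 : Type} [CommRing 𝒪]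
    (χ : CuspForm.heckeAlgebra N 2 (↑S : Set ℕ) →+* 𝒪) (M : ℕ) [NeZero M] : Prop :=
  ∃ χ' : CuspForm.heckeAlgebra M 2 (↑S : Set ℕ) →+* 𝒪,
    ∀ (ℓ : ℕ) (hℓ : ℓ.Prime) (hℓN : ¬ ℓ ∣ N) (hℓM : ¬ ℓ ∣ M) (hℓS : ℓ ∉ (↑S : Set ℕ)),
      χ' (CuspForm.heckeAlgebra.T hℓ hℓM hℓS) = χ (CuspForm.heckeAlgebra.T hℓ hℓN hℓS)

/-- **S33 over a complete discrete valuation ring, `p`-new case**: if the eigensystem does not
occur at level `N / p`, the representation is ordinary at `p` (no residual hypothesis on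
ordinarity is needed). -/
def Stmt_OrdNew : Prop :=
  ∀ (p : ℕ) (N M : ℕ) [NeZero N] [NeZero M] (S : Finset ℕ)
    (𝒪 : Type) [CommRing 𝒪] [IsDomain 𝒪] [IsDiscreteValuationRing 𝒪]
    [IsAdicComplete (maximalIdeal 𝒪) 𝒪] [Finite (ResidueField 𝒪)] [CharZero 𝒪],
    p.Prime → p ≠ 2 → (p : 𝒪) ∈ maximalIdeal 𝒪 → N = M * p → ¬ p ∣ M →
    (∀ q : ℕ, q.Prime → q ∣ N → q ∈ S) →
    ∀ (χ : CuspForm.heckeAlgebra N 2 (↑S : Set ℕ) →+* 𝒪) (ρ : GaloisRepAdic 𝒪),
      HasFrobCharpoly χ ρ → ρ.residual.IsAbsolutelyIrreducible →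
      ¬ OccursAtLevel χ M →
      ρ.IsOrdinaryAt p

end Fermat.Agent.R
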