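import Fermat.Agent.Lib.UnramVal
import Fermat.Agent.R.H86_Defs4

/-!
# Cluster R leaf UNR (helper6): the field fixed by an inertia group is unramified

`stmt_UnrFix : Fermat.Agent.R.Stmt_UnrFix` : every non-zero element of `ℚ̄` fixed by the inertia
group of a valuation subring `V` over `ℓ` has valuation an integral power of the valuation of `ℓ`.

Route: `L` = a finite normal extension of `ℚ` containing `x`, `P` = the prime of `𝓞 L` cut out by
`V`, `E = L^I` the inertia field of `P`.  Then `e(P ∩ E | ℓ) = 1` (Hilbert theory, the inertia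
analogue of Mathlib's `IsDecompositionField.ramificationIdx_eq`), so `ℓ` is a uniformizer at
`P ∩ E`, and `x ∈ E` by the inertia lifting statement.
-/

set_option autoImplicit false

open scoped Pointwise NumberField

namespace Fermat.Agent.R.H6

open MulAction Ideal

section inertiaField

variable (A K L : Type*) {B : Type*} [Field K] [Field L] [Algebra K L] [CommRing A] [CommRing B]
  [Algebra A B] {p : Ideal A} (P : Ideal B) [P.LiesOver p]
  [Algebra A K] [IsFractionRing A K] [Algebra A L] [IsScalarTower A K L] [Algebra B L]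
  [IsScalarTower A B L] [IsFractionRing B L] [MulSemiringAction Gal(L/K) B]
  [SMulDistribClass Gal(L/K) B L]
  (E 𝓞E : Type*) [Field E] [Algebra E L] [IsInertiaField K L P E] [CommRing 𝓞E]
  [Algebra 𝓞E E] [IsFractionRing 𝓞E E] [Algebra 𝓞E B] [Algebra 𝓞E L] [IsScalarTower 𝓞E E L]
  [IsScalarTower 𝓞E B L] (𝓟E : Ideal 𝓞E) [hE : P.LiesOver 𝓟E]
  [IsGalois K L] [IsDedekindDomain A] [IsDedekindDomain B] [Module.Finite A B]
  [Module.IsTorsionFree A B] [Algebra A 𝓞E] [Module.Finite A 𝓞E] [IsScalarTower A 𝓞E B]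
  [IsDedekindDomain 𝓞E] [𝓟E.LiesOver p]

omit [P.LiesOver p] hE in
include K L E P in
theorem inertiaField_instances (hp : p ≠ ⊥) :
    Module.Finite 𝓞E B ∧ Module.IsTorsionFree 𝓞E B ∧ Module.IsTorsionFree A 𝓞E ∧
      IsGaloisGroup Gal(L/K) A B ∧ IsGaloisGroup (inertia Gal(L/K) P) 𝓞E B ∧ 𝓟E ≠ ⊥ := by
  have inst₁ : Module.Finite 𝓞E B := Module.Finite.right A 𝓞E B
  have inst₂ : Module.IsTorsionFree 𝓞E B := by
    rw [Module.isTorsionFree_iff_faithfulSMul]
    apply Algebra.IsAlgebraic.faithfulSMul_tower_top A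
  have inst₃ : Module.IsTorsionFree A 𝓞E := Module.IsTorsionFree.of_faithfulSMul _ _ B
  have inst₄ : IsGaloisGroup Gal(L/K) A B := .of_isFractionRing _ _ _ K L
  have inst₅ : IsGaloisGroup (inertia Gal(L/K) P) 𝓞E B := .of_isFractionRing _ _ _ E L
  exact ⟨inst₁, inst₂, inst₃, inst₄, inst₅, Ideal.ne_bot_of_liesOver_of_ne_bot hp 𝓟E⟩

variable [FiniteDimensional K L] [Ring.HasFiniteQuotients A] [𝓟E.IsMaximal] [P.IsMaximal]

include K L E P in
/-- The ramification index of `P` over the prime of the inertia field below it is the whole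
ramification index. -/
theorem inertiaField_ramificationIdxIn_eq (hp : p ≠ ⊥) [PerfectField 𝓟E.ResidueField] :
    ramificationIdxIn 𝓟E B = p.ramificationIdxIn B := by
  obtain ⟨_, _, _, _, _, h𝓟⟩ := inertiaField_instances A K L P E 𝓞E 𝓟E hp
  have : p.IsMaximal := over_def P p ▸ Ideal.IsMaximal.under A P
  have : Finite (A ⧸ p) := Ring.HasFiniteQuotients.finiteQuotient hp
  rw [← card_inertia_eq_ramificationIdxIn (G := inertia Gal(L/K) P) 𝓟E P,
    ← card_inertia_eq_ramificationIdxIn (G := Gal(L/K)) p P]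
  have htop : inertia (inertia Gal(L/K) P) P = ⊤ := by
    rw [eq_top_iff]
    intro σ _ x
    exact σ.2 x
  rw [htop, Subgroup.card_top]

include K L E P in
/-- The prime of the inertia field below `P` is unramified over the base. -/
theorem inertiaField_ramificationIdx_eq (hp : p ≠ ⊥) [PerfectField 𝓟E.ResidueField] :
    𝓟E.ramificationIdx A = 1 := by
  obtain ⟨_, _, _, _, _, h𝓟⟩ := inertiaField_instances A K L P E 𝓞E 𝓟E hp
  have := ramificationIdx_tower (R := A) 𝓟E P
  rwa [← ramificationIdxIn_eq_ramificationIdx 𝓟E P (inertia Gal(L/K) P),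
    inertiaField_ramificationIdxIn_eq A K L P E 𝓞E 𝓟E hp,
    ramificationIdxIn_eq_ramificationIdx p P Gal(L/K),
    right_eq_mul₀ <| (ramificationIdx_pos P A).ne'] at this

end inertiaField

open IsDedekindDomain in
/-- Abstract form: `R` Dedekind with fraction field `F`, `v` a height one prime, `π ∈ v \ v²`,
`w` a valuation on a field `M ⊇ F` for which the elements of `R` outside `v` are units.  Then the
`w`-valuation of every nonzero element of `F` is an integral power of that of `π`. -/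
theorem exists_zpow_of_uniformizer {R F M Γ : Type*} [CommRing R] [IsDedekindDomain R] [Field F]
    [Algebra R F] [IsFractionRing R F] [Field M] [LinearOrderedCommGroupWithZero Γ]
    (φ : F →+* M) (w : Valuation M Γ) (v : HeightOneSpectrum R)
    (hunit : ∀ b : R, b ∉ v.asIdeal → w (φ (algebraMap R F b)) = 1)
    (π : R) (hπ0 : π ≠ 0) (hπ : π ∈ v.asIdeal) (hπ2 : π ∉ v.asIdeal ^ 2)
    (y : F) (hy : y ≠ 0) : ∃ k : ℤ, w (φ y) = w (φ (algebraMap R F π)) ^ k := by
  have hπv : v.valuation F (algebraMap R F π) = WithZero.exp (-1 : ℤ) := by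
    have h0 : v.intValuation π ≠ 0 := HeightOneSpectrum.intValuation_ne_zero _ _ hπ0
    have h1 : v.intValuation π ≤ WithZero.exp (-((1 : ℕ) : ℤ)) := by
      rw [HeightOneSpectrum.intValuation_le_pow_iff_mem, pow_one]; exact hπ
    have h2 : ¬ v.intValuation π ≤ WithZero.exp (-((2 : ℕ) : ℤ)) := by
      rw [HeightOneSpectrum.intValuation_le_pow_iff_mem]; exact hπ2
    rw [HeightOneSpectrum.valuation_of_algebraMap]
    rw [← WithZero.exp_log h0] at h1 h2 ⊢
    rw [WithZero.exp_le_exp] at h1 h2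
    congr 1
    push_cast at h1 h2
    omega
  have hu : ∀ b : R, v.valuation F (algebraMap R F b) = 1 → w (φ (algebraMap R F b)) = 1 := by
    intro b hb
    rw [HeightOneSpectrum.valuation_eq_one_iff_notMem] at hb
    exact hunit b hb
  have hval1 : ∀ z : F, v.valuation F z = 1 → w (φ z) = 1 := by
    intro z hz
    obtain ⟨n, d, h | h⟩ := HeightOneSpectrum.exists_primeCompl_mul_eq_or_mul_eq (K := F) v z
    · have hd : v.valuation F (algebraMap R F d) = 1 :=
        (HeightOneSpectrum.valuation_eq_one_iff_notMem (v := v)).mpr d.2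
      have hn : v.valuation F (algebraMap R F n) = 1 := by
        rw [← h, map_mul, hz, hd, one_mul]
      have h4 := congrArg (fun t => w (φ t)) h
      simp only [map_mul] at h4
      rw [hu d hd, hu n hn, mul_one] at h4
      exact h4
    · have hd : v.valuation F (algebraMap R F d) = 1 :=
        (HeightOneSpectrum.valuation_eq_one_iff_notMem (v := v)).mpr d.2
      have hn : v.valuation F (algebraMap R F n) = 1 := by
        have := congrArg (v.valuation F) h
        rw [map_mul, hz, hd, one_mul] at this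
        exact this
      have h4 := congrArg (fun t => w (φ t)) h
      simp only [map_mul] at h4
      rw [hu d hd, hu n hn, mul_one] at h4
      exact h4
  have hvy : v.valuation F y ≠ 0 := (Valuation.ne_zero_iff _).mpr hy
  set k : ℤ := WithZero.log (v.valuation F y) with hk
  have hπF : algebraMap R F π ≠ 0 := by
    intro h
    exact hπ0 ((FaithfulSMul.algebraMap_eq_zero_iff R F).mp h)
  have h1 : v.valuation F (y * (algebraMap R F π) ^ k) = 1 := by
    rw [map_mul, map_zpow₀, hπv, ← WithZero.exp_log hvy, ← hk, ← WithZero.exp_zsmul,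
      ← WithZero.exp_add]
    simp
  have h2 := hval1 _ h1
  rw [map_mul, map_zpow₀, map_mul, map_zpow₀] at h2
  refine ⟨-k, ?_⟩
  rw [zpow_neg]
  exact eq_inv_of_mul_eq_one_left h2

open Fermat.Agent.Lib.Minkowski Fermat.Agent.Lib.UnramVal IsDedekindDomain

attribute [local instance] qbar_isAlgebraic qbar_isAlgClosure qbar_isGalois qbar_normal

section concrete

variable (L : IntermediateField ℚ (AlgebraicClosure ℚ))
  (V : ValuationSubring (AlgebraicClosure ℚ))

/-- Every element of the inertia group of the prime cut out by `V` in `Gal(L/ℚ)` is the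
restriction of an element of the inertia group of `V`. -/
theorem exists_inertia_lift [Normal ℚ L] (ℓ : ℕ) (hℓ : ℓ.Prime) (hV : V.LiesOverPrime ℓ)
    (τ : L ≃ₐ[ℚ] L) (hτ : τ ∈ (primeBelow L V).inertia (L ≃ₐ[ℚ] L)) :
    ∃ σ ∈ V.inertiaSubgroupIn ℚ, ∀ x : L, σ (x : AlgebraicClosure ℚ) = ((τ x : L) :
      AlgebraicClosure ℚ) := by
  obtain ⟨σ₀, hσ₀⟩ := AlgEquiv.restrictNormalHom_surjective (F := ℚ) (K₁ := L)
    (AlgebraicClosure ℚ) τ
  have hcomm : ∀ x : L, ((τ x : L) : AlgebraicClosure ℚ) = σ₀ (x : AlgebraicClosure ℚ) := by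
    intro x
    rw [← hσ₀]
    exact AlgEquiv.restrictNormal_commutes σ₀ L x
  have key : ∀ x : AlgebraicClosure ℚ, x ∈ L → IsIntegral ℤ x → σ₀ x - x ∈ V.nonunits := by
    intro x hxL hxint
    have hxint' : IsIntegral ℤ (⟨x, hxL⟩ : L) := by
      rw [← isIntegral_algebraMap_iff (FaithfulSMul.algebraMap_injective L (AlgebraicClosure ℚ))]
      exact hxint
    let b : 𝓞 L := ⟨⟨x, hxL⟩, hxint'⟩
    have h1 : τ • b - b ∈ primeBelow L V := hτ b
    rw [mem_primeBelow, map_sub] at h1
    have h2 : algebraMap (𝓞 L) (AlgebraicClosure ℚ) (τ • b) = σ₀ x := by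
      have h3 : algebraMap (𝓞 L) (AlgebraicClosure ℚ) (τ • b)
          = ((τ (⟨x, hxL⟩ : L) : L) : AlgebraicClosure ℚ) := rfl
      rw [h3, hcomm]
    have h4 : algebraMap (𝓞 L) (AlgebraicClosure ℚ) b = x := rfl
    rw [h2, h4] at h1
    exact V.mem_nonunits_iff.mpr h1
  obtain ⟨σ, hσ, hσeq⟩ := liftStmt ℓ hℓ V hV L σ₀ key
  exact ⟨σ, hσ, fun x => by rw [hcomm, hσeq x x.2]⟩

theorem numberField_of_finite [FiniteDimensional ℚ L] : NumberField L := ⟨⟩

theorem isGalois_of_normal [Normal ℚ L] : IsGalois ℚ L := ⟨⟩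

attribute [local instance] numberField_of_finite isGalois_of_normal

variable [FiniteDimensional ℚ L] [Normal ℚ L]

/-- The inertia field of the prime of `L` cut out by `V`. -/
noncomputable abbrev inF : IntermediateField ℚ L :=
  FixedPoints.intermediateField (inertia Gal(L/ℚ) (primeBelow L V))

/-- The prime of the inertia field cut out by `V`. -/
noncomputable abbrev inP : Ideal (𝓞 (inF L V)) := (primeBelow L V).under (𝓞 (inF L V))

variable (ℓ : ℕ) (hℓ : ℓ.Prime) (hV : V.LiesOverPrime ℓ)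

omit [FiniteDimensional ℚ L] [Normal ℚ L] in
include hℓ hV in
theorem primeBelow_liesOver : (primeBelow L V).LiesOver (Ideal.span {(ℓ : ℤ)}) := by
  have := primeBelow_isPrime L V
  have hmem : (ℓ : 𝓞 L) ∈ primeBelow L V := natCast_mem_primeBelow L V ℓ hV
  constructor
  have hmax : (Ideal.span {(ℓ : ℤ)}).IsMaximal :=
    PrincipalIdealRing.isMaximal_of_irreducible
      (Nat.prime_iff_prime_int.mp hℓ).irreducible
  refine hmax.eq_of_le ?_ ?_
  · exact (Ideal.IsPrime.under ℤ (primeBelow L V)).ne_top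
  · rw [Ideal.span_le]
    rintro _ rfl
    show algebraMap ℤ (𝓞 L) (ℓ : ℤ) ∈ primeBelow L V
    simpa using hmem

omit [FiniteDimensional ℚ L] [Normal ℚ L] in
include hℓ hV in
theorem primeBelow_ne_bot : primeBelow L V ≠ ⊥ := by
  intro h
  have hmem : (ℓ : 𝓞 L) ∈ primeBelow L V := natCast_mem_primeBelow L V ℓ hV
  rw [h, Ideal.mem_bot] at hmem
  exact hℓ.ne_zero (by exact_mod_cast hmem)

omit [Normal ℚ L] in
include hℓ hV in
theorem primeBelow_isMaximal : (primeBelow L V).IsMaximal := by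
  have := primeBelow_isPrime L V
  exact Ring.DimensionLEOne.maximalOfPrime (primeBelow_ne_bot L V ℓ hℓ hV) inferInstance

omit [FiniteDimensional ℚ L] [Normal ℚ L] in
include hV in
theorem natCast_mem_inP : (ℓ : 𝓞 (inF L V)) ∈ inP L V := by
  show algebraMap (𝓞 (inF L V)) (𝓞 L) (ℓ : 𝓞 (inF L V)) ∈ primeBelow L V
  rw [map_natCast]
  exact natCast_mem_primeBelow L V ℓ hV

include hℓ hV in
theorem inP_unramified : (ℓ : 𝓞 (inF L V)) ∉ (inP L V) ^ 2 := by
  have hPprime := primeBelow_isPrime L V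
  have hPmax := primeBelow_isMaximal L V ℓ hℓ hV
  have hPover := primeBelow_liesOver L V ℓ hℓ hV
  have hspan : (Ideal.span {(ℓ : ℤ)}) ≠ ⊥ := by simp [hℓ.ne_zero]
  have h𝓟over : (inP L V).LiesOver (Ideal.span {(ℓ : ℤ)}) := by
    constructor
    rw [hPover.over, inP, Ideal.under_under]
  have h𝓟max : (inP L V).IsMaximal := Ideal.IsMaximal.under (𝓞 (inF L V)) (primeBelow L V)
  have h𝓟0 : inP L V ≠ ⊥ := Ideal.ne_bot_of_liesOver_of_ne_bot hspan (inP L V)
  have hfinq : Finite (𝓞 (inF L V) ⧸ inP L V) := Ring.HasFiniteQuotients.finiteQuotient h𝓟0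
  have he : (inP L V).ramificationIdx ℤ = 1 :=
    inertiaField_ramificationIdx_eq ℤ ℚ L (primeBelow L V) (inF L V) (𝓞 (inF L V)) (inP L V)
      (p := Ideal.span {(ℓ : ℤ)}) hspan
  have hmem : (ℓ : 𝓞 (inF L V)) ∈ inP L V := natCast_mem_inP L V ℓ hV
  have he' : (Ideal.span {(ℓ : ℤ)}).ramificationIdx' (inP L V) = 1 := by
    rw [Ideal.ramificationIdx'_eq_ramificationIdx _ _ hspan, he]
  intro h2
  have hle : (Ideal.span {(ℓ : ℤ)}).map (algebraMap ℤ (𝓞 (inF L V))) ≤ inP L V := by
    rw [Ideal.map_span, Ideal.span_le]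
    rintro _ ⟨_, rfl, rfl⟩
    simpa using hmem
  have := (Ideal.ramificationIdx'_ne_one_iff hle).mpr (by
    rw [Ideal.map_span, Ideal.span_le]
    rintro _ ⟨_, rfl, rfl⟩
    simpa using h2)
  exact this he'

include hℓ hV in
/-- The statement for the elements of a finite normal extension `L` of `ℚ`. -/
theorem valuation_eq_zpow_of_mem (x : AlgebraicClosure ℚ) (hxL : x ∈ L) (hx0 : x ≠ 0)
    (hfix : ∀ σ ∈ V.inertiaSubgroupIn ℚ, σ x = x) :
    ∃ k : ℤ, V.valuation x = V.valuation (ℓ : AlgebraicClosure ℚ) ^ k := by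
  have hPprime := primeBelow_isPrime L V
  have hPover := primeBelow_liesOver L V ℓ hℓ hV
  have hspan : (Ideal.span {(ℓ : ℤ)}) ≠ ⊥ := by simp [hℓ.ne_zero]
  have h𝓟over : (inP L V).LiesOver (Ideal.span {(ℓ : ℤ)}) := by
    constructor
    rw [hPover.over, inP, Ideal.under_under]
  have h𝓟0 : inP L V ≠ ⊥ := Ideal.ne_bot_of_liesOver_of_ne_bot hspan (inP L V)
  have hxE : (⟨x, hxL⟩ : L) ∈ inF L V := by
    intro τ
    obtain ⟨σ, hσ, hσeq⟩ := exists_inertia_lift L V ℓ hℓ hV τ.1 τ.2
    apply Subtype.ext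
    have h1 := hσeq ⟨x, hxL⟩
    rw [hfix σ hσ] at h1
    exact h1.symm
  let v : HeightOneSpectrum (𝓞 (inF L V)) := ⟨inP L V, inferInstance, h𝓟0⟩
  let φ : inF L V →+* AlgebraicClosure ℚ :=
    (algebraMap L (AlgebraicClosure ℚ)).comp (algebraMap (inF L V) L)
  have hunit : ∀ b : 𝓞 (inF L V), b ∉ v.asIdeal →
      V.valuation (φ (algebraMap (𝓞 (inF L V)) (inF L V) b)) = 1 := by
    intro b hb
    have hb' : algebraMap (𝓞 (inF L V)) (𝓞 L) b ∉ primeBelow L V := fun h => hb h
    exact val_eq_one_of_notMem L V _ hb'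
  have hℓ0 : (ℓ : 𝓞 (inF L V)) ≠ 0 := by exact_mod_cast hℓ.ne_zero
  have hxE0 : (⟨⟨x, hxL⟩, hxE⟩ : inF L V) ≠ 0 := by
    intro h
    exact hx0 (congrArg (fun t : inF L V => ((t : L) : AlgebraicClosure ℚ)) h)
  obtain ⟨k, hk⟩ := exists_zpow_of_uniformizer φ V.valuation v hunit (ℓ : 𝓞 (inF L V)) hℓ0
    (natCast_mem_inP L V ℓ hV) (inP_unramified L V ℓ hℓ hV) ⟨⟨x, hxL⟩, hxE⟩ hxE0
  refine ⟨k, ?_⟩
  have h1 : φ (⟨⟨x, hxL⟩, hxE⟩ : inF L V) = x := rfl
  have h2 : φ (algebraMap (𝓞 (inF L V)) (inF L V) (ℓ : 𝓞 (inF L V)))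
      = (ℓ : AlgebraicClosure ℚ) := by
    rw [map_natCast, map_natCast]
  rw [h1, h2] at hk
  exact hk

end concrete

/-- **UNR** (`Stmt_UnrFix`): every non-zero element of `ℚ̄` fixed by the inertia group of a
valuation subring over `ℓ` has valuation an integral power of the valuation of `ℓ`. -/
theorem stmt_UnrFix : Fermat.Agent.R.Stmt_UnrFix := by
  intro ℓ hℓ V hV x hx0 hfix
  let L : IntermediateField ℚ (AlgebraicClosure ℚ) :=
    IntermediateField.adjoin ℚ ((minpoly ℚ x).rootSet (AlgebraicClosure ℚ))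
  have hsplit : ((minpoly ℚ x).map (algebraMap ℚ (AlgebraicClosure ℚ))).Splits :=
    IsAlgClosed.splits _
  have hsf : (minpoly ℚ x).IsSplittingField ℚ L :=
    IntermediateField.adjoin_rootSet_isSplittingField hsplit
  have hfin : FiniteDimensional ℚ L := Polynomial.IsSplittingField.finiteDimensional L (minpoly ℚ x)
  have hnorm : Normal ℚ L := Normal.of_isSplittingField (minpoly ℚ x)
  have hxL : x ∈ L := by
    apply IntermediateField.subset_adjoin
    rw [Polynomial.mem_rootSet]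
    exact ⟨minpoly.ne_zero (Algebra.IsIntegral.isIntegral x), minpoly.aeval ℚ x⟩
  exact valuation_eq_zpow_of_mem L V ℓ hℓ hV x hxL hx0 hfix

end Fermat.Agent.R.H6
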