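import Mathlib
import Fermat.Agent.R.H86_Defs2
import Fermat.Agent.R.H89_CycChar
import Fermat.Agent.Lib.InertiaLift

/-!
# Cluster R (helper2): `Stmt_FrobCyc` and `Stmt_CycInertia`

* `stmt_FrobCyc` : a Frobenius element at `ℓ` raises roots of unity of order prime to `ℓ` to the
  `ℓ`-th power.
* `stmt_CycInertia` : for `p` odd, the inertia group at `p` moves a `p`-th root of unity
  (`ℚ(ζ_p)` is totally ramified at `p`: every automorphism is congruent to the identity on
  `ℤ[ζ_p]` modulo the prime above `p`; then lift inertia, `Lib/InertiaLift.lean`).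
-/

set_option autoImplicit false
set_option linter.style.haveILetI false
set_option linter.unusedSectionVars false
set_option linter.dupNamespace false

namespace Fermat.Agent.R.H2

open Fermat.Agent.R.H89

section general

variable {L : Type*} [Field L]

/-- A natural number prime to the residue characteristic is a unit of the valuation subring. -/
theorem natCast_not_mem_nonunits_of_coprime (A : ValuationSubring L) {n ℓ : ℕ}
    (hcop : n.Coprime ℓ) (hℓ : (ℓ : L) ∈ A.nonunits) : (n : L) ∉ A.nonunits := by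
  intro hn
  rw [A.mem_nonunits_iff] at hn hℓ
  have hc : IsCoprime (n : ℤ) (ℓ : ℤ) := Nat.isCoprime_iff_coprime.2 hcop
  obtain ⟨a, b, hab⟩ := hc
  have h1 : (1 : L) = (a : L) * (n : L) + (b : L) * (ℓ : L) := by
    have := congrArg (fun z : ℤ => (z : L)) hab
    simp only [Int.cast_add, Int.cast_mul, Int.cast_natCast, Int.cast_one] at this
    exact this.symm
  have h2 : A.valuation ((a : L) * (n : L)) < 1 := by
    rw [map_mul]
    calc A.valuation (a : L) * A.valuation (n : L) ≤ 1 * A.valuation (n : L) :=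
          mul_le_mul_left (h89_valuation_intCast_le_one A a) _
      _ < 1 := by rw [one_mul]; exact hn
  have h3 : A.valuation ((b : L) * (ℓ : L)) < 1 := by
    rw [map_mul]
    calc A.valuation (b : L) * A.valuation (ℓ : L) ≤ 1 * A.valuation (ℓ : L) :=
          mul_le_mul_left (h89_valuation_intCast_le_one A b) _
      _ < 1 := by rw [one_mul]; exact hℓ
  have h4 : A.valuation (1 : L) < 1 := by
    rw [h1]
    exact Valuation.map_add_lt _ h2 h3
  rw [map_one] at h4
  exact lt_irrefl _ h4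

/-- A `p`-th root of unity is congruent to `1` modulo a prime above `p`. -/
theorem sub_one_mem_nonunits_of_pow_eq_one (A : ValuationSubring L) (p : ℕ) [Fact p.Prime]
    (hp : (p : L) ∈ A.nonunits) {w : L} (hw : w ^ p = 1) : w - 1 ∈ A.nonunits := by
  have hwA : w ∈ A := by
    rw [← A.valuation_le_one_iff,
      h89_valuation_eq_one_of_pow_eq_one A (Fact.out : p.Prime).ne_zero hw]
  haveI : CharP (IsLocalRing.ResidueField A) p := by
    apply (CharP.charP_iff_prime_eq_zero (Fact.out : p.Prime)).2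
    have h1 : (((p : ℕ) : A) : L) ∈ A.nonunits := by
      rw [show (((p : ℕ) : A) : L) = (p : L) by simp]
      exact hp
    obtain ⟨ha, hmem⟩ := (A.mem_nonunits_iff_exists_mem_maximalIdeal).1 h1
    rw [← map_natCast (IsLocalRing.residue A)]
    exact (IsLocalRing.residue_eq_zero_iff _).2 hmem
  have h3 : frobenius (IsLocalRing.ResidueField A) p (IsLocalRing.residue A ⟨w, hwA⟩) =
      frobenius (IsLocalRing.ResidueField A) p 1 := by
    rw [frobenius_def, frobenius_def, one_pow, ← map_pow]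
    have : (⟨w, hwA⟩ : A) ^ p = 1 := Subtype.ext (by simpa using hw)
    rw [this, map_one]
  have h4 : IsLocalRing.residue A ⟨w, hwA⟩ = 1 :=
    frobenius_inj (IsLocalRing.ResidueField A) p h3
  have h5 : ((⟨w, hwA⟩ : A) - 1) ∈ IsLocalRing.maximalIdeal A := by
    rw [← IsLocalRing.residue_eq_zero_iff, map_sub, h4, map_one, sub_self]
  exact (A.mem_nonunits_iff_exists_mem_maximalIdeal (a := w - 1)).2
    ⟨A.sub_mem hwA A.one_mem, h5⟩

/-- If `σ` is congruent to the identity at `ζ` modulo the maximal ideal of `A`, it is so on all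
of `ℤ[ζ]`. -/
theorem sub_mem_nonunits_of_mem_adjoin (A : ValuationSubring L) (σ : L →+* L) {ζ : L}
    (hζA : ζ ∈ A) (hσζ : σ ζ - ζ ∈ A.nonunits) {x : L}
    (hx : x ∈ Algebra.adjoin ℤ ({ζ} : Set L)) : x ∈ A ∧ σ x - x ∈ A.nonunits := by
  induction hx using Algebra.adjoin_induction with
  | mem y hy =>
    rw [Set.mem_singleton_iff] at hy
    subst hy
    exact ⟨hζA, hσζ⟩
  | algebraMap r =>
    refine ⟨?_, ?_⟩
    · rw [eq_intCast]; exact intCast_mem A r
    · rw [eq_intCast, map_intCast, sub_self, A.mem_nonunits_iff, map_zero]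
      exact zero_lt_one
  | add y z _ _ hy hz =>
    refine ⟨add_mem hy.1 hz.1, ?_⟩
    have h1 : σ (y + z) - (y + z) = (σ y - y) + (σ z - z) := by rw [map_add]; ring
    rw [h1, A.mem_nonunits_iff]
    exact Valuation.map_add_lt _ (A.mem_nonunits_iff.1 hy.2) (A.mem_nonunits_iff.1 hz.2)
  | mul y z _ _ hy hz =>
    refine ⟨mul_mem hy.1 hz.1, ?_⟩
    have hσy : σ y ∈ A := by
      have : σ y = (σ y - y) + y := by ring
      rw [this]
      exact add_mem (A.nonunits_subset hy.2) hy.1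
    have h1 : σ (y * z) - y * z = σ y * (σ z - z) + (σ y - y) * z := by rw [map_mul]; ring
    rw [h1, A.mem_nonunits_iff]
    refine Valuation.map_add_lt _ ?_ ?_
    · rw [map_mul]
      calc A.valuation (σ y) * A.valuation (σ z - z) ≤ 1 * A.valuation (σ z - z) :=
            mul_le_mul_left ((A.valuation_le_one_iff _).2 hσy) _
        _ < 1 := by rw [one_mul]; exact A.mem_nonunits_iff.1 hz.2
    · rw [map_mul]
      calc A.valuation (σ y - y) * A.valuation z ≤ A.valuation (σ y - y) * 1 :=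
            mul_le_mul_right ((A.valuation_le_one_iff _).2 hz.1) _
        _ < 1 := by rw [mul_one]; exact A.mem_nonunits_iff.1 hy.2

end general

/-- **`Stmt_FrobCyc`.** -/
theorem stmt_FrobCyc : Fermat.Agent.R.Stmt_FrobCyc := by
  intro ℓ hℓ A hA σ hσ n hn ζ hζ
  have hn0 : n ≠ 0 := by
    rintro rfl
    rw [Nat.coprime_zero_left] at hn
    exact hℓ.one_lt.ne' hn
  have hnA : (n : AlgebraicClosure ℚ) ∉ A.nonunits :=
    natCast_not_mem_nonunits_of_coprime A hn hA
  have hζA : ζ ∈ A := by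
    rw [← A.valuation_le_one_iff, h89_valuation_eq_one_of_pow_eq_one A hn0 hζ]
  have h1 := h89_frob_sub_mem A hσ hζA
  refine h89_eq_of_sub_mem A n hn0 hnA (n := 1) ?_ ?_ h1
  · rw [pow_one, ← map_pow, hζ, map_one]
  · rw [pow_one, ← pow_mul, mul_comm, pow_mul, hζ, one_pow]

/-- A primitive `p`-th root of unity (`p` an odd prime) in `ℚ̄` is moved by some automorphism. -/
theorem exists_algEquiv_ne_of_isPrimitiveRoot {p : ℕ} (hp : p.Prime) (hp2 : p ≠ 2)
    {ζ : AlgebraicClosure ℚ} (hζ : IsPrimitiveRoot ζ p) :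
    ∃ σ₀ : AlgebraicClosure ℚ ≃ₐ[ℚ] AlgebraicClosure ℚ, σ₀ ζ ≠ ζ := by
  haveI : Algebra.IsAlgebraic ℚ (AlgebraicClosure ℚ) := AlgebraicClosure.isAlgebraic ℚ
  haveI : IsAlgClosure ℚ (AlgebraicClosure ℚ) := ⟨inferInstance, inferInstance⟩
  haveI : IsGalois ℚ (AlgebraicClosure ℚ) := inferInstance
  by_contra hcon
  push Not at hcon
  have hmem : ζ ∈ (⊥ : IntermediateField ℚ (AlgebraicClosure ℚ)) :=
    (InfiniteGalois.mem_bot_iff_fixed ζ).2 hcon
  obtain ⟨q, hq⟩ := IntermediateField.mem_bot.1 hmem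
  have hqp : q ^ p = 1 := by
    apply (algebraMap ℚ (AlgebraicClosure ℚ)).injective
    rw [map_pow, hq, map_one]
    exact hζ.pow_eq_one
  have hodd : Odd p := hp.odd_of_ne_two hp2
  have hq1 : q = 1 := by
    have := hodd.strictMono_pow (R := ℚ)
    apply this.injective
    simp only [hqp, one_pow]
  have hζ1 : ζ = 1 := by rw [← hq, hq1, map_one]
  rw [hζ1] at hζ
  have := IsPrimitiveRoot.one_left_iff.1 hζ
  exact hp.one_lt.ne' this

/-- **`Stmt_CycInertia`.** -/
theorem stmt_CycInertia : Fermat.Agent.R.Stmt_CycInertia := by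
  intro p hp hp2 P hP
  haveI : Fact p.Prime := ⟨hp⟩
  haveI : NeZero p := ⟨hp.ne_zero⟩
  haveI : Algebra.IsAlgebraic ℚ (AlgebraicClosure ℚ) := AlgebraicClosure.isAlgebraic ℚ
  haveI : Algebra.IsIntegral ℚ (AlgebraicClosure ℚ) := inferInstance
  obtain ⟨ζ, hζ⟩ := HasEnoughRootsOfUnity.exists_primitiveRoot (AlgebraicClosure ℚ) p
  obtain ⟨σ₀, hσ₀⟩ := exists_algEquiv_ne_of_isPrimitiveRoot hp hp2 hζ
  have hpP : (p : AlgebraicClosure ℚ) ∈ P.nonunits := hP
  have hζp : ζ ^ p = 1 := hζ.pow_eq_one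
  have hζA : ζ ∈ P := by
    rw [← P.valuation_le_one_iff, h89_valuation_eq_one_of_pow_eq_one P hp.ne_zero hζp]
  have hσζp : (σ₀ ζ) ^ p = 1 := by rw [← map_pow, hζp, map_one]
  have hσζ : σ₀ ζ - ζ ∈ P.nonunits := by
    have h1 := sub_one_mem_nonunits_of_pow_eq_one P p hpP hσζp
    have h2 := sub_one_mem_nonunits_of_pow_eq_one P p hpP hζp
    have h3 : σ₀ ζ - ζ = (σ₀ ζ - 1) + -(ζ - 1) := by ring
    rw [h3, P.mem_nonunits_iff]
    refine Valuation.map_add_lt _ (P.mem_nonunits_iff.1 h1) ?_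
    rw [Valuation.map_neg]
    exact P.mem_nonunits_iff.1 h2
  -- the cyclotomic field
  let F : IntermediateField ℚ (AlgebraicClosure ℚ) := IntermediateField.adjoin ℚ {ζ}
  haveI hcyc : IsCyclotomicExtension {p} ℚ F :=
    hζ.intermediateField_adjoin_isCyclotomicExtension ℚ
  haveI : IsGalois ℚ F := IsCyclotomicExtension.isGalois {p} ℚ F
  haveI : Normal ℚ F := inferInstance
  let ζ' : F := ⟨ζ, IntermediateField.mem_adjoin_simple_self ℚ ζ⟩
  have hζ' : IsPrimitiveRoot ζ' p :=
    IsPrimitiveRoot.of_map_of_injective (f := algebraMap F (AlgebraicClosure ℚ))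
      hζ (algebraMap F (AlgebraicClosure ℚ)).injective
  haveI hic : IsIntegralClosure (Algebra.adjoin ℤ ({ζ'} : Set F)) ℤ F :=
    IsCyclotomicExtension.Rat.isIntegralClosure_adjoin_singleton_of_prime hζ'
  have hint : ∀ x : AlgebraicClosure ℚ, x ∈ F → IsIntegral ℤ x →
      σ₀ x - x ∈ P.nonunits := by
    intro x hxF hxi
    have hxi' : IsIntegral ℤ (⟨x, hxF⟩ : F) := by
      have h1 : IsIntegral ℤ (algebraMap F (AlgebraicClosure ℚ) ⟨x, hxF⟩) := hxi
      exact (isIntegral_algebraMap_iff (algebraMap F (AlgebraicClosure ℚ)).injective).1 h1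
    obtain ⟨y, hy⟩ := (IsIntegralClosure.isIntegral_iff
      (A := Algebra.adjoin ℤ ({ζ'} : Set F))).1 hxi'
    have hmem' : (⟨x, hxF⟩ : F) ∈ Algebra.adjoin ℤ ({ζ'} : Set F) := by
      rw [← hy]; exact y.2
    have hmem : x ∈ Algebra.adjoin ℤ ({ζ} : Set (AlgebraicClosure ℚ)) := by
      have h1 : (F.val.restrictScalars ℤ) ⟨x, hxF⟩ ∈
          (Algebra.adjoin ℤ ({ζ'} : Set F)).map (F.val.restrictScalars ℤ) :=
        ⟨_, hmem', rfl⟩
      rw [AlgHom.map_adjoin, Set.image_singleton] at h1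
      exact h1
    exact (sub_mem_nonunits_of_mem_adjoin P (σ₀ : AlgebraicClosure ℚ →+* AlgebraicClosure ℚ)
      hζA hσζ hmem).2
  obtain ⟨σ, hσI, hσF⟩ :=
    Fermat.Agent.Lib.InertiaLift.exists_mem_inertiaSubgroupIn_eqOn p hp P hP F σ₀ hint
  refine ⟨σ, hσI, ζ, hζp, ?_⟩
  rw [hσF ζ (IntermediateField.mem_adjoin_simple_self ℚ ζ)]
  exact hσ₀

end Fermat.Agent.R.H2
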