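import Mathlib.LinearAlgebra.Charpoly.ToMatrix
import Mathlib.LinearAlgebra.Matrix.Charpoly.Coeff
import Mathlib.LinearAlgebra.Matrix.Charpoly.LinearMap
import Mathlib.LinearAlgebra.Determinant
import Mathlib.LinearAlgebra.Trace
import Mathlib.LinearAlgebra.Dimension.Free

/-!
# Cluster R, package P1 (helper91): charpoly of powers in rank 2

For an endomorphism `f` of a free module of rank 2 over a commutative ring,
`charpoly f = X^2 - C t * X + C d` forces `charpoly (f^j) = X^2 - C (lucasV t d j) * X + C (d^j)`,
where `lucasV t d` is the Lucas sequence `v_0 = 2, v_1 = t, v_{j+2} = t v_{j+1} - d v_j`.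
Hence equal Frobenius characteristic polynomials give equal characteristic polynomials of all
powers, which is what the Frobenius density theorem (existence form) needs in order to compare
two Galois representations.
-/

set_option autoImplicit false

open Polynomial

namespace Fermat.Agent.R.H91

variable {R : Type*} [CommRing R]

/-- The Lucas sequence `v_0 = 2`, `v_1 = t`, `v_{j+2} = t * v_{j+1} - d * v_j`. -/
def lucasV (t d : R) : ℕ → R
  | 0 => 2
  | 1 => t
  | (j + 2) => t * lucasV t d (j + 1) - d * lucasV t d j

@[simp] theorem lucasV_zero (t d : R) : lucasV t d 0 = 2 := rfl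

@[simp] theorem lucasV_one (t d : R) : lucasV t d 1 = t := rfl

theorem lucasV_add_two (t d : R) (j : ℕ) :
    lucasV t d (j + 2) = t * lucasV t d (j + 1) - d * lucasV t d j := rfl

theorem map_lucasV {S : Type*} [CommRing S] (φ : R →+* S) (t d : R) (j : ℕ) :
    φ (lucasV t d j) = lucasV (φ t) (φ d) j := by
  induction j using Nat.strong_induction_on with
  | _ j ih =>
    match j with
    | 0 => rw [lucasV_zero, lucasV_zero, map_ofNat]
    | 1 => rw [lucasV_one, lucasV_one]
    | (j + 2) =>
      rw [lucasV_add_two, lucasV_add_two, map_sub, map_mul, map_mul,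
        ih (j + 1) (by omega), ih j (by omega)]

section Matrix

variable (A : Matrix (Fin 2) (Fin 2) R)

theorem matrix_sq_eq : A ^ 2 = A.trace • A - A.det • (1 : Matrix (Fin 2) (Fin 2) R) := by
  nontriviality R
  have h := Matrix.aeval_self_charpoly A
  rw [Matrix.charpoly_fin_two] at h
  simp only [map_add, map_sub, map_mul, map_pow, aeval_X, aeval_C,
    Algebra.algebraMap_eq_smul_one, smul_mul_assoc, one_mul] at h
  rw [eq_sub_iff_add_eq, ← sub_eq_zero, ← h]
  abel

theorem matrix_pow_add_two (j : ℕ) :
    A ^ (j + 2) = A.trace • A ^ (j + 1) - A.det • A ^ j := by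
  rw [pow_add, matrix_sq_eq, mul_sub, Matrix.mul_smul, Matrix.mul_smul, mul_one, ← pow_succ]

theorem matrix_trace_pow (j : ℕ) : (A ^ j).trace = lucasV A.trace A.det j := by
  induction j using Nat.strong_induction_on with
  | _ j ih =>
    match j with
    | 0 =>
      rw [pow_zero, Matrix.trace_one, lucasV_zero]
      simp
    | 1 => rw [pow_one, lucasV_one]
    | (j + 2) =>
      rw [matrix_pow_add_two, Matrix.trace_sub, Matrix.trace_smul, Matrix.trace_smul,
        ih (j + 1) (by omega), ih j (by omega), lucasV_add_two, smul_eq_mul, smul_eq_mul]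

theorem matrix_charpoly_pow (j : ℕ) :
    (A ^ j).charpoly = X ^ 2 - C (lucasV A.trace A.det j) * X + C (A.det ^ j) := by
  nontriviality R
  rw [Matrix.charpoly_fin_two, matrix_trace_pow, Matrix.det_pow]

/-- The trace and determinant are read off from the characteristic polynomial. -/
theorem matrix_trace_det_of_charpoly {t d : R} (h : A.charpoly = X ^ 2 - C t * X + C d) :
    A.trace = t ∧ A.det = d := by
  nontriviality R
  rw [Matrix.charpoly_fin_two] at h
  have h0 := congrArg (fun q : R[X] => q.coeff 0) h
  have h1 := congrArg (fun q : R[X] => q.coeff 1) h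
  simp only [coeff_add, coeff_sub, coeff_X_pow, coeff_C_mul, coeff_X_zero, coeff_X_one,
    coeff_C_zero, coeff_C_succ, mul_zero, mul_one, sub_zero, add_zero] at h0 h1
  norm_num at h0 h1
  exact ⟨h1, h0⟩

theorem matrix_charpoly_pow_of_charpoly {t d : R} (h : A.charpoly = X ^ 2 - C t * X + C d)
    (j : ℕ) : (A ^ j).charpoly = X ^ 2 - C (lucasV t d j) * X + C (d ^ j) := by
  obtain ⟨ht, hd⟩ := matrix_trace_det_of_charpoly A h
  rw [matrix_charpoly_pow, ht, hd]

end Matrix

section LinearMap

variable {M : Type*} [AddCommGroup M] [Module R M] [Module.Free R M] [Module.Finite R M]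

/-- **P1 (Lucas lemma).** On a free module of rank 2, the characteristic polynomial of `f ^ j`
is determined by the characteristic polynomial of `f`. -/
theorem charpoly_pow_of_charpoly (hM : Module.finrank R M = 2) (f : Module.End R M) {t d : R}
    (h : f.charpoly = X ^ 2 - C t * X + C d) (j : ℕ) :
    (f ^ j).charpoly = X ^ 2 - C (lucasV t d j) * X + C (d ^ j) := by
  nontriviality R
  let b : Module.Basis (Fin 2) R M := Module.finBasisOfFinrankEq R M hM
  have hf : (LinearMap.toMatrix b b f).charpoly = X ^ 2 - C t * X + C d := by
    rw [LinearMap.charpoly_toMatrix]; exact h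
  have := matrix_charpoly_pow_of_charpoly _ hf j
  rw [LinearMap.toMatrix_pow, LinearMap.charpoly_toMatrix] at this
  exact this

theorem trace_pow_of_charpoly (hM : Module.finrank R M = 2) (f : Module.End R M) {t d : R}
    (h : f.charpoly = X ^ 2 - C t * X + C d) (j : ℕ) :
    LinearMap.trace R M (f ^ j) = lucasV t d j := by
  nontriviality R
  let b : Module.Basis (Fin 2) R M := Module.finBasisOfFinrankEq R M hM
  have hf : (LinearMap.toMatrix b b f).charpoly = X ^ 2 - C t * X + C d := by
    rw [LinearMap.charpoly_toMatrix]; exact h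
  obtain ⟨ht, hd⟩ := matrix_trace_det_of_charpoly _ hf
  rw [LinearMap.trace_eq_matrix_trace R b, ← LinearMap.toMatrix_pow, matrix_trace_pow, ht, hd]

/-- Characteristic polynomial of a rank-2 endomorphism in terms of trace and determinant. -/
theorem charpoly_eq_of_finrank_two (hM : Module.finrank R M = 2) (f : Module.End R M) :
    f.charpoly = X ^ 2 - C (LinearMap.trace R M f) * X + C (LinearMap.det f) := by
  nontriviality R
  let b : Module.Basis (Fin 2) R M := Module.finBasisOfFinrankEq R M hM
  rw [← LinearMap.charpoly_toMatrix f b, Matrix.charpoly_fin_two,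
    LinearMap.trace_eq_matrix_trace R b, LinearMap.det_toMatrix]

/-- Two rank-2 endomorphisms (possibly of different modules) with the same characteristic
polynomial have powers with the same characteristic polynomial. -/
theorem charpoly_pow_eq_of_charpoly_eq {N : Type*} [AddCommGroup N] [Module R N]
    [Module.Free R N] [Module.Finite R N] (hM : Module.finrank R M = 2)
    (hN : Module.finrank R N = 2) (f : Module.End R M) (g : Module.End R N)
    (h : f.charpoly = g.charpoly) (j : ℕ) : (f ^ j).charpoly = (g ^ j).charpoly := by
  have hg := charpoly_eq_of_finrank_two hN g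
  rw [charpoly_pow_of_charpoly hM f (h.trans hg) j, charpoly_pow_of_charpoly hN g hg j]

end LinearMap

end Fermat.Agent.R.H91
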