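import Fermat.Prelude.Def_CuspForm_HeckeGaloisRepDatum
import Fermat.Prelude.Def_GaloisRep_LocalConditions

/-!
# Cluster R (Galois representations of eigenforms): interfaces

Coordinator: helper86.  Plan: `NOTES/plan/R.md`.

Everything here is a *statement* (a `Prop`-valued `def`) or a small structure; the proofs of
the statements are work packages.  The wirings (`Fermat/Agent/R/Transfer.lean`,
`Fermat/Agent/S31/Wiring.lean`, `Fermat/Agent/S34/Wiring.lean`) take them as hypotheses.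

* `Stmt_S30`  : the type of the frozen statement S30 (eigensystem `χ : 𝕋 → 𝒪'` has a Galois
  representation over a finite extension, right Frobenius characteristic polynomials,
  unramified outside `N p`).
* `Stmt_S30U` : S30 plus "inertia at `q ∥ N`, `q ≠ p`, has characteristic polynomial `(X-1)^2`".
* `Stmt_FD`   : Frobenius density in division form, in the language of valuation subrings
  of `AlgebraicClosure ℚ` (shared item 61).
* `PadicPoint`, `Stmt_Sep` : the anemic Hecke algebra is separated `p`-adically by finitely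
  many eigensystems with values in complete discrete valuation rings of characteristic `0`
  (consequence of: the Hecke algebra is reduced and finite over `ℤ`).
-/

set_option autoImplicit false

open Polynomial

namespace Fermat.Agent.R

/-- The type of the frozen statement S30. -/
def Stmt_S30 : Prop :=
    ∀ (p : ℕ) [Fact p.Prime] (N : ℕ) [NeZero N] (S : Finset ℕ)
      (_hpS : p ∈ S) (_hNS : ∀ q : ℕ, q.Prime → q ∣ N → q ∈ S)
      (𝒪' : Type) [CommRing 𝒪'] [IsDomain 𝒪'] [IsDiscreteValuationRing 𝒪']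
      [IsAdicComplete (IsLocalRing.maximalIdeal 𝒪') 𝒪'] [Finite (IsLocalRing.ResidueField 𝒪')]
      [CharZero 𝒪'] (_hp𝒪' : (p : 𝒪') ∈ IsLocalRing.maximalIdeal 𝒪')
      (χ : CuspForm.heckeAlgebra N 2 (↑S : Set ℕ) →+* 𝒪'),
      ∃ (𝒪'' : Type) (_ : CommRing 𝒪'') (_ : IsDomain 𝒪'') (_ : IsDiscreteValuationRing 𝒪'')
        (_ : IsAdicComplete (IsLocalRing.maximalIdeal 𝒪'') 𝒪'')
        (_ : Finite (IsLocalRing.ResidueField 𝒪'')) (_ : CharZero 𝒪'')
        (_ : Algebra 𝒪' 𝒪'') (_ : Module.Finite 𝒪' 𝒪'') (_ : IsLocalHom (algebraMap 𝒪' 𝒪'')),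
      Function.Injective (algebraMap 𝒪' 𝒪'') ∧
      ∃ ρ : GaloisRepAdic 𝒪'',
        (∀ (ℓ : ℕ) (hℓ : ℓ.Prime) (hℓN : ¬ ℓ ∣ N) (hℓS : ℓ ∉ (↑S : Set ℕ)),
          ∀ A : ValuationSubring (AlgebraicClosure ℚ), A.LiesOverPrime ℓ →
            ∀ σ : AlgebraicClosure ℚ ≃ₐ[ℚ] AlgebraicClosure ℚ, A.IsFrobeniusAt σ ℓ →
              LinearMap.charpoly (ρ.ρ σ) =
                X ^ 2 - C (algebraMap 𝒪' 𝒪'' (χ (CuspForm.heckeAlgebra.T hℓ hℓN hℓS))) * X
                  + C ((ℓ : 𝒪''))) ∧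
        (∀ q : ℕ, q.Prime → ¬ q ∣ N → q ≠ p → ρ.IsUnramifiedAt q)

/-- S30 together with the local behaviour at the primes `q ∥ N`, `q ≠ p`: inertia at `q` has
characteristic polynomial `(X - 1) ^ 2` (semistable reduction of `J₀(N)` at `q`). -/
def Stmt_S30U : Prop :=
    ∀ (p : ℕ) [Fact p.Prime] (N : ℕ) [NeZero N] (S : Finset ℕ)
      (_hpS : p ∈ S) (_hNS : ∀ q : ℕ, q.Prime → q ∣ N → q ∈ S)
      (𝒪' : Type) [CommRing 𝒪'] [IsDomain 𝒪'] [IsDiscreteValuationRing 𝒪']
      [IsAdicComplete (IsLocalRing.maximalIdeal 𝒪') 𝒪'] [Finite (IsLocalRing.ResidueField 𝒪')]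
      [CharZero 𝒪'] (_hp𝒪' : (p : 𝒪') ∈ IsLocalRing.maximalIdeal 𝒪')
      (χ : CuspForm.heckeAlgebra N 2 (↑S : Set ℕ) →+* 𝒪'),
      ∃ (𝒪'' : Type) (_ : CommRing 𝒪'') (_ : IsDomain 𝒪'') (_ : IsDiscreteValuationRing 𝒪'')
        (_ : IsAdicComplete (IsLocalRing.maximalIdeal 𝒪'') 𝒪'')
        (_ : Finite (IsLocalRing.ResidueField 𝒪'')) (_ : CharZero 𝒪'')
        (_ : Algebra 𝒪' 𝒪'') (_ : Module.Finite 𝒪' 𝒪'') (_ : IsLocalHom (algebraMap 𝒪' 𝒪'')),
      Function.Injective (algebraMap 𝒪' 𝒪'') ∧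
      ∃ ρ : GaloisRepAdic 𝒪'',
        (∀ (ℓ : ℕ) (hℓ : ℓ.Prime) (hℓN : ¬ ℓ ∣ N) (hℓS : ℓ ∉ (↑S : Set ℕ)),
          ∀ A : ValuationSubring (AlgebraicClosure ℚ), A.LiesOverPrime ℓ →
            ∀ σ : AlgebraicClosure ℚ ≃ₐ[ℚ] AlgebraicClosure ℚ, A.IsFrobeniusAt σ ℓ →
              LinearMap.charpoly (ρ.ρ σ) =
                X ^ 2 - C (algebraMap 𝒪' 𝒪'' (χ (CuspForm.heckeAlgebra.T hℓ hℓN hℓS))) * X
                  + C ((ℓ : 𝒪''))) ∧
        (∀ q : ℕ, q.Prime → ¬ q ∣ N → q ≠ p → ρ.IsUnramifiedAt q) ∧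
        (∀ q : ℕ, q.Prime → q ∣ N → ¬ q ^ 2 ∣ N → q ≠ p → ρ.IsUnipotentOnInertiaAt q)

theorem Stmt_S30U.toS30 (h : Stmt_S30U) : Stmt_S30 := by
  intro p _ N _ S hpS hNS 𝒪' _ _ _ _ _ _ hp χ
  obtain ⟨𝒪'', i1, i2, i3, i4, i5, i6, i7, i8, i9, hinj, ρ, h1, h2, -⟩ :=
    h p N S hpS hNS 𝒪' hp χ
  exact ⟨𝒪'', i1, i2, i3, i4, i5, i6, i7, i8, i9, hinj, ρ, h1, h2⟩

/-- **Frobenius density, division form** (shared item 61).  For every finite set `S` of primes,
every finite extension `L` of `ℚ` inside `AlgebraicClosure ℚ` and every `g` in the absolute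
Galois group there are a prime `ℓ ∉ S`, a valuation subring `A` over `ℓ`, a Frobenius element
`σ` at `A` and an exponent `j` such that `σ ^ j` and `g` agree on `L`. -/
def Stmt_FD : Prop :=
  ∀ (S : Finset ℕ) (L : IntermediateField ℚ (AlgebraicClosure ℚ)), FiniteDimensional ℚ L →
    ∀ g : AlgebraicClosure ℚ ≃ₐ[ℚ] AlgebraicClosure ℚ,
      ∃ (ℓ : ℕ) (A : ValuationSubring (AlgebraicClosure ℚ))
        (σ : AlgebraicClosure ℚ ≃ₐ[ℚ] AlgebraicClosure ℚ) (j : ℕ),
        ℓ.Prime ∧ ℓ ∉ S ∧ A.LiesOverPrime ℓ ∧ A.IsFrobeniusAt σ ℓ ∧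
          ∀ x ∈ L, (σ ^ j) x = g x

/-- An eigensystem of the Hecke algebra (away from `S`) with values in a complete discrete
valuation ring of characteristic `0` and residue characteristic `p`. -/
structure PadicPoint (N : ℕ) [NeZero N] (S : Finset ℕ) (p : ℕ) : Type 1 where
  /-- the coefficient ring -/
  R : Type
  [instCommRing : CommRing R]
  [instIsDomain : IsDomain R]
  [instDVR : IsDiscreteValuationRing R]
  [instComplete : IsAdicComplete (IsLocalRing.maximalIdeal R) R]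
  [instFiniteResidue : Finite (IsLocalRing.ResidueField R)]
  [instCharZero : CharZero R]
  hp : (p : R) ∈ IsLocalRing.maximalIdeal R
  /-- the eigensystem -/
  χ : CuspForm.heckeAlgebra N 2 (↑S : Set ℕ) →+* R

attribute [instance] PadicPoint.instCommRing PadicPoint.instIsDomain PadicPoint.instDVR
  PadicPoint.instComplete PadicPoint.instFiniteResidue PadicPoint.instCharZero

/-- **`p`-adic separation of the Hecke algebra.**  There are finitely many `p`-adic points and
a constant `c` such that an element `y` of the Hecke algebra whose values at all these points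
are divisible by `p ^ (m + c)` is divisible by `p ^ m` in the Hecke algebra.

(True because the Hecke algebra away from the level is finite over `ℤ` (S22) and reduced
(Petersson); `p ^ c` kills the `p`-part of the index of `𝕋` in its normalisation.) -/
def Stmt_Sep (N : ℕ) [NeZero N] (S : Finset ℕ) (p : ℕ) : Prop :=
  ∃ (ι : Type) (_ : Finite ι) (P : ι → PadicPoint N S p) (c : ℕ),
    ∀ (m : ℕ) (y : CuspForm.heckeAlgebra N 2 (↑S : Set ℕ)),
      (∀ i, (P i).χ y ∈ Ideal.span {((p : (P i).R)) ^ (m + c)}) →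
        y ∈ Ideal.span {((p : CuspForm.heckeAlgebra N 2 (↑S : Set ℕ))) ^ m}

end Fermat.Agent.R
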