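import Mathlib
import Fermat.Agent.S49.QCoeff
import Fermat.Agent.S22

/-!
# Cluster R, leaf L5(0): the eigen-character of a normalised eigenform

The prelude's `CuspForm.IsNormalizedEigenform` is a condition on `q`-coefficients only
(`a 1 = 1`, multiplicativity, the two prime-power recursions).  Here we show that such a form
is a simultaneous eigenvector of every Hecke operator `T_ℓ` (`ℓ ∤ N`) and `U_q` (`q ∣ N`), with
eigenvalue its `ℓ`-th (`q`-th) coefficient, and we build the eigen-character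

`χ : heckeAlgebra N 2 S →+* integralClosure ℤ ℂ`,  `χ T_ℓ = a_ℓ`, `χ U_q = a_q`.

Main results (namespace `Fermat.Agent.R.H99`):
* `heckeTLin_apply_eq_smul`, `heckeULin_apply_eq_smul` : the eigenvector property;
* `exists_eigenvalue` : every element of `heckeAlgebra N 2 S` acts on `g` by a scalar;
* `eigenCharC` : the character with values in `ℂ`; `eigenCharC_spec`, `eigenCharC_T`, `eigenCharC_U`;
* `eigenChar` : the character with values in the algebraic integers (integrality from S22);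
* `stmt_eigenChar` : the statement `Stmt_EigenChar` asked for by the S29/S42 wiring.
-/

set_option autoImplicit false

namespace Fermat.Agent.R.H99

open CuspForm CongruenceSubgroup ModularFormClass Fermat.Agent.S49

variable {N : ℕ}

/-- coefficient at `p ^ (r + 1) * m` for `p ∤ N`, `p ∤ m`. -/
theorem qCoeff_rel_of_not_dvd {g : CuspForm (Gamma0 N) 2} (hg : g.IsNormalizedEigenform)
    {ℓ : ℕ} (hℓ : ℓ.Prime) (hℓN : ¬ ℓ ∣ N) (n : ℕ) :
    qCoeff ⇑g (n * ℓ) + (if ℓ ∣ n then (ℓ : ℂ) * qCoeff ⇑g (n / ℓ) else 0)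
      = qCoeff ⇑g ℓ * qCoeff ⇑g n := by
  rcases Nat.eq_zero_or_pos n with hn | hn
  · subst hn
    simp [qCoeff_at_zero]
  obtain ⟨e, m, hm, rfl⟩ := Nat.exists_eq_pow_mul_and_not_dvd hn.ne' ℓ hℓ.ne_one
  have hcop : ∀ k : ℕ, (ℓ ^ k).Coprime m := fun k =>
    Nat.Coprime.pow_left k ((Nat.Prime.coprime_iff_not_dvd hℓ).mpr hm)
  have h1 : ℓ ^ e * m * ℓ = ℓ ^ (e + 1) * m := by ring
  rw [h1, hg.qCoeff_mul_of_coprime _ _ (hcop (e + 1)), hg.qCoeff_mul_of_coprime _ _ (hcop e)]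
  rcases Nat.eq_zero_or_pos e with he | he
  · subst he
    have hnd : ¬ ℓ ∣ ℓ ^ 0 * m := by simpa using hm
    rw [if_neg hnd]
    simp [hg.qCoeff_one]
  · obtain ⟨r, rfl⟩ : ∃ r, e = r + 1 := ⟨e - 1, by omega⟩
    have hd : ℓ ∣ ℓ ^ (r + 1) * m := Dvd.dvd.mul_right (dvd_pow_self ℓ (by omega)) m
    rw [if_pos hd]
    have h2 : ℓ ^ (r + 1) * m / ℓ = ℓ ^ r * m := by
      rw [pow_succ, mul_comm (ℓ ^ r) ℓ, mul_assoc, Nat.mul_div_cancel_left _ hℓ.pos]
    rw [h2, hg.qCoeff_mul_of_coprime _ _ (hcop r), hg.qCoeff_prime_pow_of_not_dvd ℓ r hℓ hℓN]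
    ring

theorem qCoeff_rel_of_dvd {g : CuspForm (Gamma0 N) 2} (hg : g.IsNormalizedEigenform)
    {q : ℕ} (hq : q.Prime) (hqN : q ∣ N) (n : ℕ) :
    qCoeff ⇑g (n * q) = qCoeff ⇑g q * qCoeff ⇑g n := by
  rcases Nat.eq_zero_or_pos n with hn | hn
  · subst hn
    simp [qCoeff_at_zero]
  obtain ⟨e, m, hm, rfl⟩ := Nat.exists_eq_pow_mul_and_not_dvd hn.ne' q hq.ne_one
  have hcop : ∀ k : ℕ, (q ^ k).Coprime m := fun k =>
    Nat.Coprime.pow_left k ((Nat.Prime.coprime_iff_not_dvd hq).mpr hm)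
  have h1 : q ^ e * m * q = q ^ (e + 1) * m := by ring
  rw [h1, hg.qCoeff_mul_of_coprime _ _ (hcop (e + 1)), hg.qCoeff_mul_of_coprime _ _ (hcop e)]
  rcases Nat.eq_zero_or_pos e with he | he
  · subst he
    simp [hg.qCoeff_one]
  · obtain ⟨r, rfl⟩ : ∃ r, e = r + 1 := ⟨e - 1, by omega⟩
    rw [hg.qCoeff_prime_pow_of_dvd q r hq hqN]
    ring

/-- A normalised eigenform is an eigenvector of `T_ℓ`, `ℓ ∤ N`, with eigenvalue `a_ℓ`. -/
theorem heckeTLin_apply_eq_smul {g : CuspForm (Gamma0 N) 2} (hg : g.IsNormalizedEigenform)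
    {ℓ : ℕ} (hℓ : ℓ.Prime) (hℓN : ¬ ℓ ∣ N) :
    CuspForm.heckeTLin 2 hℓ hℓN g = qCoeff ⇑g ℓ • g := by
  apply cuspForm_ext_qCoeff
  intro n
  rw [qCoeff_heckeTLin, qCoeff_smul, ← qCoeff_rel_of_not_dvd hg hℓ hℓN n]
  norm_num

/-- A normalised eigenform is an eigenvector of `U_q`, `q ∣ N`, with eigenvalue `a_q`. -/
theorem heckeULin_apply_eq_smul [NeZero N] {g : CuspForm (Gamma0 N) 2}
    (hg : g.IsNormalizedEigenform) {q : ℕ} (hq : q.Prime) (hqN : q ∣ N) :
    CuspForm.heckeULin 2 hqN g = qCoeff ⇑g q • g := by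
  apply cuspForm_ext_qCoeff
  intro n
  rw [qCoeff_heckeULin hq.ne_zero, qCoeff_smul, qCoeff_rel_of_dvd hg hq hqN n]

variable [NeZero N]

/-- Every element of the Hecke algebra acts on a normalised eigenform by a scalar. -/
theorem exists_eigenvalue (S : Set ℕ) {g : CuspForm (Gamma0 N) 2} (hg : g.IsNormalizedEigenform)
    (T : heckeAlgebra N 2 S) :
    ∃ c : ℂ, (T : Module.End ℂ (CuspForm (Gamma0 N) 2)) g = c • g := by
  obtain ⟨T, hT⟩ := T
  show ∃ c : ℂ, T g = c • g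
  induction hT using Algebra.adjoin_induction with
  | mem x hx =>
    rcases hx with ⟨ℓ, hℓ, hℓN, -, rfl⟩ | ⟨q, hqN, hq, -, rfl⟩
    · exact ⟨_, heckeTLin_apply_eq_smul hg hℓ hℓN⟩
    · exact ⟨_, heckeULin_apply_eq_smul hg hq hqN⟩
  | algebraMap r =>
    refine ⟨(r : ℂ), ?_⟩
    rw [Algebra.algebraMap_eq_smul_one, LinearMap.smul_apply, Module.End.one_apply]
    exact (Int.cast_smul_eq_zsmul ℂ r g).symm
  | add x y _ _ hx hy =>
    obtain ⟨c, hc⟩ := hx
    obtain ⟨d, hd⟩ := hy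
    exact ⟨c + d, by rw [LinearMap.add_apply, hc, hd, add_smul]⟩
  | mul x y _ _ hx hy =>
    obtain ⟨c, hc⟩ := hx
    obtain ⟨d, hd⟩ := hy
    exact ⟨d * c, by rw [Module.End.mul_apply, hd, map_smul, hc, smul_smul]⟩

/-- The eigenvalue of `T` on the normalised eigenform `g`. -/
noncomputable def eigenvalue (S : Set ℕ) {g : CuspForm (Gamma0 N) 2}
    (hg : g.IsNormalizedEigenform) (T : heckeAlgebra N 2 S) : ℂ :=
  (exists_eigenvalue S hg T).choose

theorem eigenvalue_spec (S : Set ℕ) {g : CuspForm (Gamma0 N) 2}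
    (hg : g.IsNormalizedEigenform) (T : heckeAlgebra N 2 S) :
    (T : Module.End ℂ (CuspForm (Gamma0 N) 2)) g = eigenvalue S hg T • g :=
  (exists_eigenvalue S hg T).choose_spec

theorem eigenvalue_unique (S : Set ℕ) {g : CuspForm (Gamma0 N) 2}
    (hg : g.IsNormalizedEigenform) (T : heckeAlgebra N 2 S) {c : ℂ}
    (h : (T : Module.End ℂ (CuspForm (Gamma0 N) 2)) g = c • g) : eigenvalue S hg T = c := by
  have h0 : g ≠ 0 := by
    rintro rfl
    have h1 := hg.qCoeff_one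
    rw [qCoeff_zero_form] at h1
    exact zero_ne_one h1
  have := (eigenvalue_spec S hg T).symm.trans h
  exact smul_left_injective ℂ h0 this

/-- The eigen-character of a normalised eigenform, with values in `ℂ`. -/
noncomputable def eigenCharC (S : Set ℕ) {g : CuspForm (Gamma0 N) 2}
    (hg : g.IsNormalizedEigenform) : heckeAlgebra N 2 S →+* ℂ where
  toFun := eigenvalue S hg
  map_one' := eigenvalue_unique S hg 1 (by simp)
  map_mul' x y := eigenvalue_unique S hg (x * y) (by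
    rw [MulMemClass.coe_mul, Module.End.mul_apply, eigenvalue_spec S hg y, map_smul,
      eigenvalue_spec S hg x, smul_smul, mul_comm])
  map_zero' := eigenvalue_unique S hg 0 (by simp)
  map_add' x y := eigenvalue_unique S hg (x + y) (by
    rw [AddMemClass.coe_add, LinearMap.add_apply, eigenvalue_spec S hg x, eigenvalue_spec S hg y,
      add_smul])

theorem eigenCharC_spec (S : Set ℕ) {g : CuspForm (Gamma0 N) 2}
    (hg : g.IsNormalizedEigenform) (T : heckeAlgebra N 2 S) :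
    (T : Module.End ℂ (CuspForm (Gamma0 N) 2)) g = eigenCharC S hg T • g :=
  eigenvalue_spec S hg T

theorem eigenCharC_T (S : Set ℕ) {g : CuspForm (Gamma0 N) 2}
    (hg : g.IsNormalizedEigenform) {ℓ : ℕ} (hℓ : ℓ.Prime) (hℓN : ¬ ℓ ∣ N) (hℓS : ℓ ∉ S) :
    eigenCharC S hg (heckeAlgebra.T hℓ hℓN hℓS) = qCoeff ⇑g ℓ :=
  eigenvalue_unique S hg _ (by rw [heckeAlgebra.coe_T]; exact heckeTLin_apply_eq_smul hg hℓ hℓN)

theorem eigenCharC_U (S : Set ℕ) {g : CuspForm (Gamma0 N) 2}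
    (hg : g.IsNormalizedEigenform) {q : ℕ} (hq : q.Prime) (hqN : q ∣ N) (hqS : q ∉ S) :
    eigenCharC S hg (heckeAlgebra.U hq hqN hqS) = qCoeff ⇑g q :=
  eigenvalue_unique S hg _ (by rw [heckeAlgebra.coe_U]; exact heckeULin_apply_eq_smul hg hq hqN)

/-- The values of the eigen-character are algebraic integers (S22). -/
theorem eigenCharC_mem_integralClosure (S : Set ℕ) {g : CuspForm (Gamma0 N) 2}
    (hg : g.IsNormalizedEigenform) (T : heckeAlgebra N 2 S) :
    eigenCharC S hg T ∈ integralClosure ℤ ℂ := by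
  have : Module.Finite ℤ (heckeAlgebra N 2 S) := Fermat.Agent.S22.result N 2 S
  have hT : IsIntegral ℤ T := Algebra.IsIntegral.isIntegral T
  exact hT.map (eigenCharC S hg).toIntAlgHom

/-- The eigen-character of a normalised eigenform, with values in the algebraic integers. -/
noncomputable def eigenChar (S : Set ℕ) {g : CuspForm (Gamma0 N) 2}
    (hg : g.IsNormalizedEigenform) : heckeAlgebra N 2 S →+* integralClosure ℤ ℂ :=
  ((eigenCharC S hg).toIntAlgHom.codRestrict (integralClosure ℤ ℂ)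
    (eigenCharC_mem_integralClosure S hg)).toRingHom

@[simp] theorem coe_eigenChar (S : Set ℕ) {g : CuspForm (Gamma0 N) 2}
    (hg : g.IsNormalizedEigenform) (T : heckeAlgebra N 2 S) :
    ((eigenChar S hg T : integralClosure ℤ ℂ) : ℂ) = eigenCharC S hg T := rfl

/-- **L5(0)**, in the exact shape of `Fermat.Agent.R.Stmt_EigenChar`. -/
theorem stmt_eigenChar :
    ∀ (N : ℕ) [NeZero N] (S : Set ℕ) (g : CuspForm (CongruenceSubgroup.Gamma0 N) 2),
      g.IsNormalizedEigenform →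
      ∃ χ : CuspForm.heckeAlgebra N 2 S →+* integralClosure ℤ ℂ,
        ∀ (ℓ : ℕ) (hℓ : ℓ.Prime) (hℓN : ¬ ℓ ∣ N) (hℓS : ℓ ∉ S),
          ((χ (CuspForm.heckeAlgebra.T hℓ hℓN hℓS) : integralClosure ℤ ℂ) : ℂ)
            = ModularFormClass.qCoeff g ℓ := by
  intro N _ S g hg
  exact ⟨eigenChar S hg, fun ℓ hℓ hℓN hℓS => eigenCharC_T S hg hℓ hℓN hℓS⟩

/-- The same with the values at the `U_q` and the eigenvector property recorded. -/
theorem stmt_eigenChar_full (N : ℕ) [NeZero N] (S : Set ℕ)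
    (g : CuspForm (CongruenceSubgroup.Gamma0 N) 2) (hg : g.IsNormalizedEigenform) :
    ∃ χ : CuspForm.heckeAlgebra N 2 S →+* integralClosure ℤ ℂ,
      (∀ (ℓ : ℕ) (hℓ : ℓ.Prime) (hℓN : ¬ ℓ ∣ N) (hℓS : ℓ ∉ S),
          ((χ (CuspForm.heckeAlgebra.T hℓ hℓN hℓS) : integralClosure ℤ ℂ) : ℂ)
            = ModularFormClass.qCoeff g ℓ) ∧
      (∀ (q : ℕ) (hq : q.Prime) (hqN : q ∣ N) (hqS : q ∉ S),
          ((χ (CuspForm.heckeAlgebra.U hq hqN hqS) : integralClosure ℤ ℂ) : ℂ)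
            = ModularFormClass.qCoeff g q) ∧
      ∀ T : CuspForm.heckeAlgebra N 2 S,
        (T : Module.End ℂ (CuspForm (CongruenceSubgroup.Gamma0 N) 2)) g
          = ((χ T : integralClosure ℤ ℂ) : ℂ) • g :=
  ⟨eigenChar S hg, fun _ hℓ hℓN hℓS => eigenCharC_T S hg hℓ hℓN hℓS,
    fun _ hq hqN hqS => eigenCharC_U S hg hq hqN hqS, fun T => eigenCharC_spec S hg T⟩

end Fermat.Agent.R.H99
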