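import Fermat.Agent.R.H86_BN

/-!
# Cluster R, leaf L7: Carayol's theorem in dimension 2 (helper25)

Two representations `ρ₁ ρ₂ : G → GL_2(A)` over a local ring `A` with the same trace, one of
which is residually absolutely irreducible, are conjugate.

* `exists_conj_of_trace_eq` : matrix form, for an arbitrary monoid `G` and a local ring `A`:
  if four of the matrices `M₁ (g p)` form a basis of `M_2(A)` and `tr M₁ = tr M₂` then there is
  an invertible `P` with `M₂ σ * P = P * M₁ σ` for all `σ`.
* `isUnit_det_flat_of_trace_eq` : the Gram determinant argument (any commutative ring): if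
  four matrices `X₁ p` form a basis and `tr (X₁ p * X₁ q) = tr (X₂ p * X₂ q)`, the `X₂ p` form
  a basis, too.
* `isEquiv_of_trace_eq` : `GaloisRepAdic` form.

The proof is elementary linear algebra: the kernels of the two linear extensions
`A[G] → M_2(A)` coincide (both are the radical of `(x, y) ↦ tr (x y)`), so the images
`e i j` under the second one of lifts of the matrix units satisfy the relations of matrix
units; `P = e 0 0 * E_{j 0} + e 1 0 * E_{j 1}` intertwines and
`(E_{0 j'} * e 0 0 + E_{1 j'} * e 0 1) * P = (e 0 0) j' j • 1`; finally some entry of `e 0 0`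
is a unit since `A` is local and `1 = e 0 0 + e 1 0 * e 0 0 * e 0 1`.
-/

set_option autoImplicit false

namespace Fermat.Agent.R.H25

open Matrix Fermat.Agent.S53.Schur

section Abstract

variable {A : Type*} [CommRing A]

/-- The trace pairing on `M_2(A)` is nondegenerate. -/
theorem eq_zero_of_forall_trace_mul (Z : Matrix (Fin 2) (Fin 2) A)
    (h : ∀ Y : Matrix (Fin 2) (Fin 2) A, (Z * Y).trace = 0) : Z = 0 := by
  ext i j
  have := h (Matrix.single j i (1 : A))
  rw [Matrix.trace_mul_single] at this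
  simpa using this

/-- If all entries of `Y` lie in an ideal, so do those of `X * Y * Z`. -/
theorem mul_mul_apply_mem (I : Ideal A) (X Y Z : Matrix (Fin 2) (Fin 2) A)
    (hY : ∀ i j, Y i j ∈ I) (i j : Fin 2) : (X * Y * Z) i j ∈ I := by
  simp only [Matrix.mul_apply]
  exact Ideal.sum_mem _ fun k _ => Ideal.mul_mem_right _ _
    (Ideal.sum_mem _ fun l _ => Ideal.mul_mem_left _ _ (hY l k))

variable {G : Type*} [Monoid G]

/-- The linear extension `A[G] → M_2(A)` of a matrix representation. -/
noncomputable def linExt (M : G →* Matrix (Fin 2) (Fin 2) A) :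
    MonoidAlgebra A G →ₐ[A] Matrix (Fin 2) (Fin 2) A :=
  MonoidAlgebra.lift A (Matrix (Fin 2) (Fin 2) A) G M

theorem linExt_single (M : G →* Matrix (Fin 2) (Fin 2) A) (g : G) (a : A) :
    linExt M (MonoidAlgebra.single g a) = a • M g :=
  MonoidAlgebra.lift_single M g a

theorem trace_linExt_eq (M₁ M₂ : G →* Matrix (Fin 2) (Fin 2) A)
    (htr : ∀ σ, (M₁ σ).trace = (M₂ σ).trace) (x : MonoidAlgebra A G) :
    (linExt M₁ x).trace = (linExt M₂ x).trace := by
  induction x using MonoidAlgebra.induction_linear with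
  | zero => rw [map_zero, map_zero]
  | add x y hx hy => rw [map_add, map_add, Matrix.trace_add, Matrix.trace_add, hx, hy]
  | single g a => rw [linExt_single, linExt_single, Matrix.trace_smul, Matrix.trace_smul, htr]

theorem linExt_surjective (M : G →* Matrix (Fin 2) (Fin 2) A) (g : Fin 2 × Fin 2 → G)
    (hg : IsUnit (flat fun p => M (g p)).det) : Function.Surjective (linExt M) := by
  intro Y
  obtain ⟨c, rfl⟩ := exists_eq_sum_of_isUnit_det (fun p => M (g p)) hg Y
  refine ⟨∑ p, MonoidAlgebra.single (g p) (c p), ?_⟩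
  rw [map_sum]
  exact Finset.sum_congr rfl fun p _ => linExt_single M (g p) (c p)

/-- The kernel of the linear extension is determined by the trace. -/
theorem linExt_eq_zero (M₁ M₂ : G →* Matrix (Fin 2) (Fin 2) A)
    (htr : ∀ σ, (M₁ σ).trace = (M₂ σ).trace) (hs : Function.Surjective (linExt M₂))
    (x : MonoidAlgebra A G) (hx : linExt M₁ x = 0) : linExt M₂ x = 0 := by
  apply eq_zero_of_forall_trace_mul
  intro Y
  obtain ⟨y, rfl⟩ := hs Y
  rw [← map_mul, ← trace_linExt_eq M₁ M₂ htr, map_mul, hx, zero_mul, Matrix.trace_zero]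

theorem single_add_single_eq_one :
    (Matrix.single (0 : Fin 2) (0 : Fin 2) (1 : A)) + Matrix.single (1 : Fin 2) (1 : Fin 2) (1 : A)
      = 1 := by
  ext i j
  fin_cases i <;> fin_cases j <;> simp

/-- **Carayol's theorem, matrix form.** -/
theorem exists_conj_of_surjective [IsLocalRing A] (M₁ M₂ : G →* Matrix (Fin 2) (Fin 2) A)
    (htr : ∀ σ, (M₁ σ).trace = (M₂ σ).trace)
    (hs₁ : Function.Surjective (linExt M₁)) (hs₂ : Function.Surjective (linExt M₂)) :
    ∃ P : Matrix (Fin 2) (Fin 2) A, IsUnit P.det ∧ ∀ σ, M₂ σ * P = P * M₁ σ := by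
  classical
  choose x hx using fun (i j : Fin 2) => hs₁ (Matrix.single i j (1 : A))
  have key := linExt_eq_zero M₁ M₂ htr hs₂
  set e : Fin 2 → Fin 2 → Matrix (Fin 2) (Fin 2) A := fun i j => linExt M₂ (x i j) with he
  -- the relations of matrix units
  have hmul : ∀ i j k l, e i j * e k l = if j = k then e i l else 0 := by
    intro i j k l
    have h := key (x i j * x k l - if j = k then x i l else 0) (by
      rw [map_sub, map_mul, hx, hx]
      split_ifs with h
      · subst h
        rw [hx, Matrix.single_mul_single_same, mul_one, sub_self]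
      · rw [map_zero, sub_zero, Matrix.single_mul_single_of_ne (c := (1 : A)) i j k h (1 : A)])
    rw [map_sub, map_mul, sub_eq_zero] at h
    simp only [he]
    rw [h]
    split_ifs
    · rfl
    · rw [map_zero]
  have hone : e 0 0 + e 1 1 = 1 := by
    have h := key (x 0 0 + x 1 1 - 1) (by
      rw [map_sub, map_add, hx, hx, map_one, single_add_single_eq_one, sub_self])
    rw [map_sub, map_add, map_one, sub_eq_zero] at h
    exact h
  have hdecomp : ∀ y, linExt M₂ y = ∑ i, ∑ j, (linExt M₁ y) i j • e i j := by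
    intro y
    have h := key (y - ∑ i, ∑ j, (linExt M₁ y) i j • x i j) (by
      rw [map_sub, sub_eq_zero, map_sum]
      conv_lhs => rw [Matrix.matrix_eq_sum_single (linExt M₁ y)]
      refine Finset.sum_congr rfl fun i _ => ?_
      rw [map_sum]
      refine Finset.sum_congr rfl fun j _ => ?_
      rw [map_smul, hx, Matrix.smul_single, smul_eq_mul, mul_one])
    rw [map_sub, sub_eq_zero, map_sum] at h
    rw [h]
    refine Finset.sum_congr rfl fun i _ => ?_
    rw [map_sum]
    refine Finset.sum_congr rfl fun j _ => ?_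
    rw [map_smul]
  -- some entry of `e 0 0` is a unit
  have hunit : ∃ j' j, IsUnit (e 0 0 j' j) := by
    by_contra hcon
    push Not at hcon
    have hm : ∀ j' j, e 0 0 j' j ∈ IsLocalRing.maximalIdeal A := fun j' j =>
      (IsLocalRing.mem_maximalIdeal _).2 (hcon j' j)
    have h11 : e 1 1 = e 1 0 * e 0 0 * e 0 1 := by
      rw [hmul, if_pos rfl, hmul, if_pos rfl]
    have h1 : (1 : Matrix (Fin 2) (Fin 2) A) 0 0 ∈ IsLocalRing.maximalIdeal A := by
      rw [← hone, h11, Matrix.add_apply]
      exact Ideal.add_mem _ (hm 0 0) (mul_mul_apply_mem _ _ _ _ hm 0 0)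
    rw [Matrix.one_apply_eq] at h1
    exact (IsLocalRing.maximalIdeal.isMaximal A).ne_top
      ((Ideal.eq_top_iff_one _).2 h1)
  obtain ⟨j', j, hu⟩ := hunit
  set P : Matrix (Fin 2) (Fin 2) A :=
    e 0 0 * Matrix.single j 0 1 + e 1 0 * Matrix.single j 1 1 with hP
  set Q : Matrix (Fin 2) (Fin 2) A :=
    Matrix.single 0 j' 1 * e 0 0 + Matrix.single 1 j' 1 * e 0 1 with hQ
  have hQP : Q * P = (e 0 0 j' j) • (1 : Matrix (Fin 2) (Fin 2) A) := by
    have e1 : Matrix.single (0 : Fin 2) j' (1 : A) * e 0 0 * (e 0 0 * Matrix.single j 0 1)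
        = Matrix.single 0 0 (e 0 0 j' j) := by
      rw [← mul_assoc, mul_assoc (Matrix.single (0 : Fin 2) j' (1 : A)), hmul, if_pos rfl,
        Matrix.single_mul_mul_single, one_mul, mul_one]
    have e2 : Matrix.single (0 : Fin 2) j' (1 : A) * e 0 0 * (e 1 0 * Matrix.single j 1 1)
        = 0 := by
      rw [← mul_assoc, mul_assoc (Matrix.single (0 : Fin 2) j' (1 : A)), hmul,
        if_neg (by decide), mul_zero, zero_mul]
    have e3 : Matrix.single (1 : Fin 2) j' (1 : A) * e 0 1 * (e 0 0 * Matrix.single j 0 1)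
        = 0 := by
      rw [← mul_assoc, mul_assoc (Matrix.single (1 : Fin 2) j' (1 : A)), hmul,
        if_neg (by decide), mul_zero, zero_mul]
    have e4 : Matrix.single (1 : Fin 2) j' (1 : A) * e 0 1 * (e 1 0 * Matrix.single j 1 1)
        = Matrix.single 1 1 (e 0 0 j' j) := by
      rw [← mul_assoc, mul_assoc (Matrix.single (1 : Fin 2) j' (1 : A)), hmul, if_pos rfl,
        Matrix.single_mul_mul_single, one_mul, mul_one]
    rw [hQ, hP, add_mul, mul_add, mul_add, e1, e2, e3, e4, add_zero, zero_add,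
      ← single_add_single_eq_one, smul_add, Matrix.smul_single, Matrix.smul_single,
      smul_eq_mul, mul_one]
  have hPdet : IsUnit P.det := by
    have h := congrArg Matrix.det hQP
    rw [Matrix.det_mul, Matrix.det_smul, Matrix.det_one, mul_one, Fintype.card_fin] at h
    exact isUnit_of_mul_isUnit_right (h ▸ hu.pow 2)
  have hint : ∀ k l, e k l * P = P * Matrix.single k l 1 := by
    intro k l
    have lhs : e k l * P = e k 0 * Matrix.single j l 1 := by
      rw [hP, mul_add, ← mul_assoc, ← mul_assoc, hmul, hmul]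
      fin_cases l
      · simp
      · simp
    have rhs : P * Matrix.single k l 1 = e k 0 * Matrix.single j l 1 := by
      rw [hP, add_mul, mul_assoc, mul_assoc]
      fin_cases k
      · simp
      · simp
    rw [lhs, rhs]
  refine ⟨P, hPdet, fun σ => ?_⟩
  have h1 : M₂ σ = linExt M₂ (MonoidAlgebra.single σ 1) := by
    rw [linExt_single, one_smul]
  have h2 : M₁ σ = linExt M₁ (MonoidAlgebra.single σ 1) := by
    rw [linExt_single, one_smul]
  rw [h1, hdecomp, ← h2, Finset.sum_mul]
  conv_rhs => rw [Matrix.matrix_eq_sum_single (M₁ σ), Finset.mul_sum]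
  refine Finset.sum_congr rfl fun i _ => ?_
  rw [Finset.sum_mul, Finset.mul_sum]
  refine Finset.sum_congr rfl fun k _ => ?_
  rw [Matrix.smul_mul, hint, ← Matrix.mul_smul, Matrix.smul_single, smul_eq_mul, mul_one]

/-- The Gram matrix of the trace form, as a product of flattened matrices. -/
theorem flat_mul_flat_swap (X Y : Fin 2 × Fin 2 → Matrix (Fin 2) (Fin 2) A) :
    flat X * ((flat Y).submatrix id (Equiv.prodComm (Fin 2) (Fin 2)))ᵀ
      = Matrix.of fun p q => (X p * Y q).trace := by
  ext p q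
  simp only [Matrix.mul_apply, Matrix.transpose_apply, Matrix.submatrix_apply, flat_apply,
    Matrix.trace, Matrix.diag, Matrix.of_apply, id, Fintype.sum_prod_type,
    Equiv.prodComm_apply, Prod.swap]

/-- **Gram determinant argument.**  If the `X₁ p` form a basis of `M_2(A)` and the trace forms
of the two families agree, the `X₂ p` form a basis, too. -/
theorem isUnit_det_flat_of_trace_eq (X₁ X₂ : Fin 2 × Fin 2 → Matrix (Fin 2) (Fin 2) A)
    (h : ∀ p q, (X₁ p * X₁ q).trace = (X₂ p * X₂ q).trace) (h₁ : IsUnit (flat X₁).det) :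
    IsUnit (flat X₂).det := by
  have e : flat X₁ * ((flat X₁).submatrix id (Equiv.prodComm (Fin 2) (Fin 2)))ᵀ
      = flat X₂ * ((flat X₂).submatrix id (Equiv.prodComm (Fin 2) (Fin 2)))ᵀ := by
    rw [flat_mul_flat_swap, flat_mul_flat_swap]
    ext p q
    exact h p q
  have hd := congrArg Matrix.det e
  rw [Matrix.det_mul, Matrix.det_mul, Matrix.det_transpose, Matrix.det_transpose,
    Matrix.det_permute', Matrix.det_permute'] at hd
  have hsign : IsUnit (((Equiv.Perm.sign (Equiv.prodComm (Fin 2) (Fin 2)) : ℤˣ) : ℤ) : A) :=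
    ((Equiv.Perm.sign (Equiv.prodComm (Fin 2) (Fin 2))).isUnit.map (Int.castRingHom A))
  exact isUnit_of_mul_isUnit_left (hd ▸ (h₁.mul (hsign.mul h₁)))

/-- **Carayol's theorem, matrix form, one-sided hypothesis.**  If four of the matrices
`M₁ (g p)` form a basis of `M_2(A)` and `tr M₁ = tr M₂`, then `M₁` and `M₂` are conjugate. -/
theorem exists_conj_of_trace_eq [IsLocalRing A] (M₁ M₂ : G →* Matrix (Fin 2) (Fin 2) A)
    (g : Fin 2 × Fin 2 → G) (hg : IsUnit (flat fun p => M₁ (g p)).det)
    (htr : ∀ σ, (M₁ σ).trace = (M₂ σ).trace) :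
    ∃ P : Matrix (Fin 2) (Fin 2) A, IsUnit P.det ∧ ∀ σ, M₂ σ * P = P * M₁ σ := by
  have hg₂ : IsUnit (flat fun p => M₂ (g p)).det :=
    isUnit_det_flat_of_trace_eq _ _ (fun p q => by
      rw [← map_mul, ← map_mul]
      exact htr _) hg
  exact exists_conj_of_surjective M₁ M₂ htr (linExt_surjective M₁ g hg)
    (linExt_surjective M₂ g hg₂)

end Abstract

section Galois

open IsLocalRing
open scoped TensorProduct

variable {A : Type} [CommRing A] [IsLocalRing A]

/-- For a residually absolutely irreducible representation over a local ring there are four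
elements of the Galois group whose matrices form a basis of `M_2(A)` (determinant form). -/
theorem exists_isUnit_det_flat (ρ : GaloisRepAdic A)
    (hirr : ρ.residual.IsAbsolutelyIrreducible) (b : Module.Basis (Fin 2) A ρ.V) :
    ∃ g : Fin 2 × Fin 2 → (AlgebraicClosure ℚ ≃ₐ[ℚ] AlgebraicClosure ℚ),
      IsUnit (flat fun p => LinearMap.toMatrix b b (ρ.ρ (g p))).det := by
  classical
  let bbar : Module.Basis (Fin 2) (ResidueField A) ρ.residual.V :=
    Algebra.TensorProduct.basis (ResidueField A) b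
  obtain ⟨g, hg⟩ := exists_det_ne_zero ρ.residual hirr bbar
  refine ⟨g, ?_⟩
  have hmat : ∀ σ, LinearMap.toMatrix bbar bbar (ρ.residual.ρ σ)
      = (LinearMap.toMatrix b b (ρ.ρ σ)).map (algebraMap A (ResidueField A)) := fun σ =>
    LinearMap.toMatrix_baseChange (ResidueField A) (ρ.ρ σ) b b
  have hres : residue A (flat fun p => LinearMap.toMatrix b b (ρ.ρ (g p))).det ≠ 0 := by
    rw [← det_flat_map]
    have : (fun p => (LinearMap.toMatrix b b (ρ.ρ (g p))).map (residue A))
        = fun p => LinearMap.toMatrix bbar bbar (ρ.residual.ρ (g p)) := by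
      funext p
      rw [hmat]
      rfl
    rw [this]
    exact hg
  by_contra hnu
  exact hres ((residue_eq_zero_iff _).2 ((mem_maximalIdeal _).2 hnu))

/-- **Carayol's theorem** (dimension 2).  Two representations over a local ring with the same
trace, one of which is residually absolutely irreducible, are equivalent. -/
theorem isEquiv_of_trace_eq (ρ₁ ρ₂ : GaloisRepAdic A)
    (hirr : ρ₁.residual.IsAbsolutelyIrreducible)
    (htr : ∀ σ, ρ₁.trace σ = ρ₂.trace σ) : ρ₁.IsEquiv ρ₂ := by
  classical
  let b₁ : Module.Basis (Fin 2) A ρ₁.V := Module.finBasisOfFinrankEq A ρ₁.V ρ₁.finrank_eq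
  let b₂ : Module.Basis (Fin 2) A ρ₂.V := Module.finBasisOfFinrankEq A ρ₂.V ρ₂.finrank_eq
  let M₁ : (AlgebraicClosure ℚ ≃ₐ[ℚ] AlgebraicClosure ℚ) →* Matrix (Fin 2) (Fin 2) A :=
    { toFun := fun σ => LinearMap.toMatrix b₁ b₁ (ρ₁.ρ σ)
      map_one' := by rw [map_one]; exact LinearMap.toMatrix_one b₁
      map_mul' := fun σ τ => by rw [map_mul]; exact LinearMap.toMatrix_mul b₁ _ _ }
  let M₂ : (AlgebraicClosure ℚ ≃ₐ[ℚ] AlgebraicClosure ℚ) →* Matrix (Fin 2) (Fin 2) A :=
    { toFun := fun σ => LinearMap.toMatrix b₂ b₂ (ρ₂.ρ σ)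
      map_one' := by rw [map_one]; exact LinearMap.toMatrix_one b₂
      map_mul' := fun σ τ => by rw [map_mul]; exact LinearMap.toMatrix_mul b₂ _ _ }
  obtain ⟨g, hg⟩ := exists_isUnit_det_flat ρ₁ hirr b₁
  have htr' : ∀ σ, (M₁ σ).trace = (M₂ σ).trace := by
    intro σ
    have h := htr σ
    unfold GaloisRepAdic.trace at h
    rw [LinearMap.trace_eq_matrix_trace A b₁, LinearMap.trace_eq_matrix_trace A b₂] at h
    exact h
  obtain ⟨P, hP, hint⟩ := exists_conj_of_trace_eq M₁ M₂ g hg htr'
  have hdet : IsUnit (LinearMap.toMatrix b₁ b₂ (Matrix.toLin b₁ b₂ P)).det := by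
    rw [LinearMap.toMatrix_toLin]
    exact hP
  refine ⟨⟨LinearEquiv.ofIsUnitDet hdet, fun σ x => ?_⟩⟩
  have hcomp : (Matrix.toLin b₁ b₂ P) ∘ₗ (ρ₁.ρ σ) = (ρ₂.ρ σ) ∘ₗ (Matrix.toLin b₁ b₂ P) := by
    apply (LinearMap.toMatrix b₁ b₂).injective
    rw [LinearMap.toMatrix_comp b₁ b₁ b₂, LinearMap.toMatrix_comp b₁ b₂ b₂,
      LinearMap.toMatrix_toLin]
    exact (hint σ).symm
  exact congrArg (fun f => f x) hcomp

end Galois

end Fermat.Agent.R.H25
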