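import Fermat.Agent.R.Defs
import Fermat.Agent.R.H91_Lucas

/-!
# Cluster R, package P2 (helper91): Frobenius characteristic polynomials determine all
characteristic polynomials

`Fermat.Agent.R.Stmt_FD` (in `R/Defs.lean`) is the Frobenius density theorem (division form,
item 61) in the language of valuation subrings of `AlgebraicClosure ℚ`.

Main result `charpoly_eq_of_frobenius`: two adic Galois representations over a local ring `T`
with `⨅ n, 𝔪 ^ n = ⊥` whose Frobenius lifts have the same characteristic polynomial at all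
primes outside a finite set have the same characteristic polynomial at EVERY element of
`Gal(ℚ̄/ℚ)`.  Consequences: `IsUnipotentOnInertiaAt` transfers (`isUnipotentOnInertiaAt_of_frobenius`),
trace and determinant agree.

No hypothesis on the residual representation is needed here.
-/

set_option autoImplicit false

open Polynomial IsLocalRing
open scoped TensorProduct

namespace Fermat.Agent.R.H91

/-- The absolute Galois group of `ℚ`. -/
abbrev GQ : Type := AlgebraicClosure ℚ ≃ₐ[ℚ] AlgebraicClosure ℚ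

section BaseChange

variable {T : Type*} [CommRing T] {V : Type*} [AddCommGroup V] [Module T V]

/-- An endomorphism with values in `I • ⊤` dies after base change to `T ⧸ I`. -/
theorem baseChange_eq_zero_of_forall_mem (I : Ideal T) (f : Module.End T V)
    (hf : ∀ v, f v ∈ I • (⊤ : Submodule T V)) : f.baseChange (T ⧸ I) = 0 := by
  have hkill : ∀ x ∈ I • (⊤ : Submodule T V), ∀ c : T ⧸ I, c ⊗ₜ[T] x = 0 := by
    intro x hx c
    refine Submodule.smul_induction_on (p := fun x => c ⊗ₜ[T] x = (0 : (T ⧸ I) ⊗[T] V)) hx ?_ ?_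
    · intro a ha w _
      rw [TensorProduct.tmul_smul, TensorProduct.smul_tmul', Algebra.smul_def,
        Ideal.Quotient.algebraMap_eq, Ideal.Quotient.eq_zero_iff_mem.mpr ha, zero_mul,
        TensorProduct.zero_tmul]
    · intro x y hx hy
      rw [TensorProduct.tmul_add, hx, hy, add_zero]
  refine LinearMap.ext fun w => ?_
  induction w using TensorProduct.induction_on with
  | zero => rw [map_zero, map_zero]
  | tmul c v => rw [LinearMap.baseChange_tmul, LinearMap.zero_apply]; exact hkill _ (hf v) c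
  | add x y hx hy => rw [map_add, map_add, hx, hy]

theorem baseChange_eq_of_forall_sub_mem (I : Ideal T) (f g : Module.End T V)
    (hfg : ∀ v, f v - g v ∈ I • (⊤ : Submodule T V)) :
    f.baseChange (T ⧸ I) = g.baseChange (T ⧸ I) := by
  have h := baseChange_eq_zero_of_forall_mem I (f - g) (fun v => by simpa using hfg v)
  rw [LinearMap.baseChange_sub] at h
  exact sub_eq_zero.mp h

variable [Module.Free T V] [Module.Finite T V]

/-- Congruent endomorphisms have congruent characteristic polynomials. -/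
theorem charpoly_map_eq_of_forall_sub_mem (I : Ideal T) (f g : Module.End T V)
    (hfg : ∀ v, f v - g v ∈ I • (⊤ : Submodule T V)) :
    f.charpoly.map (Ideal.Quotient.mk I) = g.charpoly.map (Ideal.Quotient.mk I) := by
  have h := baseChange_eq_of_forall_sub_mem I f g hfg
  have hf := LinearMap.charpoly_baseChange (A := T ⧸ I) f
  have hg := LinearMap.charpoly_baseChange (A := T ⧸ I) g
  rw [Ideal.Quotient.algebraMap_eq] at hf hg
  rw [← hf, ← hg, h]

end BaseChange

section Rigidity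

variable {T : Type} [CommRing T] [IsLocalRing T]

/-- If `τ` fixes the level-`n` field of `ρ`, then `ρ (g * τ)` is congruent to `ρ g`
modulo `𝔪 ^ n`. -/
theorem GaloisRepAdic_sub_mem (ρ : GaloisRepAdic T) (n : ℕ) (g τ : GQ)
    (hτ : ∀ v : ρ.V, ρ.ρ τ v - v ∈ (maximalIdeal T ^ n) • (⊤ : Submodule T ρ.V)) (v : ρ.V) :
    ρ.ρ (g * τ) v - ρ.ρ g v ∈ (maximalIdeal T ^ n) • (⊤ : Submodule T ρ.V) := by
  have h1 : ρ.ρ (g * τ) v - ρ.ρ g v = ρ.ρ g (ρ.ρ τ v - v) := by
    rw [map_mul, Module.End.mul_apply, map_sub]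
  rw [h1]
  have hmap : Submodule.map (ρ.ρ g) ((maximalIdeal T ^ n) • (⊤ : Submodule T ρ.V)) ≤
      (maximalIdeal T ^ n) • (⊤ : Submodule T ρ.V) := by
    rw [Submodule.map_smul'']
    exact Submodule.smul_mono le_rfl le_top
  exact hmap (Submodule.mem_map_of_mem (hτ v))

/-- **P2 (rigidity of characteristic polynomials).** -/
theorem charpoly_eq_of_frobenius (hFD : Fermat.Agent.R.Stmt_FD)
    (hT : ∀ x : T, (∀ n : ℕ, x ∈ maximalIdeal T ^ n) → x = 0)
    (ρ₁ ρ₂ : GaloisRepAdic T) (S : Finset ℕ)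
    (h : ∀ ℓ : ℕ, ℓ.Prime → ℓ ∉ S → ∀ A : ValuationSubring (AlgebraicClosure ℚ),
      A.LiesOverPrime ℓ → ∀ φ : GQ, A.IsFrobeniusAt φ ℓ →
        LinearMap.charpoly (ρ₁.ρ φ) = LinearMap.charpoly (ρ₂.ρ φ))
    (g : GQ) : LinearMap.charpoly (ρ₁.ρ g) = LinearMap.charpoly (ρ₂.ρ g) := by
  -- it suffices to prove the congruence modulo every power of the maximal ideal
  have key : ∀ n : ℕ, (LinearMap.charpoly (ρ₁.ρ g)).map (Ideal.Quotient.mk (maximalIdeal T ^ n)) =
      (LinearMap.charpoly (ρ₂.ρ g)).map (Ideal.Quotient.mk (maximalIdeal T ^ n)) := by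
    intro n
    obtain ⟨L₁, hL₁, h₁⟩ := ρ₁.isAdicContinuous n
    obtain ⟨L₂, hL₂, h₂⟩ := ρ₂.isAdicContinuous n
    have := hL₁; have := hL₂
    have hL : FiniteDimensional ℚ ↥(L₁ ⊔ L₂) := IntermediateField.finiteDimensional_sup L₁ L₂
    obtain ⟨ℓ, A, φ, j, hℓ, hℓS, hA, hφ, hj⟩ := hFD S (L₁ ⊔ L₂) hL g
    -- τ := g⁻¹ φ^j fixes L₁ ⊔ L₂
    set τ : GQ := g⁻¹ * φ ^ j with hτdef
    have hτ : ∀ x ∈ L₁ ⊔ L₂, τ x = x := by
      intro x hx
      rw [hτdef, AlgEquiv.mul_apply, hj x hx]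
      exact (AlgEquiv.symm_apply_apply g x)
    have hgτ : g * τ = φ ^ j := by rw [hτdef, mul_inv_cancel_left]
    have hτ₁ : ∀ x ∈ L₁, τ x = x := fun x hx => hτ x ((le_sup_left : L₁ ≤ L₁ ⊔ L₂) hx)
    have hτ₂ : ∀ x ∈ L₂, τ x = x := fun x hx => hτ x ((le_sup_right : L₂ ≤ L₁ ⊔ L₂) hx)
    have e₁ := charpoly_map_eq_of_forall_sub_mem (maximalIdeal T ^ n) (ρ₁.ρ (g * τ)) (ρ₁.ρ g)
      (GaloisRepAdic_sub_mem ρ₁ n g τ (h₁ τ hτ₁))
    have e₂ := charpoly_map_eq_of_forall_sub_mem (maximalIdeal T ^ n) (ρ₂.ρ (g * τ)) (ρ₂.ρ g)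
      (GaloisRepAdic_sub_mem ρ₂ n g τ (h₂ τ hτ₂))
    have e₃ : LinearMap.charpoly (ρ₁.ρ (g * τ)) = LinearMap.charpoly (ρ₂.ρ (g * τ)) := by
      rw [hgτ, map_pow, map_pow]
      exact charpoly_pow_eq_of_charpoly_eq ρ₁.finrank_eq ρ₂.finrank_eq _ _ (h ℓ hℓ hℓS A hA φ hφ) j
    rw [← e₁, ← e₂, e₃]
  ext i
  have hsub : (LinearMap.charpoly (ρ₁.ρ g)).coeff i - (LinearMap.charpoly (ρ₂.ρ g)).coeff i = 0 := by
    apply hT
    intro n
    have := congrArg (fun q : (T ⧸ maximalIdeal T ^ n)[X] => q.coeff i) (key n)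
    simp only [coeff_map] at this
    rw [← Ideal.Quotient.eq_zero_iff_mem, map_sub, this, sub_self]
  exact sub_eq_zero.mp hsub

/-- Unipotency on inertia is determined by the Frobenius characteristic polynomials. -/
theorem isUnipotentOnInertiaAt_of_frobenius (hFD : Fermat.Agent.R.Stmt_FD)
    (hT : ∀ x : T, (∀ n : ℕ, x ∈ maximalIdeal T ^ n) → x = 0)
    (ρ₁ ρ₂ : GaloisRepAdic T) (S : Finset ℕ)
    (h : ∀ ℓ : ℕ, ℓ.Prime → ℓ ∉ S → ∀ A : ValuationSubring (AlgebraicClosure ℚ),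
      A.LiesOverPrime ℓ → ∀ φ : GQ, A.IsFrobeniusAt φ ℓ →
        LinearMap.charpoly (ρ₁.ρ φ) = LinearMap.charpoly (ρ₂.ρ φ))
    (q : ℕ) (h₂ : ρ₂.IsUnipotentOnInertiaAt q) : ρ₁.IsUnipotentOnInertiaAt q := by
  intro P hP σ hσ
  rw [charpoly_eq_of_frobenius hFD hT ρ₁ ρ₂ S h σ]
  exact h₂ P hP σ hσ

end Rigidity

end Fermat.Agent.R.H91
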