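import Mathlib
import Fermat.Prelude.Def_CuspForm_Newforms
import Fermat.Prelude.Thm_CuspForm_intLattice_fg
import Fermat.Agent.S49.Eigenform
import Fermat.Agent.S23
import Fermat.Agent.R.H99_EigenChar

/-!
# Cluster R, leaf L5(1),(2): newform bookkeeping

* `exists_common_eigenvector_mem` : a commuting family of endomorphisms of a finite-dimensional
  vector space over an algebraically closed field has a common eigenvector in every nonzero
  invariant subspace.
* `exists_normalizedEigenform_of_common_eigenvector` : if a nonzero cusp form `v` of level `M` is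
  a common eigenvector of a family `F i` of Hecke operators (elements of the full Hecke algebra
  `heckeAlgebra M 2 ∅`), then there is a *normalised eigenform* `g` of level `M` (eigenvector of
  ALL `T_ℓ`, `U_q`) with the same eigenvalues for the `F i`.
* `exists_normalizedEigenform_of_eigenvector` : the same for the family `T_ℓ`, `ℓ ∤ M`, `ℓ ∉ S`,
  conclusion on `q`-coefficients.
* `exists_normalizedEigenform_of_character` : the same for an eigenvector of the Hecke algebra
  away from `S`.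
* `goodEigensystemOccursAt_of_eigenvector` : an eigenvector of level `M ∣ N` with the good
  eigenvalues of `f` shows `GoodEigensystemOccursAt f M`.
* `IsNewform.eq_zero_of_eigenvector` : a newform of level `N` has no eigenvector with its good
  eigenvalues at a proper divisor of the level.
* `exists_isNewform` : every normalised eigenform of level `N` has an associated newform (prelude
  sense) of some level `M ∣ N` with the same `a_ℓ`, `ℓ ∤ N`.
-/

set_option autoImplicit false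

namespace Fermat.Agent.R.H99

open CuspForm CongruenceSubgroup ModularFormClass Fermat.Agent.S49 Module FormalHecke

section LinearAlgebra

variable {K V ι : Type*} [Field K] [IsAlgClosed K] [AddCommGroup V] [Module K V]
  [FiniteDimensional K V]

theorem exists_common_eigenvector_mem_aux (f : ι → Module.End K V)
    (hcomm : ∀ i j, Commute (f i) (f j)) :
    ∀ (n : ℕ) (U : Submodule K V), finrank K U = n → U ≠ ⊥ → (∀ i, ∀ x ∈ U, f i x ∈ U) →
      ∃ v ∈ U, v ≠ 0 ∧ ∀ i, ∃ c : K, f i v = c • v := by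
  intro n
  induction n using Nat.strong_induction_on with
  | _ n ih =>
    intro U hn hU hinv
    by_cases hall : ∀ i, ∃ c : K, ∀ x ∈ U, f i x = c • x
    · obtain ⟨v, hvU, hv0⟩ := Submodule.exists_mem_ne_zero_of_ne_bot hU
      exact ⟨v, hvU, hv0, fun i => ⟨(hall i).choose, (hall i).choose_spec v hvU⟩⟩
    · simp only [not_forall, not_exists] at hall
      obtain ⟨i, hi⟩ := hall
      -- an eigenvalue of `f i` on `U`
      have : Nontrivial U := Submodule.nontrivial_iff_ne_bot.mpr hU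
      obtain ⟨μ, hμ⟩ := Module.End.exists_eigenvalue ((f i).restrict (hinv i))
      obtain ⟨u, hu⟩ := hμ.exists_hasEigenvector
      have hu1 : f i (u : V) = μ • (u : V) := by
        have := hu.apply_eq_smul
        exact congrArg Subtype.val this
      have hu0 : (u : V) ≠ 0 := fun h => hu.2 (Subtype.ext h)
      set U' : Submodule K V := U ⊓ (f i).eigenspace μ with hU'
      have hU'ne : U' ≠ ⊥ := by
        intro h
        have : (u : V) ∈ U' := ⟨u.2, Module.End.mem_eigenspace_iff.mpr hu1⟩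
        rw [h] at this
        exact hu0 ((Submodule.mem_bot K).mp this)
      have hlt : U' < U := by
        refine lt_of_le_of_ne inf_le_left ?_
        intro h
        obtain ⟨x, hxU, hx⟩ := hi μ
        apply hx
        have : x ∈ U' := h ▸ hxU
        exact Module.End.mem_eigenspace_iff.mp this.2
      have hfin : finrank K U' < n := hn ▸ Submodule.finrank_lt_finrank_of_lt hlt
      have hinv' : ∀ j, ∀ x ∈ U', f j x ∈ U' := by
        intro j x hx
        refine ⟨hinv j x hx.1, Module.End.mem_eigenspace_iff.mpr ?_⟩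
        have hx2 : f i x = μ • x := Module.End.mem_eigenspace_iff.mp hx.2
        have hc : f i (f j x) = f j (f i x) := by
          have := (hcomm i j).eq
          exact congrArg (fun g => g x) this
        rw [hc, hx2, map_smul]
      obtain ⟨v, hvU', hv0, hv⟩ := ih _ hfin U' rfl hU'ne hinv'
      exact ⟨v, hvU'.1, hv0, hv⟩

/-- A commuting family of endomorphisms has a common eigenvector in every nonzero invariant
subspace (finite dimension, algebraically closed field). -/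
theorem exists_common_eigenvector_mem (f : ι → Module.End K V)
    (hcomm : ∀ i j, Commute (f i) (f j)) (U : Submodule K V) (hU : U ≠ ⊥)
    (hinv : ∀ i, ∀ x ∈ U, f i x ∈ U) :
    ∃ v ∈ U, v ≠ 0 ∧ ∀ i, ∃ c : K, f i v = c • v :=
  exists_common_eigenvector_mem_aux f hcomm _ U rfl hU hinv

end LinearAlgebra

variable {M : ℕ} [NeZero M]

/-- `S₂(Γ₀(M))` is finite-dimensional (from the integral structure S23). -/
theorem finiteDimensional_cuspForm (M : ℕ) [NeZero M] :
    FiniteDimensional ℂ (CuspForm (Gamma0 M) 2) := by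
  obtain ⟨s, hs⟩ := CuspForm.intLattice_fg M 2
  refine ⟨⟨s, ?_⟩⟩
  have h : CuspForm.HasIntegralStructure M 2 := Fermat.Agent.S23.result M
  unfold CuspForm.HasIntegralStructure at h
  rw [← h, ← hs, Submodule.span_span_of_tower]

/-- A simultaneous eigenvector of the full Hecke algebra has nonzero first coefficient, and its
normalisation is a normalised eigenform (prelude sense). -/
theorem isNormalizedEigenform_of_eigenvector (χ : heckeAlgebra M 2 ∅ →+* ℂ)
    (v : CuspForm (Gamma0 M) 2) (hv0 : v ≠ 0)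
    (hv : ∀ T : heckeAlgebra M 2 ∅,
      (T : Module.End ℂ (CuspForm (Gamma0 M) 2)) v = χ T • v) :
    qCoeff ⇑v 1 ≠ 0 ∧ ((qCoeff ⇑v 1)⁻¹ • v).IsNormalizedEigenform := by
  have hrel := fun (ℓ : ℕ) (hℓ : ℓ.Prime) (n : ℕ) => qCoeff_eigen_relation χ v hv hℓ n
  have hb1 : qCoeff ⇑v 1 ≠ 0 := by
    intro h1
    apply hv0
    apply cuspForm_eq_zero_of_qCoeff
    exact eq_zero_of_relation (e := levelChar M) (c := eigenvalueAt χ) hrel (qCoeff_at_zero v) h1
  refine ⟨hb1, ?_⟩
  set f : CuspForm (Gamma0 M) 2 := (qCoeff ⇑v 1)⁻¹ • v with hf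
  have hfcoeff : ∀ n, qCoeff ⇑f n = (qCoeff ⇑v 1)⁻¹ * qCoeff ⇑v n := fun n => qCoeff_smul _ _ _
  have hf1 : qCoeff ⇑f 1 = 1 := by
    rw [hfcoeff, inv_mul_cancel₀ hb1]
  have hfrel : ∀ ℓ : ℕ, ℓ.Prime → ∀ n : ℕ,
      qCoeff ⇑f (ℓ * n) + levelChar M ℓ * (if ℓ ∣ n then qCoeff ⇑f (n / ℓ) else 0)
        = eigenvalueAt χ ℓ * qCoeff ⇑f n := by
    intro ℓ hℓ n
    rw [hfcoeff, hfcoeff, hfcoeff]
    have := hrel ℓ hℓ n
    have h2 : (qCoeff ⇑v 1)⁻¹ * qCoeff ⇑v (ℓ * n)
        + levelChar M ℓ * (if ℓ ∣ n then (qCoeff ⇑v 1)⁻¹ * qCoeff ⇑v (n / ℓ) else 0)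
        = (qCoeff ⇑v 1)⁻¹ * (qCoeff ⇑v (ℓ * n)
          + levelChar M ℓ * (if ℓ ∣ n then qCoeff ⇑v (n / ℓ) else 0)) := by
      split_ifs <;> ring
    rw [h2, this]
    ring
  have hfℓ : ∀ ℓ : ℕ, ℓ.Prime → qCoeff ⇑f ℓ = eigenvalueAt χ ℓ := by
    intro ℓ hℓ
    have := hfrel ℓ hℓ 1
    have hnd : ¬ ℓ ∣ 1 := by
      intro h
      exact hℓ.one_lt.ne' (Nat.dvd_one.mp h)
    rw [if_neg hnd, mul_zero, add_zero, mul_one, hf1, mul_one] at this
    exact this
  have heig : IsEigensystem (levelChar M) (fun n => qCoeff ⇑f n) := by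
    refine ⟨hf1, ?_⟩
    intro ℓ hℓ n
    show qCoeff ⇑f (ℓ * n) + levelChar M ℓ * (if ℓ ∣ n then qCoeff ⇑f (n / ℓ) else 0)
      = qCoeff ⇑f ℓ * qCoeff ⇑f n
    rw [hfrel ℓ hℓ n, hfℓ ℓ hℓ]
  have hrec := formal_isRecursive heig
  refine ⟨hf1, hrec.2.1, ?_, ?_⟩
  · intro p r hp hpN
    have := hrec.2.2 p r hp
    simp only [levelChar, if_neg hpN] at this
    exact this
  · intro p r hp hpN
    have := hrec.2.2 p r hp
    simp only [levelChar, if_pos hpN, zero_mul, sub_zero] at this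
    exact this

/-- The character of a simultaneous eigenvector. -/
theorem exists_character_of_eigenvector (S : Set ℕ) (v : CuspForm (Gamma0 M) 2) (hv0 : v ≠ 0)
    (hv : ∀ T : heckeAlgebra M 2 S, ∃ c : ℂ,
      (T : Module.End ℂ (CuspForm (Gamma0 M) 2)) v = c • v) :
    ∃ χ : heckeAlgebra M 2 S →+* ℂ, ∀ T : heckeAlgebra M 2 S,
      (T : Module.End ℂ (CuspForm (Gamma0 M) 2)) v = χ T • v := by
  choose e he using hv
  have huniq : ∀ (T : heckeAlgebra M 2 S) {c : ℂ},
      (T : Module.End ℂ (CuspForm (Gamma0 M) 2)) v = c • v → e T = c := by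
    intro T c h
    exact smul_left_injective ℂ hv0 ((he T).symm.trans h)
  refine ⟨{ toFun := e
            map_one' := huniq 1 (by simp)
            map_mul' := fun x y => huniq (x * y) (by
              rw [MulMemClass.coe_mul, Module.End.mul_apply, he y, map_smul, he x, smul_smul,
                mul_comm])
            map_zero' := huniq 0 (by simp)
            map_add' := fun x y => huniq (x + y) (by
              rw [AddMemClass.coe_add, LinearMap.add_apply, he x, he y, add_smul]) }, he⟩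

/-- **L5(1), general form.** If a nonzero cusp form of level `M` is a common eigenvector of a
family of Hecke operators `F i ∈ heckeAlgebra M 2 ∅`, then some normalised eigenform of level `M`
(an eigenvector of the FULL Hecke algebra) has the same eigenvalues for the `F i`. -/
theorem exists_normalizedEigenform_of_common_eigenvector {ι : Type*}
    (F : ι → Module.End ℂ (CuspForm (Gamma0 M) 2)) (hF : ∀ i, F i ∈ heckeAlgebra M 2 ∅)
    (c : ι → ℂ) (v : CuspForm (Gamma0 M) 2) (hv0 : v ≠ 0) (hv : ∀ i, F i v = c i • v) :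
    ∃ g : CuspForm (Gamma0 M) 2, g.IsNormalizedEigenform ∧ ∀ i, F i g = c i • g := by
  have := finiteDimensional_cuspForm M
  set U : Submodule ℂ (CuspForm (Gamma0 M) 2) := ⨅ i, (F i).eigenspace (c i) with hU
  have hvU : v ∈ U := by
    rw [hU, Submodule.mem_iInf]
    exact fun i => Module.End.mem_eigenspace_iff.mpr (hv i)
  have hUne : U ≠ ⊥ := fun h => hv0 ((Submodule.mem_bot ℂ).mp (h ▸ hvU))
  have hcomm : ∀ T T' : heckeAlgebra M 2 ∅,
      Commute (T : Module.End ℂ (CuspForm (Gamma0 M) 2)) T' := by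
    intro T T'
    have h := mul_comm T T'
    exact congrArg Subtype.val h
  have hinv : ∀ T : heckeAlgebra M 2 ∅, ∀ x ∈ U,
      (T : Module.End ℂ (CuspForm (Gamma0 M) 2)) x ∈ U := by
    intro T x hx
    rw [hU, Submodule.mem_iInf] at hx ⊢
    intro i
    rw [Module.End.mem_eigenspace_iff]
    have h1 : F i x = c i • x := Module.End.mem_eigenspace_iff.mp (hx i)
    have h2 := (hcomm ⟨F i, hF i⟩ T).eq
    have h3 : F i ((T : Module.End ℂ (CuspForm (Gamma0 M) 2)) x)
        = (T : Module.End ℂ (CuspForm (Gamma0 M) 2)) (F i x) :=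
      congrArg (fun g : Module.End ℂ (CuspForm (Gamma0 M) 2) => g x) h2
    rw [h3, h1, map_smul]
  obtain ⟨w, hwU, hw0, hw⟩ := exists_common_eigenvector_mem
    (fun T : heckeAlgebra M 2 ∅ => (T : Module.End ℂ (CuspForm (Gamma0 M) 2))) hcomm U hUne hinv
  obtain ⟨χ, hχ⟩ := exists_character_of_eigenvector ∅ w hw0 hw
  obtain ⟨hb1, hnorm⟩ := isNormalizedEigenform_of_eigenvector χ w hw0 hχ
  refine ⟨_, hnorm, fun i => ?_⟩
  rw [hU, Submodule.mem_iInf] at hwU
  rw [map_smul, Module.End.mem_eigenspace_iff.mp (hwU i), smul_comm]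

/-- **L5(1).** An eigenvector (of level `M`) of the `T_ℓ`, `ℓ ∤ M`, `ℓ ∉ S`, with eigenvalues
`a ℓ` gives a normalised eigenform of level `M` with `a_ℓ = a ℓ` for those `ℓ`. -/
theorem exists_normalizedEigenform_of_eigenvector (S : Set ℕ) (a : ℕ → ℂ)
    (v : CuspForm (Gamma0 M) 2) (hv0 : v ≠ 0)
    (hv : ∀ (ℓ : ℕ) (hℓ : ℓ.Prime) (hℓM : ¬ ℓ ∣ M), ℓ ∉ S →
      CuspForm.heckeTLin 2 hℓ hℓM v = a ℓ • v) :
    ∃ g : CuspForm (Gamma0 M) 2, g.IsNormalizedEigenform ∧
      ∀ ℓ : ℕ, ℓ.Prime → ¬ ℓ ∣ M → ℓ ∉ S → qCoeff ⇑g ℓ = a ℓ := by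
  obtain ⟨g, hg, hgF⟩ := exists_normalizedEigenform_of_common_eigenvector
    (ι := {ℓ : ℕ // ℓ.Prime ∧ ¬ ℓ ∣ M ∧ ℓ ∉ S})
    (fun ℓ => CuspForm.heckeTLin 2 ℓ.2.1 ℓ.2.2.1)
    (fun ℓ => heckeTLin_mem_heckeAlgebra ℓ.2.1 ℓ.2.2.1 (Set.notMem_empty _))
    (fun ℓ => a ℓ.1) v hv0 (fun ℓ => hv ℓ.1 ℓ.2.1 ℓ.2.2.1 ℓ.2.2.2)
  refine ⟨g, hg, fun ℓ hℓ hℓM hℓS => ?_⟩
  have h1 := hgF ⟨ℓ, hℓ, hℓM, hℓS⟩
  have h2 := heckeTLin_apply_eq_smul hg hℓ hℓM
  have hg0 : g ≠ 0 := by
    rintro rfl
    have h1 := hg.qCoeff_one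
    rw [qCoeff_zero_form] at h1
    exact zero_ne_one h1
  exact smul_left_injective ℂ hg0 (h2.symm.trans h1)

/-- **L5(1), character form.** A nonzero eigenvector of the Hecke algebra away from `S`, with
character `χ`, gives a normalised eigenform with the same character. -/
theorem exists_normalizedEigenform_of_character (S : Set ℕ) (χ : heckeAlgebra M 2 S → ℂ)
    (v : CuspForm (Gamma0 M) 2) (hv0 : v ≠ 0)
    (hv : ∀ T : heckeAlgebra M 2 S,
      (T : Module.End ℂ (CuspForm (Gamma0 M) 2)) v = χ T • v) :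
    ∃ g : CuspForm (Gamma0 M) 2, g.IsNormalizedEigenform ∧
      ∀ T : heckeAlgebra M 2 S,
        (T : Module.End ℂ (CuspForm (Gamma0 M) 2)) g = χ T • g :=
  exists_normalizedEigenform_of_common_eigenvector
    (fun T : heckeAlgebra M 2 S => (T : Module.End ℂ (CuspForm (Gamma0 M) 2)))
    (fun T => heckeAlgebra_mono (Set.empty_subset S) T.2) χ v hv0 hv

omit [NeZero M] in
/-- An eigenvector at level `M ∣ N` carrying the good eigenvalues of `f` (level `N`) shows that
the good eigensystem of `f` occurs at level `M`. -/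
theorem goodEigensystemOccursAt_of_eigenvector {N : ℕ} (f : CuspForm (Gamma0 N) 2)
    (hM : M ≠ 0) (hMN : M ∣ N) (v : CuspForm (Gamma0 M) 2) (hv0 : v ≠ 0)
    (hv : ∀ (ℓ : ℕ) (hℓ : ℓ.Prime) (hℓM : ¬ ℓ ∣ M), ¬ ℓ ∣ N →
      CuspForm.heckeTLin 2 hℓ hℓM v = qCoeff ⇑f ℓ • v) :
    GoodEigensystemOccursAt f M := by
  have : NeZero M := ⟨hM⟩
  obtain ⟨g, hg, hga⟩ := exists_normalizedEigenform_of_eigenvector {ℓ | ℓ ∣ N}
    (fun ℓ => qCoeff ⇑f ℓ) v hv0 (fun ℓ hℓ hℓM hℓS => hv ℓ hℓ hℓM hℓS)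
  exact ⟨g, hg, fun ℓ hℓ hℓN => hga ℓ hℓ (fun h => hℓN (h.trans hMN)) hℓN⟩

omit [NeZero M] in
/-- A newform of level `N` has no eigenvector with its good eigenvalues at a proper divisor of
the level. -/
theorem IsNewform.eq_zero_of_eigenvector {N : ℕ} {f : CuspForm (Gamma0 N) 2} (hf : f.IsNewform)
    (hM : M ≠ 0) (hMN : M ∣ N) (hne : M ≠ N) (v : CuspForm (Gamma0 M) 2)
    (hv : ∀ (ℓ : ℕ) (hℓ : ℓ.Prime) (hℓM : ¬ ℓ ∣ M), ¬ ℓ ∣ N →
      CuspForm.heckeTLin 2 hℓ hℓM v = qCoeff ⇑f ℓ • v) : v = 0 := by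
  by_contra hv0
  exact hf.2 M hMN hne (goodEigensystemOccursAt_of_eigenvector f hM hMN v hv0 hv)

omit [NeZero M] in
/-- **L5(2).** Every normalised eigenform of level `N` has an associated newform (prelude sense:
no lower level carries its good eigensystem) of some level `M ∣ N`, with the same `a_ℓ`,
`ℓ ∤ N`. -/
theorem exists_isNewform {N : ℕ} [NeZero N] {f : CuspForm (Gamma0 N) 2}
    (hf : f.IsNormalizedEigenform) :
    ∃ (M : ℕ) (_ : M ∣ N) (g : CuspForm (Gamma0 M) 2), g.IsNewform ∧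
      ∀ ℓ : ℕ, ℓ.Prime → ¬ ℓ ∣ N → qCoeff ⇑g ℓ = qCoeff ⇑f ℓ := by
  classical
  have hex : ∃ M : ℕ, M ∣ N ∧ GoodEigensystemOccursAt f M :=
    ⟨N, dvd_rfl, GoodEigensystemOccursAt.refl hf⟩
  have hspec := Nat.find_spec hex
  have hmin := fun {m : ℕ} (h : m < Nat.find hex) => Nat.find_min hex h
  generalize Nat.find hex = M at hspec hmin
  obtain ⟨hMN, g, hg, hga⟩ := hspec
  have hM0 : M ≠ 0 := fun h => NeZero.ne N (Nat.eq_zero_of_zero_dvd (h ▸ hMN))
  refine ⟨M, hMN, g, ⟨hg, ?_⟩, hga⟩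
  rintro M' hM'M hM'ne ⟨g', hg', hg'a⟩
  have hlt : M' < M := lt_of_le_of_ne (Nat.le_of_dvd (Nat.pos_of_ne_zero hM0) hM'M) hM'ne
  refine hmin hlt ⟨hM'M.trans hMN, g', hg', fun ℓ hℓ hℓN => ?_⟩
  rw [hg'a ℓ hℓ (fun h => hℓN (h.trans hMN)), hga ℓ hℓ hℓN]

end Fermat.Agent.R.H99
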