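import Mathlib
import Fermat.Prelude.Thm_Algebra_finite_maximalSpectrum_and_bijective_localization_of_module_finite
import Fermat.Prelude.Thm_IsLocalRing_isAdicComplete_of_module_finite

/-!
# Cluster R, leaf L4 (helper2): finite extensions of complete discrete valuation rings

`O` a complete DVR of characteristic `0` with fraction field `K`, `E / K` a finite field
extension.  Then the integral closure `O'' = integralClosure O E` is again a complete DVR,
finite over `O`, with local and injective structure map, finite residue field (if that of `O` is
finite) and fraction field `E`.

Main statements (namespace `Fermat.Agent.R.H2`):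
* `isLocalRing_of_finite_of_isDomain`: a domain finite over a complete noetherian local ring is
  local.
* `FiniteExt.*` : the instances for `integralClosure O E`.
* `exists_finiteExtDVR`: the packaged existence statement in the exact shape of the conclusion
  of the frozen statement S30.
-/

set_option autoImplicit false
set_option linter.style.haveILetI false
set_option linter.unusedSectionVars false
set_option linter.unusedSimpArgs false

open IsLocalRing

namespace Fermat.Agent.R.H2

/-- A domain which is finite over a complete noetherian local ring is local. -/
theorem isLocalRing_of_finite_of_isDomain (O : Type) [CommRing O] [IsLocalRing O]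
    [IsNoetherianRing O] [IsAdicComplete (maximalIdeal O) O]
    (A : Type) [CommRing A] [IsDomain A] [Algebra O A] [Module.Finite O A] : IsLocalRing A := by
  obtain ⟨-, hbij, -, -⟩ :=
    Algebra.finite_maximalSpectrum_and_bijective_localization_of_module_finite (𝒪 := O) A
  -- at most one maximal ideal
  have huniq : ∀ I J : MaximalSpectrum A, I = J := by
    intro I J
    by_contra hIJ
    classical
    -- the two idempotents `e_I`, `e_J` in the product multiply to zero
    obtain ⟨a, ha⟩ := hbij.2 (Pi.single I 1)
    obtain ⟨b, hb⟩ := hbij.2 (Pi.single J 1)
    have hab : a * b = 0 := by
      apply hbij.1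
      rw [map_mul, ha, hb, map_zero]
      funext K
      by_cases hK : K = I
      · subst hK
        simp [Pi.single_apply, hIJ]
      · simp [Pi.single_apply, hK]
    have ha0 : a ≠ 0 := by
      rintro rfl
      rw [map_zero] at ha
      have := congrFun ha I
      simp at this
    have hb0 : b ≠ 0 := by
      rintro rfl
      rw [map_zero] at hb
      have := congrFun hb J
      simp at this
    exact (mul_ne_zero ha0 hb0) hab
  obtain ⟨m, hm⟩ := Ideal.exists_maximal A
  refine IsLocalRing.of_unique_max_ideal ⟨m, hm, fun J hJ => ?_⟩
  exact congrArg MaximalSpectrum.asIdeal (huniq ⟨J, hJ⟩ ⟨m, hm⟩)

namespace FiniteExt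

variable (O : Type) [CommRing O] [IsDomain O] [IsDiscreteValuationRing O]
  (K : Type) [Field K] [Algebra O K] [IsFractionRing O K]
  (E : Type) [Field E] [Algebra K E] [Algebra O E] [IsScalarTower O K E] [FiniteDimensional K E]

include K in
theorem charZero_K [CharZero O] : CharZero K :=
  charZero_of_injective_algebraMap (IsFractionRing.injective O K)

include K in
theorem moduleFinite [CharZero O] : Module.Finite O (integralClosure O E) := by
  haveI : CharZero K := charZero_K O K
  exact IsIntegralClosure.finite O K E (integralClosure O E)

include K in
theorem isDedekindDomain [CharZero O] : IsDedekindDomain (integralClosure O E) := by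
  haveI : CharZero K := charZero_K O K
  exact integralClosure.isDedekindDomain O K E

include K in
theorem isLocalRing [CharZero O] [IsAdicComplete (maximalIdeal O) O] :
    IsLocalRing (integralClosure O E) := by
  haveI := moduleFinite O K E
  exact isLocalRing_of_finite_of_isDomain O (integralClosure O E)

include K in
theorem injective_algebraMap :
    Function.Injective (algebraMap O (integralClosure O E)) := by
  have h1 : Function.Injective (algebraMap O E) := by
    rw [IsScalarTower.algebraMap_eq O K E]
    exact (algebraMap K E).injective.comp (IsFractionRing.injective O K)
  intro x y hxy
  apply h1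
  have := congrArg (algebraMap (integralClosure O E) E) hxy
  rwa [← IsScalarTower.algebraMap_apply, ← IsScalarTower.algebraMap_apply] at this

include K in
theorem not_isField : ¬ IsField (integralClosure O E) := by
  intro hF
  -- then `O` would be a field, since `O → integralClosure O E` is integral and injective
  have hinj := injective_algebraMap O K E
  haveI : Algebra.IsIntegral O (integralClosure O E) := inferInstance
  have : IsField O := isField_of_isIntegral_of_isField hinj hF
  exact IsDiscreteValuationRing.not_isField O this

include K in
theorem isDiscreteValuationRing [CharZero O] [IsAdicComplete (maximalIdeal O) O] :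
    IsDiscreteValuationRing (integralClosure O E) := by
  haveI := isLocalRing O K E
  haveI := isDedekindDomain O K E
  have h := (IsDiscreteValuationRing.TFAE (integralClosure O E) (not_isField O K E)).out 0 2
  exact h.mpr (isDedekindDomain O K E)

include K in
theorem isLocalHom [CharZero O] [IsAdicComplete (maximalIdeal O) O] :
    IsLocalHom (algebraMap O (integralClosure O E)) := by
  haveI : FaithfulSMul O (integralClosure O E) :=
    (faithfulSMul_iff_algebraMap_injective O (integralClosure O E)).2
      (injective_algebraMap O K E)
  exact Algebra.IsIntegral.isLocalHom O (integralClosure O E)

include K in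
theorem isAdicComplete [CharZero O] [IsAdicComplete (maximalIdeal O) O] :
    letI := isLocalRing O K E
    IsAdicComplete (maximalIdeal (integralClosure O E)) (integralClosure O E) := by
  letI := isLocalRing O K E
  haveI := moduleFinite O K E
  haveI := isLocalHom O K E
  exact IsLocalRing.isAdicComplete_of_module_finite (𝒪 := O) (T := integralClosure O E)

include K in
theorem finite_residueField [CharZero O] [IsAdicComplete (maximalIdeal O) O]
    [Finite (ResidueField O)] :
    letI := isLocalRing O K E
    Finite (ResidueField (integralClosure O E)) := by
  letI := isLocalRing O K E
  haveI := moduleFinite O K E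
  haveI := isLocalHom O K E
  exact ResidueField.finite_of_finite (R := O) (S := integralClosure O E) inferInstance

include K in
theorem isFractionRing : IsFractionRing (integralClosure O E) E :=
  integralClosure.isFractionRing_of_finite_extension K E

include K in
theorem charZero [CharZero O] : CharZero (integralClosure O E) := by
  have h1 : Function.Injective (algebraMap O (integralClosure O E)) :=
    injective_algebraMap O K E
  exact charZero_of_injective_algebraMap h1

end FiniteExt

/-- **L4 (FiniteExtDVR)**, packaged in the shape of the conclusion of the frozen statement S30:
for a complete DVR `O` (char 0, finite residue field) with fraction field `K` and a finite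
extension `E / K` there is a complete DVR `O''` (char 0, finite residue field), finite over `O`
with local injective structure map, together with an embedding `O'' → E` compatible with
`O → E`, identifying `E` with the fraction field of `O''`, and whose image contains every
element of `E` integral over `O`. -/
theorem exists_finiteExtDVR (O : Type) [CommRing O] [IsDomain O] [IsDiscreteValuationRing O]
    [IsAdicComplete (maximalIdeal O) O] [Finite (ResidueField O)] [CharZero O]
    (K : Type) [Field K] [Algebra O K] [IsFractionRing O K]
    (E : Type) [Field E] [Algebra K E] [Algebra O E] [IsScalarTower O K E]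
    [FiniteDimensional K E] :
    ∃ (O'' : Type) (_ : CommRing O'') (_ : IsDomain O'') (_ : IsDiscreteValuationRing O'')
      (_ : IsAdicComplete (maximalIdeal O'') O'')
      (_ : Finite (ResidueField O'')) (_ : CharZero O'')
      (_ : Algebra O O'') (_ : Module.Finite O O'') (_ : IsLocalHom (algebraMap O O''))
      (_ : Algebra O'' E) (_ : IsScalarTower O O'' E) (_ : IsFractionRing O'' E),
      Function.Injective (algebraMap O O'') ∧
      ∀ x : E, IsIntegral O x → ∃ y : O'', algebraMap O'' E y = x := by
  letI hloc := FiniteExt.isLocalRing O K E
  letI hdvr := FiniteExt.isDiscreteValuationRing O K E
  refine ⟨integralClosure O E, inferInstance, inferInstance, hdvr, ?_, ?_,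
    FiniteExt.charZero O K E, inferInstance, FiniteExt.moduleFinite O K E,
    FiniteExt.isLocalHom O K E, inferInstance, inferInstance, FiniteExt.isFractionRing O K E,
    FiniteExt.injective_algebraMap O K E, ?_⟩
  · exact FiniteExt.isAdicComplete O K E
  · exact FiniteExt.finite_residueField O K E
  · intro x hx
    exact ⟨⟨x, hx⟩, rfl⟩

end Fermat.Agent.R.H2
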