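import Mathlib
import Fermat.Agent.R.H2_FiniteExtDVR

/-!
# Cluster R, leaf L3b (helper2): a complete DVR point above a maximal ideal of an order

`R` a domain of characteristic `0`, finite over `ℤ`, `P` a maximal ideal of `R` containing the
prime `p`.  Then there are a complete discrete valuation ring `O'` (characteristic `0`, finite
residue field, finite over `ℤ_[p]`) and an injective ring homomorphism `i : R →+* O'` with
`i⁻¹ (maximalIdeal O') = P`.

Construction: `A = ℤ_[p] ⊗ R`, `𝔐 ⊂ A` the kernel of `A → R ⧸ P`, `𝔮 ≤ 𝔐` a minimal prime,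
`B = A ⧸ 𝔮` (a domain, finite and faithful over `ℤ_[p]`), `E = Frac B`, `O' = integralClosure ℤ_[p] E`
(leaf L4).
-/

set_option autoImplicit false
set_option linter.style.haveILetI false
set_option linter.unusedSectionVars false

open IsLocalRing TensorProduct

namespace Fermat.Agent.R.H2

section fracfinite

variable (O : Type) [CommRing O] [IsDomain O]
  (B : Type) [CommRing B] [IsDomain B] [Algebra O B] [Module.Finite O B] [FaithfulSMul O B]

/-- The fraction field of a domain finite and faithful over a domain `O` is finite dimensional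
over `Frac O`. -/
theorem finiteDimensional_fractionRing :
    letI := FractionRing.liftAlgebra O (FractionRing B)
    FiniteDimensional (FractionRing O) (FractionRing B) := by
  letI := FractionRing.liftAlgebra O (FractionRing B)
  haveI := FractionRing.isScalarTower_liftAlgebra O (FractionRing B)
  haveI : Algebra.IsIntegral O B := Algebra.IsIntegral.of_finite O B
  haveI : Algebra.IsAlgebraic (FractionRing O) (FractionRing B) :=
    isAlgebraic_of_isFractionRing O B (FractionRing O) (FractionRing B)
  -- finitely many generators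
  obtain ⟨T, hT⟩ := (Module.Finite.fg_top : (⊤ : Submodule O B).FG)
  set S : Set (FractionRing B) := (algebraMap B (FractionRing B)) '' (T : Set B) with hS
  haveI : Finite S := (T.finite_toSet.image _).to_subtype
  have hfd : FiniteDimensional (FractionRing O) (IntermediateField.adjoin (FractionRing O) S) :=
    IntermediateField.finiteDimensional_adjoin
      (fun x _ => (Algebra.IsAlgebraic.isAlgebraic x).isIntegral)
  -- the image of `B` lies in the adjoin
  have hB : ∀ b : B, algebraMap B (FractionRing B) b ∈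
      IntermediateField.adjoin (FractionRing O) S := by
    intro b
    have hb : b ∈ Submodule.span O (T : Set B) := by rw [hT]; trivial
    induction hb using Submodule.span_induction with
    | mem x hx => exact IntermediateField.subset_adjoin _ _ ⟨x, hx, rfl⟩
    | zero => rw [map_zero]; exact zero_mem _
    | add x y _ _ hx hy => rw [map_add]; exact add_mem hx hy
    | smul a x _ hx =>
      rw [Algebra.smul_def, map_mul, ← IsScalarTower.algebraMap_apply,
        IsScalarTower.algebraMap_apply O (FractionRing O) (FractionRing B)]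
      exact mul_mem (IntermediateField.algebraMap_mem _ _) hx
  have htop : IntermediateField.adjoin (FractionRing O) S = ⊤ := by
    rw [eq_top_iff]
    intro z _
    obtain ⟨x, y, -, rfl⟩ := IsFractionRing.div_surjective B z
    exact div_mem (hB x) (hB y)
  rw [htop] at hfd
  exact (IntermediateField.topEquiv (F := FractionRing O)
    (E := FractionRing B)).toLinearEquiv.finiteDimensional

end fracfinite

section main

variable (p : ℕ) [Fact p.Prime] (R : Type) [CommRing R] [IsDomain R] [CharZero R]
  [Module.Finite ℤ R] (P : Ideal R) [P.IsMaximal]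

/-- the map `ℤ_[p] → R ⧸ P` when `p ∈ P` -/
noncomputable def padicToQuot (hp : (p : R) ∈ P) : ℤ_[p] →+* R ⧸ P :=
  haveI : CharP (R ⧸ P) p := by
    haveI : Nontrivial (R ⧸ P) := Ideal.Quotient.nontrivial_iff.mpr (Ideal.IsMaximal.ne_top ‹_›)
    apply (CharP.charP_iff_prime_eq_zero (Fact.out : p.Prime)).2
    rw [← map_natCast (Ideal.Quotient.mk P)]
    exact Ideal.Quotient.eq_zero_iff_mem.mpr hp
  (ZMod.castHom (dvd_refl p) (R ⧸ P)).comp PadicInt.toZMod

/-- the map `ℤ_[p] ⊗ R → R ⧸ P` -/
noncomputable def tensorToQuot (hp : (p : R) ∈ P) : (ℤ_[p] ⊗[ℤ] R) →+* R ⧸ P :=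
  (Algebra.TensorProduct.lift (R := ℤ) (S := ℤ) (A := ℤ_[p]) (B := R) (C := R ⧸ P)
    (padicToQuot p R P hp).toIntAlgHom (Ideal.Quotient.mk P).toIntAlgHom
    (fun _ _ => Commute.all _ _)).toRingHom

theorem tensorToQuot_includeRight (hp : (p : R) ∈ P) (x : R) :
    tensorToQuot p R P hp ((1 : ℤ_[p]) ⊗ₜ[ℤ] x) = Ideal.Quotient.mk P x := by
  simp [tensorToQuot]

theorem tensorToQuot_surjective (hp : (p : R) ∈ P) :
    Function.Surjective (tensorToQuot p R P hp) := by
  intro y
  obtain ⟨x, rfl⟩ := Ideal.Quotient.mk_surjective y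
  exact ⟨(1 : ℤ_[p]) ⊗ₜ[ℤ] x, tensorToQuot_includeRight p R P hp x⟩

end main

section normalize

variable (O : Type) [CommRing O] [IsDomain O] [IsDiscreteValuationRing O]
  [IsAdicComplete (maximalIdeal O) O] [Finite (ResidueField O)] [CharZero O]
  (B : Type) [CommRing B] [IsDomain B] [Algebra O B] [Module.Finite O B] [FaithfulSMul O B]

/-- **Normalisation of a finite faithful domain over a complete DVR**: `B` embeds into a
complete DVR `O'` finite over `O`, and the maximal ideal of `O'` contracts to the unique maximal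
ideal of `B`. -/
theorem exists_dvr_of_finite_domain :
    ∃ (O' : Type) (_ : CommRing O') (_ : IsDomain O') (_ : IsDiscreteValuationRing O')
      (_ : IsAdicComplete (maximalIdeal O') O') (_ : Finite (ResidueField O'))
      (_ : CharZero O') (_ : Algebra O O') (_ : Module.Finite O O')
      (_ : IsLocalHom (algebraMap O O')) (j : B →+* O'),
      Function.Injective (algebraMap O O') ∧ Function.Injective j ∧
      (∀ a : O, j (algebraMap O B a) = algebraMap O O' a) ∧
      ∀ 𝔫 : Ideal B, 𝔫.IsMaximal → (maximalIdeal O').comap j = 𝔫 := by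
  letI := FractionRing.liftAlgebra O (FractionRing B)
  haveI := FractionRing.isScalarTower_liftAlgebra O (FractionRing B)
  haveI : FiniteDimensional (FractionRing O) (FractionRing B) :=
    finiteDimensional_fractionRing O B
  haveI : Algebra.IsIntegral O B := Algebra.IsIntegral.of_finite O B
  letI hloc := FiniteExt.isLocalRing O (FractionRing O) (FractionRing B)
  letI hdvr := FiniteExt.isDiscreteValuationRing O (FractionRing O) (FractionRing B)
  have hmem : ∀ b : B, algebraMap B (FractionRing B) b ∈ integralClosure O (FractionRing B) :=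
    fun b => (Algebra.IsIntegral.isIntegral (R := O) b).map
      (IsScalarTower.toAlgHom O B (FractionRing B))
  let j : B →+* integralClosure O (FractionRing B) :=
    (algebraMap B (FractionRing B)).codRestrict (integralClosure O (FractionRing B)) hmem
  have hjinj : Function.Injective j := by
    intro x y hxy
    have := congrArg Subtype.val hxy
    exact IsFractionRing.injective B (FractionRing B) this
  have hjO : ∀ a : O, j (algebraMap O B a) = algebraMap O (integralClosure O (FractionRing B)) a := by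
    intro a
    apply Subtype.ext
    show algebraMap B (FractionRing B) (algebraMap O B a) = algebraMap O (FractionRing B) a
    rw [← IsScalarTower.algebraMap_apply]
  refine ⟨integralClosure O (FractionRing B), inferInstance, inferInstance, hdvr,
    FiniteExt.isAdicComplete O (FractionRing O) (FractionRing B),
    FiniteExt.finite_residueField O (FractionRing O) (FractionRing B),
    FiniteExt.charZero O (FractionRing O) (FractionRing B), inferInstance,
    FiniteExt.moduleFinite O (FractionRing O) (FractionRing B),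
    FiniteExt.isLocalHom O (FractionRing O) (FractionRing B), j,
    FiniteExt.injective_algebraMap O (FractionRing O) (FractionRing B), hjinj, hjO, ?_⟩
  intro 𝔫 h𝔫
  -- `B` is local
  haveI hBloc : IsLocalRing B := isLocalRing_of_finite_of_isDomain O B
  -- the contraction is maximal since `O'` is integral over `B`
  letI : Algebra B (integralClosure O (FractionRing B)) := j.toAlgebra
  haveI : IsScalarTower O B (integralClosure O (FractionRing B)) :=
    IsScalarTower.of_algebraMap_eq fun a => (hjO a).symm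
  haveI : Algebra.IsIntegral B (integralClosure O (FractionRing B)) :=
    Algebra.IsIntegral.tower_top (R := O)
  have hmax : ((maximalIdeal (integralClosure O (FractionRing B))).comap j).IsMaximal :=
    Ideal.isMaximal_comap_of_isIntegral_of_isMaximal (R := B)
      (maximalIdeal (integralClosure O (FractionRing B)))
  rw [IsLocalRing.eq_maximalIdeal hmax, IsLocalRing.eq_maximalIdeal h𝔫]

end normalize

section main2

variable (p : ℕ) [Fact p.Prime] (R : Type) [CommRing R] [IsDomain R] [CharZero R]
  [Module.Finite ℤ R] (P : Ideal R) [P.IsMaximal]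

/-- **L3b (P-DVR)**. -/
theorem exists_pDVR (hp : (p : R) ∈ P) :
    ∃ (O' : Type) (_ : CommRing O') (_ : IsDomain O') (_ : IsDiscreteValuationRing O')
      (_ : IsAdicComplete (maximalIdeal O') O') (_ : Finite (ResidueField O'))
      (_ : CharZero O') (_ : Algebra ℤ_[p] O') (_ : Module.Finite ℤ_[p] O')
      (i : R →+* O'), Function.Injective i ∧ (maximalIdeal O').comap i = P ∧
        (p : O') ∈ maximalIdeal O' := by
  classical
  letI : Field (R ⧸ P) := Ideal.Quotient.field P
  let φ := tensorToQuot p R P hp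
  have hφ : Function.Surjective φ := tensorToQuot_surjective p R P hp
  haveI h𝔐max : (RingHom.ker φ).IsMaximal := RingHom.ker_isMaximal_of_surjective φ hφ
  obtain ⟨𝔮, h𝔮min, h𝔮le⟩ :=
    Ideal.exists_minimalPrimes_le (bot_le : (⊥ : Ideal (ℤ_[p] ⊗[ℤ] R)) ≤ RingHom.ker φ)
  haveI h𝔮prime : 𝔮.IsPrime := h𝔮min.1.1
  -- `p` is a nonzerodivisor on `A`, hence not in `𝔮`
  have hpnzd : (p : ℤ_[p] ⊗[ℤ] R) ∈ nonZeroDivisors (ℤ_[p] ⊗[ℤ] R) := by
    rw [mem_nonZeroDivisors_iff_right]
    intro x hx
    have h1 : (p : ℤ_[p]) • x = 0 := by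
      rw [Nat.cast_smul_eq_nsmul, nsmul_eq_mul, mul_comm]; exact hx
    have hp0 : (p : ℤ_[p]) ≠ 0 := by
      exact_mod_cast (Fact.out : p.Prime).ne_zero
    exact (smul_eq_zero.mp h1).resolve_left hp0
  have hp𝔮 : (p : ℤ_[p] ⊗[ℤ] R) ∉ 𝔮 := fun h =>
    Set.disjoint_left.1 (Ideal.disjoint_nonZeroDivisors_of_mem_minimalPrimes h𝔮min) h hpnzd
  -- `ℤ_[p] → A ⧸ 𝔮` is injective
  have hinj : Function.Injective (algebraMap ℤ_[p] ((ℤ_[p] ⊗[ℤ] R) ⧸ 𝔮)) := by
    rw [RingHom.injective_iff_ker_eq_bot]
    by_contra hne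
    have hprime : (RingHom.ker (algebraMap ℤ_[p] ((ℤ_[p] ⊗[ℤ] R) ⧸ 𝔮))).IsPrime :=
      RingHom.ker_isPrime _
    have hmax := hprime.isMaximal hne
    have heq := IsLocalRing.eq_maximalIdeal hmax
    have hpm : (p : ℤ_[p]) ∈ maximalIdeal ℤ_[p] := by
      rw [PadicInt.maximalIdeal_eq_span_p]
      exact Ideal.subset_span rfl
    rw [← heq, RingHom.mem_ker, map_natCast] at hpm
    have : (p : ℤ_[p] ⊗[ℤ] R) ∈ 𝔮 := by
      rw [← Ideal.Quotient.eq_zero_iff_mem, map_natCast]
      exact hpm
    exact hp𝔮 this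
  haveI : FaithfulSMul ℤ_[p] ((ℤ_[p] ⊗[ℤ] R) ⧸ 𝔮) :=
    (faithfulSMul_iff_algebraMap_injective _ _).2 hinj
  obtain ⟨O', iCR, iD, iDVR, iAC, iFin, iCZ, iAlg, iMF, iLH, j, hOinj, hjinj, hjO, hjmax⟩ :=
    exists_dvr_of_finite_domain ℤ_[p] ((ℤ_[p] ⊗[ℤ] R) ⧸ 𝔮)
  -- the map `R → O'`
  let ι : R →+* ℤ_[p] ⊗[ℤ] R := (Algebra.TensorProduct.includeRight (R := ℤ) (A := ℤ_[p])
    (B := R)).toRingHom
  let i : R →+* O' := (j.comp (Ideal.Quotient.mk 𝔮)).comp ι
  have hι : ∀ x : R, ι x = (1 : ℤ_[p]) ⊗ₜ[ℤ] x := fun x => rfl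
  -- the induced map `A ⧸ 𝔮 → R ⧸ P`
  let φbar : ((ℤ_[p] ⊗[ℤ] R) ⧸ 𝔮) →+* R ⧸ P :=
    Ideal.Quotient.lift 𝔮 φ (fun a ha => h𝔮le ha)
  have hφbar : Function.Surjective φbar := by
    intro y
    obtain ⟨a, rfl⟩ := hφ y
    exact ⟨Ideal.Quotient.mk 𝔮 a, Ideal.Quotient.lift_mk 𝔮 φ _⟩
  have h𝔫 : (RingHom.ker φbar).IsMaximal := RingHom.ker_isMaximal_of_surjective φbar hφbar
  refine ⟨O', iCR, iD, iDVR, iAC, iFin, iCZ, iAlg, iMF, i, ?_, ?_, ?_⟩
  · -- injectivity
    rw [RingHom.injective_iff_ker_eq_bot]
    haveI : (RingHom.ker i).IsPrime := RingHom.ker_isPrime i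
    apply Ideal.eq_bot_of_comap_eq_bot (R := ℤ)
    rw [eq_bot_iff]
    intro n hn
    rw [Ideal.mem_comap, RingHom.mem_ker, eq_intCast, map_intCast] at hn
    have h2 : algebraMap ℤ_[p] O' (n : ℤ_[p]) = 0 := by rw [map_intCast]; exact hn
    have h3 := hOinj (h2.trans (map_zero _).symm)
    have h4 : n = 0 := by exact_mod_cast h3
    rw [h4]; exact Ideal.zero_mem _
  · -- contraction of the maximal ideal
    have hcomap := hjmax (RingHom.ker φbar) h𝔫
    ext x
    rw [Ideal.mem_comap]
    have h1 : i x ∈ maximalIdeal O' ↔ (Ideal.Quotient.mk 𝔮 (ι x)) ∈ RingHom.ker φbar := by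
      rw [← hcomap, Ideal.mem_comap]
      rfl
    rw [h1, RingHom.mem_ker]
    show φ (ι x) = 0 ↔ x ∈ P
    rw [hι, tensorToQuot_includeRight, Ideal.Quotient.eq_zero_iff_mem]
  · -- `p` is in the maximal ideal
    have hpm : (p : ℤ_[p]) ∈ maximalIdeal ℤ_[p] := by
      rw [PadicInt.maximalIdeal_eq_span_p]
      exact Ideal.subset_span rfl
    have : algebraMap ℤ_[p] O' (p : ℤ_[p]) ∈ maximalIdeal O' := by
      rw [IsLocalRing.mem_maximalIdeal, mem_nonunits_iff] at hpm ⊢
      exact fun h => hpm (isUnit_of_map_unit (algebraMap ℤ_[p] O') _ h)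
    rwa [map_natCast] at this

end main2

end Fermat.Agent.R.H2
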