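import Fermat.Agent.R.Leaves
import Fermat.Agent.R.H2_PDVR

/-!
# Cluster R, leaf L3b in the exact form `Fermat.Agent.R.Stmt_PDVR` (helper2)
-/

set_option autoImplicit false
set_option linter.style.haveILetI false

open IsLocalRing

namespace Fermat.Agent.R.H2

/-- A maximal ideal of a ring finite over `ℤ` contains a prime number. -/
theorem exists_prime_mem_of_isMaximal (R : Type) [CommRing R] [Module.Finite ℤ R]
    (P : Ideal R) [P.IsMaximal] : ∃ p : ℕ, p.Prime ∧ (p : R) ∈ P := by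
  haveI : Algebra.IsIntegral ℤ R := Algebra.IsIntegral.of_finite ℤ R
  have hmax : (P.comap (algebraMap ℤ R)).IsMaximal :=
    Ideal.isMaximal_comap_of_isIntegral_of_isMaximal (R := ℤ) P
  -- a maximal ideal of `ℤ` is generated by a prime
  obtain ⟨g, hg⟩ : ∃ g : ℤ, P.comap (algebraMap ℤ R) = Ideal.span {g} :=
    ⟨_, (Ideal.span_singleton_generator _).symm⟩
  have hg0 : g ≠ 0 := by
    rintro rfl
    rw [Ideal.span_singleton_eq_bot.mpr rfl] at hg
    rw [hg] at hmax
    have h2 : (Ideal.span {(2 : ℤ)} : Ideal ℤ) ≠ ⊤ := by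
      rw [Ne, Ideal.span_singleton_eq_top]
      exact Int.isUnit_iff.not.mpr (by norm_num)
    have h3 := hmax.eq_of_le h2 bot_le
    have h4 : (2 : ℤ) ∈ (⊥ : Ideal ℤ) := by rw [h3]; exact Ideal.subset_span rfl
    simp at h4
  have hgp : Prime g := by
    have hprime : (Ideal.span {g} : Ideal ℤ).IsPrime := hg ▸ hmax.isPrime
    exact (Ideal.span_singleton_prime hg0).mp hprime
  refine ⟨g.natAbs, Int.prime_iff_natAbs_prime.mp hgp, ?_⟩
  have hmem : g ∈ P.comap (algebraMap ℤ R) := by rw [hg]; exact Ideal.subset_span rfl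
  have h1 : ((g : ℤ) : R) ∈ P := by simpa using hmem
  rcases Int.natAbs_eq g with h | h
  · have : ((g.natAbs : ℤ) : R) ∈ P := by rw [← h]; exact h1
    simpa using this
  · have : ((g.natAbs : ℤ) : R) ∈ P := by
      have h2 : (g.natAbs : ℤ) = -g := by omega
      rw [h2, Int.cast_neg]
      exact P.neg_mem h1
    simpa using this

/-- **L3b** in the exact form of `Fermat.Agent.R.Stmt_PDVR`. -/
theorem stmt_PDVR : Fermat.Agent.R.Stmt_PDVR := by
  intro R _ _ _ _ P _
  obtain ⟨p, hp, hpP⟩ := exists_prime_mem_of_isMaximal R P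
  haveI : Fact p.Prime := ⟨hp⟩
  obtain ⟨O', iCR, iD, iDVR, iAC, iFin, iCZ, -, -, i, hinj, hcomap, -⟩ := exists_pDVR p R P hpP
  exact ⟨O', iCR, iD, iDVR, iAC, iFin, iCZ, i, hinj, hcomap⟩

end Fermat.Agent.R.H2
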