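import Fermat.Agent.S58.H99_Rig
import Fermat.Agent.S58.H99_Plumb
import Fermat.Agent.R.H99_Newform
import Fermat.Agent.Lib.FrobExists

/-!
# Cluster R: strong multiplicity one away from a finite set, from S30 (helper99)

`smo`: two normalised eigenforms `g` (level `M`) and `g'` (level `M'`, `M' ∣ M`) whose
eigenvalues `a_ℓ` agree for all primes `ℓ ∤ M` outside a finite set `S` have the same `a_ℓ` for
ALL primes `ℓ ∤ M`.  (Galois representations of both forms over a common complete discrete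
valuation ring, Frobenius density; the prime `lam` is varied to reach `ℓ = lam` and to pass
from congruences to equalities.)

Consequences for the prelude's `IsNewform`:
`IsNewform.not_exists_eigenform_of_dvd`, `IsNewform.eq_zero_of_eigenvector_away`.
-/

set_option autoImplicit false

open Polynomial IsLocalRing CuspForm ModularFormClass

namespace Fermat.Agent.R.H99

open Fermat.Agent.S58 Fermat.Agent.S58.H99

/-- An element of a commutative ring `R` with an injective map to `ℂ` which lies, for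
infinitely many primes `lam`, in a proper ideal containing `lam`, is zero. -/
theorem eq_zero_of_forall_prime_mem_ring (x : ℂ) (hx : IsIntegral ℤ x) (B : ℕ)
    (h : ∀ lam : ℕ, lam.Prime → B < lam →
      ∃ (R : Type) (_ : CommRing R) (j : R →+* ℂ) (P : Ideal R) (y : R),
        Function.Injective j ∧ j y = x ∧ P ≠ ⊤ ∧ (lam : R) ∈ P ∧ y ∈ P) : x = 0 := by
  apply eq_zero_of_forall_prime_mem x hx B
  intro lam hlam hB
  obtain ⟨R, _, j, P, y, hj, hjy, hPtop, hlamP, hyP⟩ := h lam hlam hB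
  -- transport along `j` to its range
  let e : R ≃+* j.range := RingEquiv.ofBijective j.rangeRestrict
    ⟨fun a b hab => hj (congrArg Subtype.val hab), j.rangeRestrict_surjective⟩
  refine ⟨j.range, P.map (e : R →+* j.range), ⟨y, hjy⟩, ?_, ?_, ?_⟩
  · intro htop
    apply hPtop
    have := congrArg (Ideal.comap (e : R →+* j.range)) htop
    rw [Ideal.comap_top] at this
    rw [← this]
    exact (Ideal.comap_map_of_bijective (e : R →+* j.range) e.bijective).symm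
  · have : (lam : j.range) = (e : R →+* j.range) (lam : R) := by rw [map_natCast]
    rw [this]
    exact Ideal.mem_map_of_mem _ hlamP
  · have : (⟨x, ⟨y, hjy⟩⟩ : j.range) = (e : R →+* j.range) y := by
      apply Subtype.ext
      exact hjy.symm
    rw [this]
    exact Ideal.mem_map_of_mem _ hyP

theorem mem_maximalIdeal_of_algebraMap_mem {O' O'' : Type*} [CommRing O'] [IsLocalRing O']
    [CommRing O''] [IsLocalRing O''] (φ : O' →+* O'') {x : O'}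
    (h : φ x ∈ maximalIdeal O'') : x ∈ maximalIdeal O' := by
  rw [mem_maximalIdeal, mem_nonunits_iff] at h ⊢
  exact fun hu => h (hu.map φ)

section SMO

variable {M M' : ℕ} [NeZero M] [NeZero M']

/-- **Strong multiplicity one away from a finite set, one prime `lam` at a time**: the
difference of the eigenvalues at `ℓ₀` lies in a maximal ideal over `lam`. -/
theorem smo_congr (hS30 : Fermat.Agent.R.Stmt_S30) (hM'M : M' ∣ M)
    {g : CuspForm (CongruenceSubgroup.Gamma0 M) 2} (hg : g.IsNormalizedEigenform)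
    {g' : CuspForm (CongruenceSubgroup.Gamma0 M') 2} (hg' : g'.IsNormalizedEigenform)
    (S : Finset ℕ)
    (h : ∀ ℓ : ℕ, ℓ.Prime → ℓ ∉ S → ¬ ℓ ∣ M → qCoeff g' ℓ = qCoeff g ℓ)
    (lam : ℕ) [hlamF : Fact lam.Prime] (ℓ₀ : ℕ) (hℓ₀ : ℓ₀.Prime) (hℓ₀M : ¬ ℓ₀ ∣ M)
    (hℓ₀lam : ℓ₀ ≠ lam) :
    ∃ (R : Type) (_ : CommRing R) (j : R →+* ℂ) (P : Ideal R) (y : R),
      Function.Injective j ∧ j y = qCoeff g ℓ₀ - qCoeff g' ℓ₀ ∧ P ≠ ⊤ ∧ (lam : R) ∈ P ∧ y ∈ P := by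
  classical
  have hlam : lam.Prime := hlamF.out
  have hM0 : M ≠ 0 := NeZero.ne M
  have hM'0 : M' ≠ 0 := NeZero.ne M'
  -- the sets of primes
  set S₁ : Finset ℕ := insert lam M.primeFactors with hS₁
  set S₂ : Finset ℕ := insert lam M'.primeFactors with hS₂
  have hlamS₁ : lam ∈ S₁ := Finset.mem_insert_self _ _
  have hlamS₂ : lam ∈ S₂ := Finset.mem_insert_self _ _
  have hMS₁ : ∀ q : ℕ, q.Prime → q ∣ M → q ∈ S₁ := fun q hq hqM =>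
    Finset.mem_insert_of_mem (Nat.mem_primeFactors.mpr ⟨hq, hqM, hM0⟩)
  have hMS₂ : ∀ q : ℕ, q.Prime → q ∣ M' → q ∈ S₂ := fun q hq hqM =>
    Finset.mem_insert_of_mem (Nat.mem_primeFactors.mpr ⟨hq, hqM, hM'0⟩)
  have hS₂S₁ : S₂ ⊆ S₁ := by
    intro q hq
    rw [hS₂, Finset.mem_insert] at hq
    rcases hq with rfl | hq
    · exact hlamS₁
    · exact hMS₁ q (Nat.prime_of_mem_primeFactors hq)
        ((Nat.dvd_of_mem_primeFactors hq).trans hM'M)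
  have hnot₁ : ∀ ℓ : ℕ, ¬ ℓ ∣ M → ℓ ≠ lam → ℓ ∉ (↑S₁ : Set ℕ) := by
    intro ℓ hℓM hℓlam hmem
    rw [Finset.mem_coe, hS₁, Finset.mem_insert] at hmem
    rcases hmem with h1 | h1
    · exact hℓlam h1
    · exact hℓM (Nat.dvd_of_mem_primeFactors h1)
  have hnot₂ : ∀ ℓ : ℕ, ℓ ∉ (↑S₁ : Set ℕ) → ℓ ∉ (↑S₂ : Set ℕ) := fun ℓ h1 h2 =>
    h1 (Finset.mem_coe.mpr (hS₂S₁ (Finset.mem_coe.mp h2)))
  -- the characters and the common coefficient ring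
  set chig : heckeAlgebra M 2 (↑S₁ : Set ℕ) →+* ℂ := eigenCharC (↑S₁ : Set ℕ) hg with hchig
  set chig' : heckeAlgebra M' 2 (↑S₂ : Set ℕ) →+* ℂ := eigenCharC (↑S₂ : Set ℕ) hg' with hchig'
  let A₁ : Subalgebra ℤ ℂ := chig.toIntAlgHom.range
  let A₂ : Subalgebra ℤ ℂ := chig'.toIntAlgHom.range
  have hfinT₁ : Module.Finite ℤ (heckeAlgebra M 2 (↑S₁ : Set ℕ)) := Fermat.Agent.S22.result M 2 _
  have hfinT₂ : Module.Finite ℤ (heckeAlgebra M' 2 (↑S₂ : Set ℕ)) :=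
    Fermat.Agent.S22.result M' 2 _
  have hfin₁ : Module.Finite ℤ A₁ :=
    Module.Finite.of_surjective chig.toIntAlgHom.rangeRestrict.toLinearMap
      chig.toIntAlgHom.rangeRestrict_surjective
  have hfin₂ : Module.Finite ℤ A₂ :=
    Module.Finite.of_surjective chig'.toIntAlgHom.rangeRestrict.toLinearMap
      chig'.toIntAlgHom.rangeRestrict_surjective
  have hfinB : Module.Finite ℤ ↥(A₁ ⊔ A₂) := Subalgebra.finite_sup A₁ A₂
  let R : Type := ↥(A₁ ⊔ A₂)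
  let j : R →+* ℂ := (A₁ ⊔ A₂).val.toRingHom
  have hj : Function.Injective j := Subtype.val_injective
  have hCZ : CharZero R := ⟨fun a b hab => by
    have := congrArg j hab
    simpa using this⟩
  let χ₁ : heckeAlgebra M 2 (↑S₁ : Set ℕ) →+* R :=
    (chig.toIntAlgHom.codRestrict (A₁ ⊔ A₂)
      (fun T => (le_sup_left : A₁ ≤ A₁ ⊔ A₂) ⟨T, rfl⟩)).toRingHom
  let χ₂ : heckeAlgebra M' 2 (↑S₂ : Set ℕ) →+* R :=
    (chig'.toIntAlgHom.codRestrict (A₁ ⊔ A₂)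
      (fun T => (le_sup_right : A₂ ≤ A₁ ⊔ A₂) ⟨T, rfl⟩)).toRingHom
  have hχ₁ : ∀ T, j (χ₁ T) = chig T := fun T => rfl
  have hχ₂ : ∀ T, j (χ₂ T) = chig' T := fun T => rfl
  -- a maximal ideal over `lam` and the complete discrete valuation ring
  have hnu : ¬ IsUnit (lam : R) := by
    intro hu
    have hu' : IsUnit (j (lam : R)) := hu.map j
    rw [map_natCast] at hu'
    have h1 : IsIntegral ℤ ((lam : ℂ)⁻¹) := by
      obtain ⟨u, hu⟩ := hu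
      have hint : IsIntegral ℤ ((u⁻¹ : Rˣ) : R) := Algebra.IsIntegral.isIntegral _
      have hintC : IsIntegral ℤ (j ((u⁻¹ : Rˣ) : R)) := hint.map j.toIntAlgHom
      have h2 : (lam : ℂ) * j ((u⁻¹ : Rˣ) : R) = 1 := by
        have h3 : ((u : R) * ((u⁻¹ : Rˣ) : R)) = 1 := u.mul_inv
        rw [hu] at h3
        have := congrArg j h3
        rwa [map_mul, map_natCast, map_one] at this
      have hlam0 : (lam : ℂ) ≠ 0 := by exact_mod_cast hlam.ne_zero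
      have : j ((u⁻¹ : Rˣ) : R) = (lam : ℂ)⁻¹ := by
        field_simp
        linear_combination h2
      rwa [this] at hintC
    have hmap : (algebraMap ℚ ℂ) ((lam : ℚ)⁻¹) = (lam : ℂ)⁻¹ := by
      rw [eq_ratCast (algebraMap ℚ ℂ)]; push_cast; rfl
    rw [← hmap] at h1
    have hintQ : IsIntegral ℤ ((lam : ℚ)⁻¹) :=
      (isIntegral_algebraMap_iff (algebraMap ℚ ℂ).injective).mp h1
    obtain ⟨m, hm⟩ := IsIntegrallyClosed.isIntegral_iff.mp hintQ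
    rw [eq_intCast] at hm
    have hpQ : (lam : ℚ) ≠ 0 := by exact_mod_cast hlam.ne_zero
    have hmul : ((lam * m : ℤ) : ℚ) = ((1 : ℤ) : ℚ) := by
      push_cast; rw [hm]; field_simp
    have hdvd : (lam : ℤ) ∣ 1 := ⟨m, (Int.cast_injective hmul).symm⟩
    have hple : (lam : ℤ) ≤ 1 := Int.le_of_dvd one_pos hdvd
    have := hlam.two_le
    omega
  have hne : Ideal.span {(lam : R)} ≠ ⊤ := fun htop =>
    hnu (Ideal.span_singleton_eq_top.mp htop)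
  obtain ⟨P, hPmax, hPle⟩ := Ideal.exists_le_maximal _ hne
  have hlamP : (lam : R) ∈ P := hPle (Ideal.subset_span rfl)
  obtain ⟨O', i1, i2, i3, i4, i5, i6, ι, -, hιcomap⟩ := Fermat.Agent.R.H2.stmt_PDVR R P
  have hlamO' : (lam : O') ∈ maximalIdeal O' := by
    have : (lam : R) ∈ (maximalIdeal O').comap ι := hιcomap ▸ hlamP
    rw [Ideal.mem_comap, map_natCast] at this
    exact this
  -- the two Galois representations
  obtain ⟨O₁, a1, a2, a3, a4, a5, a6, a7, a8, a9, -, ρ₁, hfrob₁, -⟩ :=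
    hS30 lam M S₁ hlamS₁ hMS₁ O' hlamO' (ι.comp χ₁)
  obtain ⟨O₂, b1, b2, b3, b4, b5, b6, b7, b8, b9, -, ρ₂, hfrob₂, -⟩ :=
    hS30 lam M' S₂ hlamS₂ hMS₂ O' hlamO' (ι.comp χ₂)
  -- the common Frobenius traces
  let a : ℕ → O' := fun ℓ =>
    if hh : ℓ.Prime ∧ ¬ ℓ ∣ M ∧ ℓ ∉ (↑S₁ : Set ℕ) then
      (ι.comp χ₁) (heckeAlgebra.T hh.1 hh.2.1 hh.2.2) else 0
  have ha : ∀ (ℓ : ℕ) (hℓ : ℓ.Prime) (hℓM : ¬ ℓ ∣ M) (hℓS : ℓ ∉ (↑S₁ : Set ℕ)),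
      a ℓ = (ι.comp χ₁) (heckeAlgebra.T hℓ hℓM hℓS) := by
    intro ℓ hℓ hℓM hℓS
    simp only [a]
    rw [dif_pos ⟨hℓ, hℓM, hℓS⟩]
  have hV₁ : HasFrobVia (algebraMap O' O₁) ρ₁ a S₁ := by
    intro ℓ hℓ hℓS Q hQ σ hσ
    have hℓM : ¬ ℓ ∣ M := fun hd => hℓS (hMS₁ ℓ hℓ hd)
    have hℓS' : ℓ ∉ (↑S₁ : Set ℕ) := by simpa using hℓS
    rw [hfrob₁ ℓ hℓ hℓM hℓS' Q hQ σ hσ, ha ℓ hℓ hℓM hℓS']
  have hV₂ : HasFrobVia (algebraMap O' O₂) ρ₂ a (S₁ ∪ S) := by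
    intro ℓ hℓ hℓSS Q hQ σ hσ
    have hℓS₁ : ℓ ∉ S₁ := fun hh => hℓSS (Finset.mem_union_left _ hh)
    have hℓS : ℓ ∉ S := fun hh => hℓSS (Finset.mem_union_right _ hh)
    have hℓM : ¬ ℓ ∣ M := fun hd => hℓS₁ (hMS₁ ℓ hℓ hd)
    have hℓM' : ¬ ℓ ∣ M' := fun hd => hℓM (hd.trans hM'M)
    have hℓS₁' : ℓ ∉ (↑S₁ : Set ℕ) := by simpa using hℓS₁
    have hℓS₂' : ℓ ∉ (↑S₂ : Set ℕ) := hnot₂ ℓ hℓS₁'
    rw [hfrob₂ ℓ hℓ hℓM' hℓS₂' Q hQ σ hσ, ha ℓ hℓ hℓM hℓS₁']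
    have e : χ₂ (heckeAlgebra.T hℓ hℓM' hℓS₂') = χ₁ (heckeAlgebra.T hℓ hℓM hℓS₁') := by
      apply hj
      rw [hχ₁, hχ₂, hchig, hchig', eigenCharC_T, eigenCharC_T]
      exact h ℓ hℓ hℓS hℓM
    rw [RingHom.comp_apply, RingHom.comp_apply, e]
  -- compare at a Frobenius element at `ℓ₀`
  have hℓ₀M' : ¬ ℓ₀ ∣ M' := fun hd => hℓ₀M (hd.trans hM'M)
  have hℓ₀S₁ : ℓ₀ ∉ (↑S₁ : Set ℕ) := hnot₁ ℓ₀ hℓ₀M hℓ₀lam
  have hℓ₀S₂ : ℓ₀ ∉ (↑S₂ : Set ℕ) := hnot₂ ℓ₀ hℓ₀S₁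
  obtain ⟨Q, σ, hQ, hσ⟩ := Fermat.Agent.Lib.FrobExists.exists_place_and_frobenius ℓ₀ hℓ₀
  obtain ⟨t, d, ht₁, -, ht₂, -⟩ :=
    exists_approx (algebraMap O' O₁) (algebraMap O' O₂) ρ₁ ρ₂ a S₁ (S₁ ∪ S) hV₁ hV₂ 1 1 σ
  rw [pow_one] at ht₁ ht₂
  rw [(trace_det_of_charpoly_two ρ₁.finrank_eq _ (hfrob₁ ℓ₀ hℓ₀ hℓ₀M hℓ₀S₁ Q hQ σ hσ)).1,
    ← map_sub] at ht₁
  rw [(trace_det_of_charpoly_two ρ₂.finrank_eq _ (hfrob₂ ℓ₀ hℓ₀ hℓ₀M' hℓ₀S₂ Q hQ σ hσ)).1,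
    ← map_sub] at ht₂
  have k₁ := mem_maximalIdeal_of_algebraMap_mem (algebraMap O' O₁) ht₁
  have k₂ := mem_maximalIdeal_of_algebraMap_mem (algebraMap O' O₂) ht₂
  have k₃ := Ideal.sub_mem _ k₁ k₂
  have e3 : (ι.comp χ₁) (heckeAlgebra.T hℓ₀ hℓ₀M hℓ₀S₁) - t -
      ((ι.comp χ₂) (heckeAlgebra.T hℓ₀ hℓ₀M' hℓ₀S₂) - t) =
      ι (χ₁ (heckeAlgebra.T hℓ₀ hℓ₀M hℓ₀S₁) - χ₂ (heckeAlgebra.T hℓ₀ hℓ₀M' hℓ₀S₂)) := by
    rw [map_sub, RingHom.comp_apply, RingHom.comp_apply]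
    ring
  rw [e3] at k₃
  refine ⟨R, inferInstance, j, P,
    χ₁ (heckeAlgebra.T hℓ₀ hℓ₀M hℓ₀S₁) - χ₂ (heckeAlgebra.T hℓ₀ hℓ₀M' hℓ₀S₂), hj, ?_,
    hPmax.ne_top, hlamP, ?_⟩
  · rw [map_sub, hχ₁, hχ₂, hchig, hchig', eigenCharC_T, eigenCharC_T]
  · rw [← hιcomap]
    exact k₃

/-- **Strong multiplicity one away from a finite set** (from S30). -/
theorem smo (hS30 : Fermat.Agent.R.Stmt_S30) (hM'M : M' ∣ M)
    {g : CuspForm (CongruenceSubgroup.Gamma0 M) 2} (hg : g.IsNormalizedEigenform)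
    {g' : CuspForm (CongruenceSubgroup.Gamma0 M') 2} (hg' : g'.IsNormalizedEigenform)
    (S : Finset ℕ)
    (h : ∀ ℓ : ℕ, ℓ.Prime → ℓ ∉ S → ¬ ℓ ∣ M → qCoeff g' ℓ = qCoeff g ℓ) :
    ∀ ℓ : ℕ, ℓ.Prime → ¬ ℓ ∣ M → qCoeff g' ℓ = qCoeff g ℓ := by
  intro ℓ₀ hℓ₀ hℓ₀M
  have hℓ₀M' : ¬ ℓ₀ ∣ M' := fun hd => hℓ₀M (hd.trans hM'M)
  have hint : IsIntegral ℤ (qCoeff g ℓ₀ - qCoeff g' ℓ₀) := by
    have hℓS : ℓ₀ ∉ (∅ : Set ℕ) := Set.notMem_empty ℓ₀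
    have h1 := isIntegral_apply (eigenCharC (∅ : Set ℕ) hg) (heckeAlgebra.T hℓ₀ hℓ₀M hℓS)
    have h2 := isIntegral_apply (eigenCharC (∅ : Set ℕ) hg') (heckeAlgebra.T hℓ₀ hℓ₀M' hℓS)
    rw [eigenCharC_T] at h1 h2
    exact h1.sub h2
  have h0 := eq_zero_of_forall_prime_mem_ring _ hint ℓ₀ (fun lam hlam hB => by
    have : Fact lam.Prime := ⟨hlam⟩
    exact smo_congr hS30 hM'M hg hg' S h lam ℓ₀ hℓ₀ hℓ₀M (by omega))
  exact (sub_eq_zero.mp h0).symm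

end SMO

/-- A newform (prelude sense) of level `M` has no companion of lower level `M' ∣ M`, even if
the eigenvalues are only known to agree outside a finite set of primes. -/
theorem IsNewform.not_exists_eigenform_of_dvd (hS30 : Fermat.Agent.R.Stmt_S30) {M : ℕ}
    [NeZero M] {g : CuspForm (CongruenceSubgroup.Gamma0 M) 2} (hg : g.IsNewform)
    {M' : ℕ} (hM'M : M' ∣ M) (hne : M' ≠ M) (S : Finset ℕ)
    (g' : CuspForm (CongruenceSubgroup.Gamma0 M') 2) (hg' : g'.IsNormalizedEigenform)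
    (h : ∀ ℓ : ℕ, ℓ.Prime → ℓ ∉ S → ¬ ℓ ∣ M → qCoeff g' ℓ = qCoeff g ℓ) : False := by
  have hM'0 : M' ≠ 0 := fun h0 => NeZero.ne M (by
    rw [h0] at hM'M; exact Nat.eq_zero_of_zero_dvd hM'M)
  have : NeZero M' := ⟨hM'0⟩
  exact hg.2 M' hM'M hne ⟨g', hg', smo hS30 hM'M hg.1 hg' S h⟩

/-- Eigenvector form: a newform of level `M` has no nonzero eigenvector of lower level
`M' ∣ M` for the Hecke operators `T_ℓ`, `ℓ ∤ M`, `ℓ ∉ S`, with the eigenvalues of `g`. -/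
theorem IsNewform.eq_zero_of_eigenvector_away (hS30 : Fermat.Agent.R.Stmt_S30) {M : ℕ}
    [NeZero M] {g : CuspForm (CongruenceSubgroup.Gamma0 M) 2} (hg : g.IsNewform)
    {M' : ℕ} (hM'M : M' ∣ M) (hne : M' ≠ M) (S : Finset ℕ)
    (v : CuspForm (CongruenceSubgroup.Gamma0 M') 2)
    (hv : ∀ (ℓ : ℕ) (hℓ : ℓ.Prime) (hℓM' : ¬ ℓ ∣ M'), ¬ ℓ ∣ M → ℓ ∉ S →
      CuspForm.heckeTLin 2 hℓ hℓM' v = qCoeff g ℓ • v) : v = 0 := by
  by_contra hv0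
  have hM'0 : M' ≠ 0 := fun h0 => NeZero.ne M (by
    rw [h0] at hM'M; exact Nat.eq_zero_of_zero_dvd hM'M)
  have : NeZero M' := ⟨hM'0⟩
  obtain ⟨g', hg', hga⟩ := exists_normalizedEigenform_of_eigenvector
    ({ℓ | ℓ ∣ M} ∪ (↑S : Set ℕ)) (fun ℓ => qCoeff g ℓ) v hv0
    (fun ℓ hℓ hℓM' hℓS => hv ℓ hℓ hℓM' (fun hd => hℓS (Or.inl hd))
      (fun hS => hℓS (Or.inr (Finset.mem_coe.mpr hS))))
  refine IsNewform.not_exists_eigenform_of_dvd hS30 hg hM'M hne S g' hg' ?_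
  intro ℓ hℓ hℓS hℓM
  refine hga ℓ hℓ (fun hd => hℓM (hd.trans hM'M)) ?_
  rintro (hd | hS)
  · exact hℓM hd
  · exact hℓS (Finset.mem_coe.mp hS)

end Fermat.Agent.R.H99
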