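import Mathlib.LinearAlgebra.Matrix.Charpoly.Coeff
import Mathlib.LinearAlgebra.Matrix.Charpoly.Basic
import Mathlib.LinearAlgebra.Matrix.Determinant.Basic
import Mathlib.LinearAlgebra.Matrix.Trace
import Mathlib.RingTheory.Polynomial.Basic

/-!
# Cluster R, S30 wiring, WPs D (LemmaB) and F (CharSum)  (helper89)

Pure linear algebra over an integral domain `R`.

* `quad_trace_det` : a NON-scalar `2 × 2` matrix `M` with `M * M - a • M + e • 1 = 0` has
  `trace M = a` and `det M = e`.
* `lemmaB` : `ρ : G →* M₂(R)`, `ε : G →* Rˣ`, every `ρ g` satisfies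
  `ρ g * ρ g - a g • ρ g + ε g • 1 = 0`.  Then either every `ρ g` is scalar, or
  `det (ρ g) = ε g` and `trace (ρ g) = a g` for EVERY `g` (no topology, no pairing).
* `lemmaB_charpoly` : the same with `charpoly (ρ g) = X ^ 2 - C (a g) * X + C (ε g)`.
* `charSum_charpoly` : for a character `ψ` with `ψ ^ 2 - a ψ + e = 0`, the diagonal matrix
  `diag (ψ, e ψ⁻¹)` has characteristic polynomial `X ^ 2 - C a * X + C e`.
-/

set_option autoImplicit false

open Polynomial Matrix

namespace Fermat.Agent.R.H89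

variable {R : Type*} [CommRing R]

/-- A `2 × 2` matrix is scalar. -/
def IsScalar (M : Matrix (Fin 2) (Fin 2) R) : Prop := ∃ c : R, M = c • (1 : Matrix (Fin 2) (Fin 2) R)

theorem isScalar_iff (M : Matrix (Fin 2) (Fin 2) R) :
    IsScalar M ↔ M 0 1 = 0 ∧ M 1 0 = 0 ∧ M 0 0 = M 1 1 := by
  constructor
  · rintro ⟨c, rfl⟩
    simp
  · rintro ⟨h01, h10, h⟩
    refine ⟨M 0 0, ?_⟩
    ext i j
    fin_cases i <;> fin_cases j <;> simp [h01, h10, h]

/-- Cayley–Hamilton for `2 × 2` matrices. -/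
theorem cayley_hamilton_two (M : Matrix (Fin 2) (Fin 2) R) :
    M * M - M.trace • M + M.det • (1 : Matrix (Fin 2) (Fin 2) R) = 0 := by
  ext i j
  fin_cases i <;> fin_cases j <;>
    simp [Matrix.mul_apply, Fin.sum_univ_two, Matrix.trace_fin_two, Matrix.det_fin_two] <;> ring

theorem charpoly_two (M : Matrix (Fin 2) (Fin 2) R) [Nontrivial R] :
    M.charpoly = X ^ 2 - C M.trace * X + C M.det :=
  Matrix.charpoly_fin_two M

variable [IsDomain R]

/-- A non-scalar `2 × 2` matrix satisfying a monic quadratic: the quadratic is the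
characteristic polynomial. -/
theorem quad_trace_det {M : Matrix (Fin 2) (Fin 2) R} {a e : R}
    (h : M * M - a • M + e • (1 : Matrix (Fin 2) (Fin 2) R) = 0) (hM : ¬ IsScalar M) :
    M.trace = a ∧ M.det = e := by
  have hCH := cayley_hamilton_two M
  -- (trace M - a) • M = (det M - e) • 1
  have key : (M.trace - a) • M = (M.det - e) • (1 : Matrix (Fin 2) (Fin 2) R) := by
    have : (M.trace - a) • M - (M.det - e) • (1 : Matrix (Fin 2) (Fin 2) R)
        = (M * M - a • M + e • 1) - (M * M - M.trace • M + M.det • 1) := by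
      simp only [sub_smul]
      abel
    rw [← sub_eq_zero, this, h, hCH, sub_zero]
  have htr : M.trace = a := by
    by_contra hne
    have hne' : M.trace - a ≠ 0 := sub_ne_zero.mpr hne
    apply hM
    rw [isScalar_iff]
    have e01 := congrFun (congrFun key 0) 1
    have e10 := congrFun (congrFun key 1) 0
    have e00 := congrFun (congrFun key 0) 0
    have e11 := congrFun (congrFun key 1) 1
    simp only [Matrix.smul_apply, smul_eq_mul, Matrix.one_apply_ne, ne_eq, zero_ne_one,
      not_false_eq_true, one_ne_zero, mul_zero, Matrix.one_apply_eq, mul_one] at e01 e10 e00 e11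
    refine ⟨?_, ?_, ?_⟩
    · exact (mul_eq_zero.mp e01).resolve_left hne'
    · exact (mul_eq_zero.mp e10).resolve_left hne'
    · exact mul_left_cancel₀ hne' (e00.trans e11.symm)
  refine ⟨htr, ?_⟩
  rw [htr, sub_self, zero_smul] at key
  have e00 := congrFun (congrFun key 0) 0
  simp only [Matrix.zero_apply, Matrix.smul_apply, Matrix.one_apply_eq, smul_eq_mul,
    mul_one] at e00
  exact (sub_eq_zero.mp e00.symm)

variable {G : Type*} [Group G]

/-- **Lemma B.** -/
theorem lemmaB (ρ : G →* Matrix (Fin 2) (Fin 2) R) (ε : G →* Rˣ) (a : G → R)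
    (h : ∀ g, ρ g * ρ g - a g • ρ g + ((ε g : Rˣ) : R) • (1 : Matrix (Fin 2) (Fin 2) R) = 0) :
    (∀ g, IsScalar (ρ g)) ∨ (∀ g, (ρ g).det = ((ε g : Rˣ) : R) ∧ (ρ g).trace = a g) := by
  by_cases hall : ∀ g, IsScalar (ρ g)
  · exact Or.inl hall
  right
  rw [not_forall] at hall
  obtain ⟨g₀, hg₀⟩ := hall
  have h0 := quad_trace_det (h g₀) hg₀
  intro g
  by_cases hg : IsScalar (ρ g)
  · obtain ⟨c, hc⟩ := hg
    -- `ρ (g * g₀) = c • ρ g₀` is not scalar
    have hmul : ρ (g * g₀) = c • ρ g₀ := by rw [map_mul, hc, smul_mul_assoc, one_mul]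
    -- `c` is a unit
    have hcu : c * (ρ g⁻¹) 0 0 = 1 := by
      have h1 : ρ g * ρ g⁻¹ = 1 := by rw [← map_mul, mul_inv_cancel, map_one]
      have := congrFun (congrFun h1 0) 0
      rw [hc, smul_mul_assoc, one_mul] at this
      simpa using this
    have hc0 : c ≠ 0 := fun h0 => by rw [h0, zero_mul] at hcu; exact zero_ne_one hcu
    have hns : ¬ IsScalar (ρ (g * g₀)) := by
      intro hs
      apply hg₀
      rw [isScalar_iff] at hs ⊢
      rw [hmul] at hs
      simp only [Matrix.smul_apply, smul_eq_mul] at hs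
      exact ⟨(mul_eq_zero.mp hs.1).resolve_left hc0, (mul_eq_zero.mp hs.2.1).resolve_left hc0,
        mul_left_cancel₀ hc0 hs.2.2⟩
    have h1 := quad_trace_det (h (g * g₀)) hns
    have hdet : c ^ 2 = ((ε g : Rˣ) : R) := by
      have hd := h1.2
      rw [hmul, Matrix.det_smul, Fintype.card_fin, h0.2, map_mul, Units.val_mul] at hd
      exact mul_right_cancel₀ (ε g₀).ne_zero hd
    have hdetg : (ρ g).det = ((ε g : Rˣ) : R) := by
      rw [hc, Matrix.det_smul, Fintype.card_fin, Matrix.det_one, mul_one, hdet]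
    refine ⟨hdetg, ?_⟩
    -- trace: from the quadratic relation for the scalar `c`
    have hq := congrFun (congrFun (h g) 0) 0
    rw [hc] at hq
    simp only [Matrix.mul_smul, Matrix.add_apply,
      Matrix.sub_apply, Matrix.smul_apply, Matrix.one_apply_eq, smul_eq_mul, mul_one,
      Matrix.zero_apply] at hq
    have htr : (ρ g).trace = 2 * c := by
      rw [hc, Matrix.trace_smul, Matrix.trace_one, Fintype.card_fin]
      simp [mul_comm]
    rw [htr]
    rw [← hdet] at hq
    -- c * c - a * c + c ^ 2 = 0  ⇒  a = 2 c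
    have : c * (2 * c - a g) = 0 := by linear_combination hq
    have := (mul_eq_zero.mp this).resolve_left hc0
    exact sub_eq_zero.mp this
  · have := quad_trace_det (h g) hg
    exact ⟨this.2, this.1⟩

/-- **Lemma B**, characteristic polynomial form. -/
theorem lemmaB_charpoly (ρ : G →* Matrix (Fin 2) (Fin 2) R) (ε : G →* Rˣ) (a : G → R)
    (h : ∀ g, ρ g * ρ g - a g • ρ g + ((ε g : Rˣ) : R) • (1 : Matrix (Fin 2) (Fin 2) R) = 0)
    (hns : ∃ g, ¬ IsScalar (ρ g)) (g : G) :
    (ρ g).charpoly = X ^ 2 - C (a g) * X + C (((ε g : Rˣ) : R)) := by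
  rcases lemmaB ρ ε a h with hall | hB
  · obtain ⟨g₀, hg₀⟩ := hns
    exact absurd (hall g₀) hg₀
  · rw [charpoly_two, (hB g).1, (hB g).2]

/-- **CharSum.** -/
theorem charSum_charpoly (ψ e : Rˣ) (a : R)
    (h : (ψ : R) ^ 2 - a * ψ + e = 0) :
    (Matrix.of ![![(ψ : R), 0], ![0, ((e * ψ⁻¹ : Rˣ) : R)]]).charpoly
      = X ^ 2 - C a * X + C (e : R) := by
  rw [charpoly_two]
  have htr : (Matrix.of ![![(ψ : R), 0], ![0, ((e * ψ⁻¹ : Rˣ) : R)]]).trace = a := by
    rw [Matrix.trace_fin_two]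
    simp only [Matrix.of_apply, Matrix.cons_val_zero, Matrix.cons_val_one, Units.val_mul]
    have hψ : (ψ : R) * ((ψ⁻¹ : Rˣ) : R) = 1 := by rw [← Units.val_mul, mul_inv_cancel, Units.val_one]
    have : (ψ : R) * ((ψ : R) + (e : R) * ((ψ⁻¹ : Rˣ) : R) - a) = 0 := by
      linear_combination h + (e : R) * hψ
    have := (mul_eq_zero.mp this).resolve_left ψ.ne_zero
    exact sub_eq_zero.mp this
  have hdet : (Matrix.of ![![(ψ : R), 0], ![0, ((e * ψ⁻¹ : Rˣ) : R)]]).det = e := by
    rw [Matrix.det_fin_two]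
    simp only [Matrix.of_apply, Matrix.cons_val_zero, Matrix.cons_val_one, Units.val_mul,
      mul_zero, sub_zero]
    have hψ : (ψ : R) * ((ψ⁻¹ : Rˣ) : R) = 1 := by rw [← Units.val_mul, mul_inv_cancel, Units.val_one]
    linear_combination (e : R) * hψ
  rw [htr, hdet]

end Fermat.Agent.R.H89
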