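import Fermat.Agent.R.H33_Chain
import Fermat.Agent.GTor.H81_Uncond
import Fermat.Agent.RED.H36_RM
import Fermat.Agent.RED.H33_EQ
import Fermat.Agent.RED.H51_NDESC
import Fermat.Agent.RED.KD.H22_KD
import Fermat.Agent.RED.ES.H95_ES3a
import Fermat.Agent.RED.H76_DR2

/-!
# Cluster R: the Tate piece, unconditional (helper33)

`stmt_tatePiece : S30.Stmt_TatePiece` from G-TOR (`GTor.H81.tatePiece_of_red`, helper81) and
G-RED (`RED.H36.allRed_of`, helper36; packages DR2 helper76/79/34/82/10/70/29, NDESC helper51,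
KD helper22, EQ helper33, ES3 helper95/52).  Consequences: the types of the frozen statements
S30, S29, S42 (and S31 through `S31.of_S30`).
-/

set_option autoImplicit false

namespace Fermat.Agent.R.H33

open Fermat.Agent

/-- All reduction packages of G-RED. -/
theorem allRed (N : ℕ) [NeZero N] (p : ℕ) : GTor.H81.AllRed N p :=
  fun ℓ hℓ hNp A hA =>
    haveI : NeZero ℓ := ⟨hℓ.ne_zero⟩
    RED.H36.allRed_of RED.H76.stmt_DR2 RED.H51.stmt_NDESC RED.KD.H22.stmt_KD RED.H33.stmt_EQ
      RED.H95.stmt_ES3 N p ℓ hℓ hNp A hA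

/-- **The Tate piece** (the single geometric input of cluster R). -/
theorem stmt_tatePiece : S30.Stmt_TatePiece :=
  GTor.H81.tatePiece_of_red (fun N _ p _ => allRed N p)

/-- **S30** (type of the frozen statement). -/
theorem stmt_S30 : R.Stmt_S30 := s30_of_tatePiece stmt_tatePiece

/-- **S29** (type of the frozen statement). -/
theorem stmt_S29 : S29.H33.Stmt_S29 := s29_of_tatePiece stmt_tatePiece

end Fermat.Agent.R.H33
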