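import Fermat.Agent.R.Defs
import Fermat.Agent.R.H91_Lucas

/-!
# Cluster R: the transfer principle (helper86)

Setting: `𝕋 = heckeAlgebra N 2 S` (anemic Hecke algebra), `ρ` a representation over a
separated local ring `T` with `p ∈ 𝔪_T`, whose Frobenius characteristic polynomials are
`X ^ 2 - π (T_ℓ) X + ℓ` for a ring homomorphism `π : 𝕋 → T` (this is what a
`HeckeGaloisRepDatum` provides; `T` may have characteristic `p` and may be non-reduced).

`transfer_charpoly`: if for every `p`-adic point `χ : 𝕋 → 𝒪'` (complete DVR of characteristic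
`0`) there is a representation `ρ'` with Frobenius characteristic polynomials
`X ^ 2 - χ (T_ℓ) X + ℓ` such that `ρ' g₁` and `ρ' g₂` have the same characteristic polynomial,
then `ρ g₁` and `ρ g₂` have the same characteristic polynomial.

Inputs (hypotheses): `Stmt_FD` (Frobenius density, item 61), `Stmt_Sep` (the Hecke algebra is
`p`-adically separated by its points).  Proof: modulo `𝔪_T ^ n` the trace of `ρ g` is
`π (lucasV (T_ℓ) ℓ j)` for Frobenius data `(ℓ, σ, j)` approximating `g`; the same Hecke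
element computes the trace of `ρ' g` at every point, hence the difference of the Hecke elements
for `g₁`, `g₂` is divisible by `p ^ n` in `𝕋`.
-/

set_option autoImplicit false

open Polynomial IsLocalRing

namespace Fermat.Agent.R

section Algebra

variable {A : Type*} [CommRing A] {V : Type*} [AddCommGroup V] [Module A V]

/-- A linear map preserves `I • ⊤`. -/
lemma map_mem_smul_top (I : Ideal A) (f : Module.End A V) {v : V}
    (hv : v ∈ I • (⊤ : Submodule A V)) : f v ∈ I • (⊤ : Submodule A V) := by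
  have h : (I • (⊤ : Submodule A V)).map f ≤ I • (⊤ : Submodule A V) := by
    rw [Submodule.map_smul'']
    exact Submodule.smul_mono le_rfl le_top
  exact h (Submodule.mem_map_of_mem hv)

/-- Coordinates of an element of `I • ⊤` lie in `I`. -/
lemma repr_mem_of_mem_smul_top {ι : Type*} (b : Module.Basis ι A V) (I : Ideal A) {v : V}
    (hv : v ∈ I • (⊤ : Submodule A V)) (i : ι) : b.repr v i ∈ I := by
  refine Submodule.smul_induction_on (p := fun x => b.repr x i ∈ I) hv ?_ ?_
  · intro a ha w _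
    rw [map_smul, Finsupp.smul_apply, smul_eq_mul]
    exact I.mul_mem_right _ ha
  · intro x y hx hy
    rw [map_add, Finsupp.add_apply]
    exact I.add_mem hx hy

variable [Module.Free A V] [Module.Finite A V]

/-- Endomorphisms congruent modulo `I` have congruent trace and determinant. -/
lemma trace_det_congr (I : Ideal A) (f g : Module.End A V)
    (h : ∀ v, f v - g v ∈ I • (⊤ : Submodule A V)) :
    LinearMap.trace A V f - LinearMap.trace A V g ∈ I ∧
      LinearMap.det f - LinearMap.det g ∈ I := by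
  classical
  let b := Module.Free.chooseBasis A V
  have hentry : ∀ i j, LinearMap.toMatrix b b f i j - LinearMap.toMatrix b b g i j ∈ I := by
    intro i j
    rw [LinearMap.toMatrix_apply, LinearMap.toMatrix_apply, ← Finsupp.sub_apply, ← map_sub]
    exact repr_mem_of_mem_smul_top b I (h (b j)) i
  have hmap : (LinearMap.toMatrix b b f).map (Ideal.Quotient.mk I)
      = (LinearMap.toMatrix b b g).map (Ideal.Quotient.mk I) := by
    ext i j
    simp only [Matrix.map_apply]
    exact (Ideal.Quotient.eq).mpr (hentry i j)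
  constructor
  · rw [LinearMap.trace_eq_matrix_trace A b f, LinearMap.trace_eq_matrix_trace A b g,
      ← Ideal.Quotient.eq]
    have h1 := congrArg Matrix.trace hmap
    simpa [Matrix.trace, map_sum] using h1
  · rw [← LinearMap.det_toMatrix b f, ← LinearMap.det_toMatrix b g, ← Ideal.Quotient.eq,
      RingHom.map_det, RingHom.map_det]
    exact congrArg Matrix.det hmap

/-- In rank 2 the characteristic polynomial determines trace and determinant. -/
lemma trace_det_eq_of_charpoly_eq {W : Type*} [AddCommGroup W] [Module A W] [Module.Free A W]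
    [Module.Finite A W] (hV : Module.finrank A V = 2) (hW : Module.finrank A W = 2)
    (f : Module.End A V) (g : Module.End A W) (h : f.charpoly = g.charpoly) :
    LinearMap.trace A V f = LinearMap.trace A W g ∧ LinearMap.det f = LinearMap.det g := by
  rw [H91.charpoly_eq_of_finrank_two hV f, H91.charpoly_eq_of_finrank_two hW g] at h
  have h0 := congrArg (fun q : A[X] => q.coeff 0) h
  have h1 := congrArg (fun q : A[X] => q.coeff 1) h
  simp only [coeff_add, coeff_sub, coeff_X_pow, coeff_C_mul, coeff_X_zero, coeff_X_one,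
    coeff_C_zero, coeff_C_succ, mul_zero, mul_one, sub_zero, add_zero] at h0 h1
  norm_num at h0 h1
  exact ⟨h1, h0⟩

end Algebra

section DVR

/-- Divisibility descends along an injective local homomorphism out of a valuation ring. -/
lemma dvd_of_map_dvd {R R' : Type*} [CommRing R] [IsDomain R] [ValuationRing R]
    [CommRing R'] [IsLocalRing R'] (φ : R →+* R') (hinj : Function.Injective φ)
    [IsLocalHom φ] {a r : R} (h : φ a ∣ φ r) : a ∣ r := by
  rcases ValuationRing.dvd_total a r with h1 | ⟨u, hu⟩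
  · exact h1
  · -- `a = r * u`
    by_cases hunit : IsUnit u
    · obtain ⟨v, rfl⟩ := hunit
      exact ⟨↑v⁻¹, by rw [hu, mul_assoc, Units.mul_inv, mul_one]⟩
    · have hφu : ¬ IsUnit (φ u) := fun hc => hunit (isUnit_of_map_unit φ u hc)
      obtain ⟨s, hs⟩ := h
      have h2 : φ r * (1 - φ u * s) = 0 := by
        have : φ a = φ r * φ u := by rw [hu, map_mul]
        rw [mul_sub, mul_one, ← mul_assoc, ← this, ← hs, sub_self]
      have h3 : IsUnit (1 - φ u * s) := by
        have hmem : φ u * s ∈ maximalIdeal R' :=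
          Ideal.mul_mem_right _ _ ((mem_maximalIdeal _).mpr hφu)
        by_contra hnu
        have h4 : (1 - φ u * s) ∈ maximalIdeal R' := (mem_maximalIdeal _).mpr hnu
        have h5 : (1 : R') ∈ maximalIdeal R' := by
          have := Ideal.add_mem _ h4 hmem
          simp at this
        exact (Ideal.ne_top_iff_one _).mp (maximalIdeal.isMaximal R').ne_top h5
      have h6 : φ r = 0 := by
        obtain ⟨w, hw⟩ := h3
        have := congrArg (· * (↑w⁻¹ : R')) h2
        simp only [zero_mul] at this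
        rw [← hw, mul_assoc, Units.mul_inv, mul_one] at this
        exact this
      have h7 : r = 0 := hinj (by rw [h6, map_zero])
      rw [h7]
      exact dvd_zero a

/-- In a discrete valuation ring every nonzero principal ideal contains a power of the maximal
ideal. -/
lemma exists_pow_le_span {R : Type*} [CommRing R] [IsDomain R] [IsDiscreteValuationRing R]
    {a : R} (ha : a ≠ 0) : ∃ M : ℕ, maximalIdeal R ^ M ≤ Ideal.span {a} := by
  obtain ⟨ϖ, hϖ⟩ := IsDiscreteValuationRing.exists_irreducible R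
  have hs : Ideal.span {a} ≠ ⊥ := by
    rw [Ne, Ideal.span_singleton_eq_bot]; exact ha
  obtain ⟨M, hM⟩ := IsDiscreteValuationRing.ideal_eq_span_pow_irreducible hs hϖ
  refine ⟨M, ?_⟩
  rw [hM, hϖ.maximalIdeal_eq, Ideal.span_singleton_pow]

end DVR

section Core

variable {A : Type} [CommRing A] [IsLocalRing A]

/-- **Core congruence.**  For an adically continuous representation and a level `n` there is a
finite extension `L` of `ℚ` such that whenever `σ ^ j` and `g` agree on `L`, the endomorphisms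
`ρ g` and `(ρ σ) ^ j` are congruent modulo `𝔪 ^ n`. -/
lemma exists_field_congr (ρ : GaloisRepAdic A) (n : ℕ) :
    ∃ L : IntermediateField ℚ (AlgebraicClosure ℚ), FiniteDimensional ℚ L ∧
      ∀ (g σ : AlgebraicClosure ℚ ≃ₐ[ℚ] AlgebraicClosure ℚ) (j : ℕ),
        (∀ x ∈ L, (σ ^ j) x = g x) →
        ∀ v : ρ.V, ρ.ρ g v - (ρ.ρ σ ^ j) v ∈ (maximalIdeal A ^ n) • (⊤ : Submodule A ρ.V) := by
  obtain ⟨L, hL, h1⟩ := ρ.isAdicContinuous n
  refine ⟨L, hL, fun g σ j hgσ v => ?_⟩
  set u : AlgebraicClosure ℚ ≃ₐ[ℚ] AlgebraicClosure ℚ := (σ ^ j)⁻¹ * g with hu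
  have hfix : ∀ x ∈ L, u x = x := by
    intro x hx
    rw [hu, AlgEquiv.mul_apply, ← hgσ x hx]
    exact (σ ^ j).symm_apply_apply x
  have h2 := h1 u hfix v
  have h3 := map_mem_smul_top (maximalIdeal A ^ n) (ρ.ρ (σ ^ j)) h2
  have hg : g = σ ^ j * u := by rw [hu, mul_inv_cancel_left]
  have e : ρ.ρ g v - (ρ.ρ σ ^ j) v = ρ.ρ (σ ^ j) (ρ.ρ u v - v) := by
    rw [map_sub, ← Module.End.mul_apply, ← map_mul, ← hg, map_pow]
  rw [e]
  exact h3

/-- Consequence of the core congruence for Frobenius elements with known characteristic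
polynomial. -/
lemma charpoly_congr_of_frob (ρ : GaloisRepAdic A) (n : ℕ)
    {L : IntermediateField ℚ (AlgebraicClosure ℚ)}
    (hL : ∀ (g σ : AlgebraicClosure ℚ ≃ₐ[ℚ] AlgebraicClosure ℚ) (j : ℕ),
        (∀ x ∈ L, (σ ^ j) x = g x) →
        ∀ v : ρ.V, ρ.ρ g v - (ρ.ρ σ ^ j) v ∈ (maximalIdeal A ^ n) • (⊤ : Submodule A ρ.V))
    (g σ : AlgebraicClosure ℚ ≃ₐ[ℚ] AlgebraicClosure ℚ) (j : ℕ)
    (hgσ : ∀ x ∈ L, (σ ^ j) x = g x) {t d : A}
    (hσ : LinearMap.charpoly (ρ.ρ σ) = X ^ 2 - C t * X + C d) :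
    LinearMap.trace A ρ.V (ρ.ρ g) - H91.lucasV t d j ∈ maximalIdeal A ^ n ∧
      LinearMap.det (ρ.ρ g) - d ^ j ∈ maximalIdeal A ^ n := by
  have h := trace_det_congr (maximalIdeal A ^ n) (ρ.ρ g) (ρ.ρ σ ^ j) (hL g σ j hgσ)
  have hc := H91.charpoly_pow_of_charpoly ρ.finrank_eq (ρ.ρ σ) hσ j
  have htr := H91.trace_pow_of_charpoly ρ.finrank_eq (ρ.ρ σ) hσ j
  have hdet : LinearMap.det (ρ.ρ σ ^ j) = d ^ j := by
    have h2 := H91.charpoly_eq_of_finrank_two ρ.finrank_eq (ρ.ρ σ ^ j)
    rw [hc] at h2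
    have h0 := congrArg (fun q : A[X] => q.coeff 0) h2
    simp only [coeff_add, coeff_sub, coeff_X_pow, coeff_C_mul, coeff_X_zero,
      coeff_C_zero, mul_zero, sub_zero] at h0
    norm_num at h0
    rw [map_pow]
    exact h0.symm
  rw [htr, hdet] at h
  exact h

end Core

section Transfer

variable {N : ℕ} [NeZero N] {S : Finset ℕ}

/-- Frobenius data approximating `g` on the field `L`: a prime `ℓ ∉ S`, `ℓ ∤ N`, a Frobenius
element `σ` at a valuation subring over `ℓ`, and an exponent `j` with `σ ^ j = g` on `L`. -/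
structure FrobData (N : ℕ) (S : Finset ℕ) (L : IntermediateField ℚ (AlgebraicClosure ℚ))
    (g : AlgebraicClosure ℚ ≃ₐ[ℚ] AlgebraicClosure ℚ) where
  /-- the prime -/
  ℓ : ℕ
  prime : ℓ.Prime
  notDvd : ¬ ℓ ∣ N
  notMem : ℓ ∉ (↑S : Set ℕ)
  /-- the valuation subring -/
  A : ValuationSubring (AlgebraicClosure ℚ)
  liesOver : A.LiesOverPrime ℓ
  /-- the Frobenius element -/
  σ : AlgebraicClosure ℚ ≃ₐ[ℚ] AlgebraicClosure ℚ
  frob : A.IsFrobeniusAt σ ℓ
  /-- the exponent -/
  j : ℕ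
  agree : ∀ x ∈ L, (σ ^ j) x = g x

/-- The element of the Hecke algebra computing the trace at `g`. -/
noncomputable def FrobData.tr {L : IntermediateField ℚ (AlgebraicClosure ℚ)}
    {g : AlgebraicClosure ℚ ≃ₐ[ℚ] AlgebraicClosure ℚ} (D : FrobData N S L g) :
    CuspForm.heckeAlgebra N 2 (↑S : Set ℕ) :=
  H91.lucasV (CuspForm.heckeAlgebra.T D.prime D.notDvd D.notMem)
    ((D.ℓ : ℕ) : CuspForm.heckeAlgebra N 2 (↑S : Set ℕ)) D.j

/-- The element of the Hecke algebra computing the determinant at `g`. -/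
noncomputable def FrobData.dt {L : IntermediateField ℚ (AlgebraicClosure ℚ)}
    {g : AlgebraicClosure ℚ ≃ₐ[ℚ] AlgebraicClosure ℚ} (D : FrobData N S L g) :
    CuspForm.heckeAlgebra N 2 (↑S : Set ℕ) :=
  ((D.ℓ : ℕ) : CuspForm.heckeAlgebra N 2 (↑S : Set ℕ)) ^ D.j

/-- Restriction of Frobenius data to a smaller field. -/
def FrobData.restrict {L L' : IntermediateField ℚ (AlgebraicClosure ℚ)}
    {g : AlgebraicClosure ℚ ≃ₐ[ℚ] AlgebraicClosure ℚ} (D : FrobData N S L' g) (h : L ≤ L') :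
    FrobData N S L g :=
  { D with agree := fun x hx => D.agree x (h hx) }

omit [NeZero N] in
/-- Frobenius density produces Frobenius data. -/
lemma FrobData.nonempty (hFD : Stmt_FD) (hNS : ∀ q : ℕ, q.Prime → q ∣ N → q ∈ S)
    (L : IntermediateField ℚ (AlgebraicClosure ℚ)) (hL : FiniteDimensional ℚ L)
    (g : AlgebraicClosure ℚ ≃ₐ[ℚ] AlgebraicClosure ℚ) : Nonempty (FrobData N S L g) := by
  obtain ⟨ℓ, A, σ, j, hℓ, hℓS, hA, hσ, hag⟩ := hFD S L hL g
  exact ⟨{ ℓ := ℓ, prime := hℓ, notDvd := fun hd => hℓS (hNS ℓ hℓ hd),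
           notMem := fun hm => hℓS (Finset.mem_coe.mp hm), A := A, liesOver := hA, σ := σ,
           frob := hσ, j := j, agree := hag }⟩

/-- A representation over `A` has the Frobenius characteristic polynomials prescribed by the
eigensystem `ψ`. -/
def HasFrobCharpoly {A : Type} [CommRing A] [IsLocalRing A]
    (ψ : CuspForm.heckeAlgebra N 2 (↑S : Set ℕ) →+* A) (ρ : GaloisRepAdic A) : Prop :=
  ∀ (ℓ : ℕ) (hℓ : ℓ.Prime) (hℓN : ¬ ℓ ∣ N) (hℓS : ℓ ∉ (↑S : Set ℕ)),
    ∀ B : ValuationSubring (AlgebraicClosure ℚ), B.LiesOverPrime ℓ →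
      ∀ σ : AlgebraicClosure ℚ ≃ₐ[ℚ] AlgebraicClosure ℚ, B.IsFrobeniusAt σ ℓ →
        LinearMap.charpoly (ρ.ρ σ) =
          X ^ 2 - C (ψ (CuspForm.heckeAlgebra.T hℓ hℓN hℓS)) * X + C ((ℓ : A))

/-- Approximation of trace and determinant by Hecke elements. -/
lemma exists_field_approx {A : Type} [CommRing A] [IsLocalRing A]
    (ψ : CuspForm.heckeAlgebra N 2 (↑S : Set ℕ) →+* A) (ρ : GaloisRepAdic A)
    (hρ : HasFrobCharpoly ψ ρ) (n : ℕ) :
    ∃ L : IntermediateField ℚ (AlgebraicClosure ℚ), FiniteDimensional ℚ L ∧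
      ∀ (g : AlgebraicClosure ℚ ≃ₐ[ℚ] AlgebraicClosure ℚ) (D : FrobData N S L g),
        LinearMap.trace A ρ.V (ρ.ρ g) - ψ D.tr ∈ maximalIdeal A ^ n ∧
          LinearMap.det (ρ.ρ g) - ψ D.dt ∈ maximalIdeal A ^ n := by
  obtain ⟨L, hL, h⟩ := exists_field_congr ρ n
  refine ⟨L, hL, fun g D => ?_⟩
  have h1 := charpoly_congr_of_frob ρ n h g D.σ D.j D.agree
    (hρ D.ℓ D.prime D.notDvd D.notMem D.A D.liesOver D.σ D.frob)
  have e1 : ψ D.tr = H91.lucasV (ψ (CuspForm.heckeAlgebra.T D.prime D.notDvd D.notMem))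
      ((D.ℓ : ℕ) : A) D.j := by
    rw [FrobData.tr, H91.map_lucasV, map_natCast]
  have e2 : ψ D.dt = ((D.ℓ : ℕ) : A) ^ D.j := by
    rw [FrobData.dt, map_pow, map_natCast]
  rw [e1, e2]
  exact h1


/-- At the `p`-adic point `P` there is a representation (over an extension of the coefficient
ring) with the right Frobenius characteristic polynomials for which `g₁` and `g₂` have the
same characteristic polynomial. -/
def PointCharpolyEq {p : ℕ} (P : PadicPoint N S p)
    (g₁ g₂ : AlgebraicClosure ℚ ≃ₐ[ℚ] AlgebraicClosure ℚ) : Prop :=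
  ∃ (𝒪'' : Type) (_ : CommRing 𝒪'') (_ : IsDomain 𝒪'') (_ : IsDiscreteValuationRing 𝒪'')
    (_ : CharZero 𝒪'') (φ : P.R →+* 𝒪'') (_ : Function.Injective φ) (_ : IsLocalHom φ)
    (ρ' : GaloisRepAdic 𝒪''),
    HasFrobCharpoly (φ.comp P.χ) ρ' ∧ (ρ'.ρ g₁).charpoly = (ρ'.ρ g₂).charpoly

/-- The contribution of one `p`-adic point. -/
lemma exists_field_point {p : ℕ} (hp0 : p ≠ 0) (P : PadicPoint N S p)
    (g₁ g₂ : AlgebraicClosure ℚ ≃ₐ[ℚ] AlgebraicClosure ℚ) (hpt : PointCharpolyEq P g₁ g₂)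
    (k : ℕ) :
    ∃ L : IntermediateField ℚ (AlgebraicClosure ℚ), FiniteDimensional ℚ L ∧
      ∀ (D₁ : FrobData N S L g₁) (D₂ : FrobData N S L g₂),
        P.χ (D₁.tr - D₂.tr) ∈ Ideal.span {((p : P.R)) ^ k} ∧
          P.χ (D₁.dt - D₂.dt) ∈ Ideal.span {((p : P.R)) ^ k} := by
  obtain ⟨𝒪'', _, _, _, _, φ, hinj, _, ρ', hρ', hcp⟩ := hpt
  have hpk : ((p : 𝒪'')) ^ k ≠ 0 := pow_ne_zero _ (Nat.cast_ne_zero.mpr hp0)
  obtain ⟨M, hM⟩ := exists_pow_le_span hpk
  obtain ⟨L, hL, happ⟩ := exists_field_approx (φ.comp P.χ) ρ' hρ' M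
  refine ⟨L, hL, fun D₁ D₂ => ?_⟩
  obtain ⟨htr, hdet⟩ := trace_det_eq_of_charpoly_eq ρ'.finrank_eq ρ'.finrank_eq _ _ hcp
  obtain ⟨a1, b1⟩ := happ g₁ D₁
  obtain ⟨a2, b2⟩ := happ g₂ D₂
  have key : ∀ y : CuspForm.heckeAlgebra N 2 (↑S : Set ℕ),
      φ (P.χ y) ∈ maximalIdeal 𝒪'' ^ M → P.χ y ∈ Ideal.span {((p : P.R)) ^ k} := by
    intro y hy
    have h1 := hM hy
    rw [Ideal.mem_span_singleton] at h1 ⊢
    have h2 : φ ((p : P.R) ^ k) ∣ φ (P.χ y) := by
      rw [map_pow, map_natCast]; exact h1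
    exact dvd_of_map_dvd φ hinj h2
  constructor
  · apply key
    have : φ (P.χ (D₁.tr - D₂.tr))
        = (LinearMap.trace 𝒪'' ρ'.V (ρ'.ρ g₂) - (φ.comp P.χ) D₂.tr)
          - (LinearMap.trace 𝒪'' ρ'.V (ρ'.ρ g₁) - (φ.comp P.χ) D₁.tr) := by
      rw [htr, map_sub, map_sub, RingHom.comp_apply, RingHom.comp_apply]
      ring
    rw [this]
    exact Ideal.sub_mem _ a2 a1
  · apply key
    have : φ (P.χ (D₁.dt - D₂.dt))
        = (LinearMap.det (ρ'.ρ g₂) - (φ.comp P.χ) D₂.dt)
          - (LinearMap.det (ρ'.ρ g₁) - (φ.comp P.χ) D₁.dt) := by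
      rw [hdet, map_sub, map_sub, RingHom.comp_apply, RingHom.comp_apply]
      ring
    rw [this]
    exact Ideal.sub_mem _ b2 b1

/-- **Transfer principle.**  Let `ρ` be a representation over a separated local ring `T` in
which `p` is not a unit, with Frobenius characteristic polynomials prescribed by
`π : 𝕋 → T`.  If at every `p`-adic point of the Hecke algebra some representation with the
right Frobenius characteristic polynomials gives `g₁` and `g₂` the same characteristic
polynomial, then `ρ g₁` and `ρ g₂` have the same characteristic polynomial. -/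
theorem transfer_charpoly {p : ℕ} (hp0 : p ≠ 0) (hFD : Stmt_FD) (hSep : Stmt_Sep N S p)
    (hNS : ∀ q : ℕ, q.Prime → q ∣ N → q ∈ S)
    {T : Type} [CommRing T] [IsLocalRing T] [IsHausdorff (maximalIdeal T) T]
    (hpT : (p : T) ∈ maximalIdeal T)
    (π : CuspForm.heckeAlgebra N 2 (↑S : Set ℕ) →+* T) (ρ : GaloisRepAdic T)
    (hρ : HasFrobCharpoly π ρ)
    (g₁ g₂ : AlgebraicClosure ℚ ≃ₐ[ℚ] AlgebraicClosure ℚ)
    (hpts : ∀ P : PadicPoint N S p, PointCharpolyEq P g₁ g₂) :
    (ρ.ρ g₁).charpoly = (ρ.ρ g₂).charpoly := by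
  -- it suffices to prove the congruences modulo all powers of the maximal ideal
  have hmain : ∀ n : ℕ,
      LinearMap.trace T ρ.V (ρ.ρ g₁) - LinearMap.trace T ρ.V (ρ.ρ g₂) ∈ maximalIdeal T ^ n ∧
        LinearMap.det (ρ.ρ g₁) - LinearMap.det (ρ.ρ g₂) ∈ maximalIdeal T ^ n := by
    intro n
    obtain ⟨ι, hfin, P, c, hsep⟩ := hSep
    obtain ⟨L₀, hL₀, happ⟩ := exists_field_approx π ρ hρ n
    choose Lp hLp hpoint using fun i => exists_field_point hp0 (P i) g₁ g₂ (hpts (P i)) (n + c)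
    let L : IntermediateField ℚ (AlgebraicClosure ℚ) := L₀ ⊔ ⨆ i, Lp i
    have hLfin : FiniteDimensional ℚ L := by
      have := hL₀
      have : ∀ i, FiniteDimensional ℚ (Lp i) := hLp
      have : FiniteDimensional ℚ (⨆ i, Lp i : IntermediateField ℚ (AlgebraicClosure ℚ)) :=
        IntermediateField.finiteDimensional_iSup_of_finite
      exact IntermediateField.finiteDimensional_sup _ _
    have hle₀ : L₀ ≤ L := le_sup_left
    have hlei : ∀ i, Lp i ≤ L := fun i => (le_iSup Lp i).trans le_sup_right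
    obtain ⟨D₁⟩ := FrobData.nonempty hFD hNS L hLfin g₁
    obtain ⟨D₂⟩ := FrobData.nonempty hFD hNS L hLfin g₂
    -- the Hecke elements are divisible by `p ^ n`
    have hdiv : ∀ y : CuspForm.heckeAlgebra N 2 (↑S : Set ℕ),
        (∀ i, (P i).χ y ∈ Ideal.span {(((p : ℕ) : (P i).R)) ^ (n + c)}) →
          π y ∈ maximalIdeal T ^ n := by
      intro y hy
      have h1 := hsep n y hy
      rw [Ideal.mem_span_singleton] at h1
      obtain ⟨z, rfl⟩ := h1
      rw [map_mul, map_pow, map_natCast]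
      exact Ideal.mul_mem_right _ _ (Ideal.pow_mem_pow hpT n)
    have htr : π (D₁.tr - D₂.tr) ∈ maximalIdeal T ^ n :=
      hdiv _ fun i => (hpoint i ((D₁.restrict (hlei i))) (D₂.restrict (hlei i))).1
    have hdt : π (D₁.dt - D₂.dt) ∈ maximalIdeal T ^ n :=
      hdiv _ fun i => (hpoint i ((D₁.restrict (hlei i))) (D₂.restrict (hlei i))).2
    obtain ⟨a1, b1⟩ := happ g₁ (D₁.restrict hle₀)
    obtain ⟨a2, b2⟩ := happ g₂ (D₂.restrict hle₀)
    constructor
    · have : LinearMap.trace T ρ.V (ρ.ρ g₁) - LinearMap.trace T ρ.V (ρ.ρ g₂)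
          = (LinearMap.trace T ρ.V (ρ.ρ g₁) - π (D₁.restrict hle₀).tr)
            - (LinearMap.trace T ρ.V (ρ.ρ g₂) - π (D₂.restrict hle₀).tr)
            + π (D₁.tr - D₂.tr) := by
        rw [map_sub]
        change _ = (_ - π D₁.tr) - (_ - π D₂.tr) + _
        ring
      rw [this]
      exact Ideal.add_mem _ (Ideal.sub_mem _ a1 a2) htr
    · have : LinearMap.det (ρ.ρ g₁) - LinearMap.det (ρ.ρ g₂)
          = (LinearMap.det (ρ.ρ g₁) - π (D₁.restrict hle₀).dt)
            - (LinearMap.det (ρ.ρ g₂) - π (D₂.restrict hle₀).dt)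
            + π (D₁.dt - D₂.dt) := by
        rw [map_sub]
        change _ = (_ - π D₁.dt) - (_ - π D₂.dt) + _
        ring
      rw [this]
      exact Ideal.add_mem _ (Ideal.sub_mem _ b1 b2) hdt
  have hzero : ∀ x : T, (∀ n, x ∈ maximalIdeal T ^ n) → x = 0 := by
    intro x hx
    apply IsHausdorff.haus (I := maximalIdeal T) (M := T) inferInstance
    intro n
    rw [SModEq.zero]
    rw [smul_eq_mul, Ideal.mul_top]
    exact hx n
  have e1 : LinearMap.trace T ρ.V (ρ.ρ g₁) = LinearMap.trace T ρ.V (ρ.ρ g₂) :=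
    sub_eq_zero.mp (hzero _ fun n => (hmain n).1)
  have e2 : LinearMap.det (ρ.ρ g₁) = LinearMap.det (ρ.ρ g₂) :=
    sub_eq_zero.mp (hzero _ fun n => (hmain n).2)
  rw [H91.charpoly_eq_of_finrank_two ρ.finrank_eq, H91.charpoly_eq_of_finrank_two ρ.finrank_eq,
    e1, e2]

end Transfer

end Fermat.Agent.R
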