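import Fermat.Agent.S53.Schur
import Fermat.Prelude.Def_GaloisRep_Adic

/-!
# Cluster R: the kernel of a residually absolutely irreducible representation is detected
by the trace (Burnside + Nakayama) (helper86)

`eq_one_of_forall_trace_mul`: if `ρ` is a representation over a local ring whose residual
representation is absolutely irreducible and `s` satisfies `tr ρ (s * h) = tr ρ h` for all
`h`, then `ρ s = 1`.
-/

set_option autoImplicit false

open IsLocalRing
open scoped TensorProduct

namespace Fermat.Agent.R.H86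

open Fermat.Agent.S53.Schur

variable {A : Type} [CommRing A] [IsLocalRing A]

/-- The matrices of a residually absolutely irreducible representation span `M_2(A)`. -/
theorem exists_eq_sum_matrix (ρ : GaloisRepAdic A)
    (hirr : ρ.residual.IsAbsolutelyIrreducible) (b : Module.Basis (Fin 2) A ρ.V) :
    ∃ g : Fin 2 × Fin 2 → (AlgebraicClosure ℚ ≃ₐ[ℚ] AlgebraicClosure ℚ),
      ∀ Y : Matrix (Fin 2) (Fin 2) A,
        ∃ c : Fin 2 × Fin 2 → A, Y = ∑ p, c p • LinearMap.toMatrix b b (ρ.ρ (g p)) := by
  classical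
  let bbar : Module.Basis (Fin 2) (ResidueField A) ρ.residual.V :=
    Algebra.TensorProduct.basis (ResidueField A) b
  obtain ⟨g, hg⟩ := exists_det_ne_zero ρ.residual hirr bbar
  refine ⟨g, ?_⟩
  have hmat : ∀ σ, LinearMap.toMatrix bbar bbar (ρ.residual.ρ σ)
      = (LinearMap.toMatrix b b (ρ.ρ σ)).map (algebraMap A (ResidueField A)) := fun σ =>
    LinearMap.toMatrix_baseChange (ResidueField A) (ρ.ρ σ) b b
  have hres : residue A (flat fun p => LinearMap.toMatrix b b (ρ.ρ (g p))).det ≠ 0 := by
    rw [← det_flat_map]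
    have : (fun p => (LinearMap.toMatrix b b (ρ.ρ (g p))).map (residue A))
        = fun p => LinearMap.toMatrix bbar bbar (ρ.residual.ρ (g p)) := by
      funext p
      rw [hmat]
      rfl
    rw [this]
    exact hg
  have hunit : IsUnit (flat fun p => LinearMap.toMatrix b b (ρ.ρ (g p))).det := by
    by_contra hnu
    exact hres ((residue_eq_zero_iff _).2 ((mem_maximalIdeal _).2 hnu))
  exact fun Y => exists_eq_sum_of_isUnit_det _ hunit Y

/-- **Burnside–Nakayama.**  If the residual representation is absolutely irreducible and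
`tr ρ (s * h) = tr ρ h` for all `h`, then `ρ s = 1`. -/
theorem eq_one_of_forall_trace_mul (ρ : GaloisRepAdic A)
    (hirr : ρ.residual.IsAbsolutelyIrreducible)
    (s : AlgebraicClosure ℚ ≃ₐ[ℚ] AlgebraicClosure ℚ)
    (h : ∀ g : AlgebraicClosure ℚ ≃ₐ[ℚ] AlgebraicClosure ℚ,
      LinearMap.trace A ρ.V (ρ.ρ (s * g)) = LinearMap.trace A ρ.V (ρ.ρ g)) :
    ρ.ρ s = 1 := by
  classical
  let b : Module.Basis (Fin 2) A ρ.V := Module.finBasisOfFinrankEq A ρ.V ρ.finrank_eq
  obtain ⟨g, hg⟩ := exists_eq_sum_matrix ρ hirr b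
  set X : Matrix (Fin 2) (Fin 2) A := LinearMap.toMatrix b b (ρ.ρ s) - 1 with hX
  have htr : ∀ σ, (X * LinearMap.toMatrix b b (ρ.ρ σ)).trace = 0 := by
    intro σ
    rw [hX, sub_mul, one_mul, Matrix.trace_sub, ← LinearMap.toMatrix_mul, ← map_mul,
      ← LinearMap.trace_eq_matrix_trace A b, ← LinearMap.trace_eq_matrix_trace A b, h σ,
      sub_self]
  have htrY : ∀ Y : Matrix (Fin 2) (Fin 2) A, (X * Y).trace = 0 := by
    intro Y
    obtain ⟨c, rfl⟩ := hg Y
    rw [Finset.mul_sum, Matrix.trace_sum]
    refine Finset.sum_eq_zero fun p _ => ?_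
    rw [Matrix.mul_smul, Matrix.trace_smul, htr, smul_zero]
  have hX0 : X = 0 := by
    ext i j
    have := htrY (Matrix.single j i (1 : A))
    rw [Matrix.trace_mul_single] at this
    simpa using this
  have h1 : LinearMap.toMatrix b b (ρ.ρ s) = LinearMap.toMatrix b b (1 : Module.End A ρ.V) := by
    rw [LinearMap.toMatrix_one]
    exact sub_eq_zero.mp hX0
  exact (LinearMap.toMatrix b b).injective h1

end Fermat.Agent.R.H86
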