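import Fermat.Agent.R.H86_Defs2
import Fermat.Agent.R.H86_BN

/-!
# Cluster R: points of the local Hecke algebra (helper86)

General lemmas on the base change `ρ.baseChangeAlong ψ` of a representation along a local
homomorphism `ψ : A → B` (in the wirings of S32/S33: a point `T → 𝒪'` of the local Hecke
algebra):

* `hasFrobCharpoly_baseChangeAlong` : the Frobenius characteristic polynomials are preserved;
* `residual_absIrr_iff`, `residual_absIrr_baseChangeAlong` : residual absolute irreducibility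
  is preserved (Burnside: four matrices with invertible `4 × 4` determinant);
* `ResOrdAt`, `exists_resOrdAt`, `resOrdLine_of_resOrdAt`,
  `residual_isOrdinaryAt_baseChangeAlong` : residual ordinarity in coordinates, preserved by
  base change;
* `exists_inertia_notMem` : inertia at the odd prime `p` acts non-trivially modulo the maximal
  ideal (the determinant is the cyclotomic character).
-/

set_option autoImplicit false
set_option linter.style.haveILetI false

open Polynomial IsLocalRing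
open scoped TensorProduct

namespace Fermat.Agent.R.H86

open Fermat.Agent.S53.Schur

section BaseChange

variable {A : Type} [CommRing A] [IsLocalRing A] {B : Type} [CommRing B] [IsLocalRing B]

/-- The action of the base change on pure tensors. -/
lemma baseChangeAlong_ρ_tmul (ψ : A →+* B) (hψ : IsLocalHom ψ) (ρ : GaloisRepAdic A)
    (σ : AlgebraicClosure ℚ ≃ₐ[ℚ] AlgebraicClosure ℚ) (c : B) (v : ρ.V) :
    letI : Algebra A B := ψ.toAlgebra
    (ρ.baseChangeAlong ψ hψ).ρ σ (c ⊗ₜ[A] v : B ⊗[A] ρ.V) = c ⊗ₜ[A] (ρ.ρ σ v) := by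
  letI : Algebra A B := ψ.toAlgebra
  exact LinearMap.baseChange_tmul _ _ _

/-- Characteristic polynomials under base change. -/
lemma baseChangeAlong_charpoly (ψ : A →+* B) (hψ : IsLocalHom ψ) (ρ : GaloisRepAdic A)
    (σ : AlgebraicClosure ℚ ≃ₐ[ℚ] AlgebraicClosure ℚ) :
    LinearMap.charpoly ((ρ.baseChangeAlong ψ hψ).ρ σ) = (LinearMap.charpoly (ρ.ρ σ)).map ψ := by
  letI : Algebra A B := ψ.toAlgebra
  exact LinearMap.charpoly_baseChange (A := B) (ρ.ρ σ)

/-- Base change preserves the Frobenius characteristic polynomials. -/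
lemma hasFrobCharpoly_baseChangeAlong {N : ℕ} [NeZero N] {S : Finset ℕ}
    (ψ : A →+* B) (hψ : IsLocalHom ψ)
    (π : CuspForm.heckeAlgebra N 2 (↑S : Set ℕ) →+* A) (ρ : GaloisRepAdic A)
    (h : HasFrobCharpoly π ρ) : HasFrobCharpoly (ψ.comp π) (ρ.baseChangeAlong ψ hψ) := by
  intro ℓ hℓ hℓN hℓS B' hB' σ hσ
  rw [baseChangeAlong_charpoly, h ℓ hℓ hℓN hℓS B' hB' σ hσ]
  simp [Polynomial.map_sub, Polynomial.map_add, Polynomial.map_mul, Polynomial.map_pow]

end BaseChange

section AbsIrr

/-- A residual representation for which four group elements have linearly independent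
matrices is absolutely irreducible. -/
theorem absIrr_of_det_ne_zero {k : Type} [Field k] (ρbar : ResidualGaloisRep k)
    (b : Module.Basis (Fin 2) k ρbar.V)
    (g : Fin 2 × Fin 2 → (AlgebraicClosure ℚ ≃ₐ[ℚ] AlgebraicClosure ℚ))
    (hg : (flat fun p => LinearMap.toMatrix b b (ρbar.ρ (g p))).det ≠ 0) :
    ρbar.IsAbsolutelyIrreducible := by
  classical
  intro W hW
  set K := AlgebraicClosure k
  let bK : Module.Basis (Fin 2) K (K ⊗[k] ρbar.V) := Algebra.TensorProduct.basis K b
  have hmat : ∀ σ, LinearMap.toMatrix bK bK ((ρbar.baseChange K).ρ σ)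
      = (LinearMap.toMatrix b b (ρbar.ρ σ)).map (algebraMap k K) := fun σ =>
    LinearMap.toMatrix_baseChange K (ρbar.ρ σ) b b
  have hdet : (flat fun p => LinearMap.toMatrix bK bK ((ρbar.baseChange K).ρ (g p))).det ≠ 0 := by
    have : (fun p => LinearMap.toMatrix bK bK ((ρbar.baseChange K).ρ (g p)))
        = fun p => (LinearMap.toMatrix b b (ρbar.ρ (g p))).map (algebraMap k K) := by
      funext p
      rw [hmat]
    rw [this, det_flat_map]
    exact fun h0 => hg ((map_eq_zero_iff _ (algebraMap k K).injective).1 h0)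
  -- every endomorphism is a combination of the `ρ (g p)`
  have hspan : ∀ f : Module.End K (K ⊗[k] ρbar.V), ∀ x ∈ W, f x ∈ W := by
    intro f x hx
    obtain ⟨c, hc⟩ := exists_eq_sum_of_isUnit_det _ (isUnit_iff_ne_zero.2 hdet)
      (LinearMap.toMatrix bK bK f)
    have hf : f = ∑ p, c p • (ρbar.baseChange K).ρ (g p) := by
      apply (LinearMap.toMatrix bK bK).injective
      rw [hc, map_sum]
      simp only [map_smul]
    rw [hf, LinearMap.sum_apply]
    exact W.sum_mem fun p _ => by
      rw [LinearMap.smul_apply]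
      exact W.smul_mem _ (hW (g p) x hx)
  by_cases hbot : W = ⊥
  · exact Or.inl hbot
  · right
    obtain ⟨x, hxW, hx0⟩ := (Submodule.ne_bot_iff W).1 hbot
    rw [eq_top_iff]
    intro y _
    obtain ⟨φ, hφ⟩ : ∃ φ : Module.Dual K (K ⊗[k] ρbar.V), φ x = 1 := by
      have hne : bK.repr x ≠ 0 := fun h0 => hx0 (by simpa using h0)
      obtain ⟨i, hi⟩ := Finsupp.ne_iff.1 hne
      refine ⟨(bK.repr x i)⁻¹ • bK.coord i, ?_⟩
      rw [LinearMap.smul_apply, Module.Basis.coord_apply, smul_eq_mul]
      exact inv_mul_cancel₀ hi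
    have := hspan (φ.smulRight y) x hxW
    rwa [LinearMap.smulRight_apply, hφ, one_smul] at this

variable {A : Type} [CommRing A] [IsLocalRing A] {B : Type} [CommRing B] [IsLocalRing B]

/-- Residual absolute irreducibility in terms of matrices over the local ring. -/
theorem residual_absIrr_iff (ρ : GaloisRepAdic A) (b : Module.Basis (Fin 2) A ρ.V) :
    ρ.residual.IsAbsolutelyIrreducible ↔
      ∃ g : Fin 2 × Fin 2 → (AlgebraicClosure ℚ ≃ₐ[ℚ] AlgebraicClosure ℚ),
        IsUnit (flat fun p => LinearMap.toMatrix b b (ρ.ρ (g p))).det := by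
  classical
  let bbar : Module.Basis (Fin 2) (ResidueField A) ρ.residual.V :=
    Algebra.TensorProduct.basis (ResidueField A) b
  have hmat : ∀ σ, LinearMap.toMatrix bbar bbar (ρ.residual.ρ σ)
      = (LinearMap.toMatrix b b (ρ.ρ σ)).map (algebraMap A (ResidueField A)) := fun σ =>
    LinearMap.toMatrix_baseChange (ResidueField A) (ρ.ρ σ) b b
  have hfun : ∀ g : Fin 2 × Fin 2 → (AlgebraicClosure ℚ ≃ₐ[ℚ] AlgebraicClosure ℚ),
      (flat fun p => LinearMap.toMatrix bbar bbar (ρ.residual.ρ (g p))).det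
        = residue A (flat fun p => LinearMap.toMatrix b b (ρ.ρ (g p))).det := by
    intro g
    rw [← det_flat_map]
    congr 2
    funext p
    rw [hmat]
    rfl
  constructor
  · intro hirr
    obtain ⟨g, hg⟩ := exists_det_ne_zero ρ.residual hirr bbar
    refine ⟨g, ?_⟩
    rw [hfun] at hg
    by_contra hnu
    exact hg ((residue_eq_zero_iff _).2 ((mem_maximalIdeal _).2 hnu))
  · rintro ⟨g, hg⟩
    refine absIrr_of_det_ne_zero ρ.residual bbar g ?_
    rw [hfun]
    exact fun h0 => ((mem_maximalIdeal _).1 ((residue_eq_zero_iff _).1 h0)) hg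

/-- Residual absolute irreducibility is preserved by base change along a local homomorphism. -/
theorem residual_absIrr_baseChangeAlong (ψ : A →+* B) (hψ : IsLocalHom ψ) (ρ : GaloisRepAdic A)
    (h : ρ.residual.IsAbsolutelyIrreducible) :
    (ρ.baseChangeAlong ψ hψ).residual.IsAbsolutelyIrreducible := by
  classical
  letI : Algebra A B := ψ.toAlgebra
  let b : Module.Basis (Fin 2) A ρ.V :=
    Module.finBasisOfFinrankEq A ρ.V ρ.finrank_eq
  let b' : Module.Basis (Fin 2) B (ρ.baseChangeAlong ψ hψ).V :=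
    Algebra.TensorProduct.basis B b
  obtain ⟨g, hg⟩ := (residual_absIrr_iff ρ b).1 h
  refine (residual_absIrr_iff (ρ.baseChangeAlong ψ hψ) b').2 ⟨g, ?_⟩
  have hmat : ∀ σ, LinearMap.toMatrix b' b' ((ρ.baseChangeAlong ψ hψ).ρ σ)
      = (LinearMap.toMatrix b b (ρ.ρ σ)).map ψ := fun σ =>
    LinearMap.toMatrix_baseChange B (ρ.ρ σ) b b
  have : (fun p => LinearMap.toMatrix b' b' ((ρ.baseChangeAlong ψ hψ).ρ (g p)))
      = fun p => (LinearMap.toMatrix b b (ρ.ρ (g p))).map ψ := by
    funext p
    rw [hmat]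
  rw [this, det_flat_map]
  exact hg.map ψ

end AbsIrr

section ResOrd

variable {A : Type} [CommRing A] [IsLocalRing A] {B : Type} [CommRing B] [IsLocalRing B]

/-- Membership in the line spanned by the first vector of a basis indexed by `Fin 2`. -/
lemma mem_span_basis_zero_iff {R M : Type*} [CommRing R] [AddCommGroup M] [Module R M]
    (b : Module.Basis (Fin 2) R M) (x : M) :
    x ∈ Submodule.span R {b 0} ↔ b.repr x 1 = 0 := by
  constructor
  · intro hx
    obtain ⟨c, rfl⟩ := Submodule.mem_span_singleton.1 hx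
    simp
  · intro hx
    have h := b.sum_repr x
    rw [Fin.sum_univ_two, hx, zero_smul, add_zero] at h
    rw [← h]
    exact Submodule.smul_mem _ _ (Submodule.mem_span_singleton_self _)

/-- Coordinate form of residual ordinarity at `P` with respect to a basis `b`: modulo the
maximal ideal, the line spanned by `b 0` is stable under the decomposition group and contains
`ρ σ v - v` for `σ` in the inertia group. -/
def ResOrdAt {V : Type} [AddCommGroup V] [Module A V]
    (r : (AlgebraicClosure ℚ ≃ₐ[ℚ] AlgebraicClosure ℚ) → Module.End A V)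
    (P : ValuationSubring (AlgebraicClosure ℚ))
    (b : Module.Basis (Fin 2) A V) : Prop :=
  (∀ τ ∈ P.decompositionSubgroup ℚ, b.repr (r τ (b 0)) 1 ∈ maximalIdeal A) ∧
  (∀ σ ∈ P.inertiaSubgroupIn ℚ, ∀ v : V, b.repr (r σ v - v) 1 ∈ maximalIdeal A)

/-- Residual ordinarity at `P`, spelled out on `k ⊗ V`. -/
def ResOrdLine {V : Type} [AddCommGroup V] [Module A V]
    (r : (AlgebraicClosure ℚ ≃ₐ[ℚ] AlgebraicClosure ℚ) → Module.End A V)
    (P : ValuationSubring (AlgebraicClosure ℚ)) : Prop :=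
  ∃ L : Submodule (ResidueField A) (ResidueField A ⊗[A] V),
    (∃ b' : Module.Basis (Fin 2) (ResidueField A) (ResidueField A ⊗[A] V),
      L = (ResidueField A) ∙ b' 0) ∧
    (∀ σ ∈ P.decompositionSubgroup ℚ, ∀ v ∈ L, (r σ).baseChange (ResidueField A) v ∈ L) ∧
    (∀ σ ∈ P.inertiaSubgroupIn ℚ, ∀ v : ResidueField A ⊗[A] V,
      (r σ).baseChange (ResidueField A) v - v ∈ L)

lemma residual_isOrdinaryAt_iff (ρ : GaloisRepAdic A) (p : ℕ) :
    (GaloisRepAdic.ofResidualGaloisRep ρ.residual).IsOrdinaryAt p ↔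
      ∀ P : ValuationSubring (AlgebraicClosure ℚ), P.LiesOverPrime p →
        ResOrdLine (fun σ => ρ.ρ σ) P :=
  Iff.rfl

/-- coordinates of `1 ⊗ v` in the residual representation -/
lemma residual_repr_tmul {V : Type} [AddCommGroup V] [Module A V]
    (b : Module.Basis (Fin 2) A V) (v : V) (i : Fin 2) :
    (Algebra.TensorProduct.basis (ResidueField A) b).repr
      ((1 : ResidueField A) ⊗ₜ[A] v) i = residue A (b.repr v i) := by
  rw [Algebra.TensorProduct.basis_repr_tmul, one_smul, Finsupp.mapRange_apply]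
  rfl

/-- The coordinate form implies residual ordinarity at `P`. -/
lemma resOrdLine_of_resOrdAt {V : Type} [AddCommGroup V] [Module A V]
    (r : (AlgebraicClosure ℚ ≃ₐ[ℚ] AlgebraicClosure ℚ) → Module.End A V)
    (P : ValuationSubring (AlgebraicClosure ℚ)) (b : Module.Basis (Fin 2) A V)
    (h : ResOrdAt r P b) : ResOrdLine r P := by
  classical
  let bbar : Module.Basis (Fin 2) (ResidueField A) (ResidueField A ⊗[A] V) :=
    Algebra.TensorProduct.basis (ResidueField A) b
  have hb : ∀ i, bbar i = (1 : ResidueField A) ⊗ₜ[A] b i := fun i =>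
    Algebra.TensorProduct.basis_apply _ _
  refine ⟨(ResidueField A) ∙ bbar 0, ⟨bbar, rfl⟩, ?_, ?_⟩
  · intro τ hτ v hv
    obtain ⟨c, rfl⟩ := Submodule.mem_span_singleton.1 hv
    rw [map_smul]
    refine Submodule.smul_mem _ _ ?_
    rw [mem_span_basis_zero_iff, hb, LinearMap.baseChange_tmul, residual_repr_tmul]
    exact (residue_eq_zero_iff _).2 (h.1 τ hτ)
  · intro σ hσ v
    rw [mem_span_basis_zero_iff]
    have hlin : (bbar.coord 1) ∘ₗ ((r σ).baseChange (ResidueField A) - 1) = 0 := by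
      apply bbar.ext
      intro i
      rw [LinearMap.comp_apply, LinearMap.sub_apply, Module.End.one_apply, hb,
        LinearMap.baseChange_tmul, ← TensorProduct.tmul_sub, Module.Basis.coord_apply,
        residual_repr_tmul, LinearMap.zero_apply]
      exact (residue_eq_zero_iff _).2 (h.2 σ hσ (b i))
    have := LinearMap.congr_fun hlin v
    simpa using this

/-- Residual ordinarity at `P` gives the coordinate form for a suitable basis. -/
lemma exists_resOrdAt {V : Type} [AddCommGroup V] [Module A V] [Module.Free A V]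
    [Module.Finite A V]
    (r : (AlgebraicClosure ℚ ≃ₐ[ℚ] AlgebraicClosure ℚ) → Module.End A V)
    (P : ValuationSubring (AlgebraicClosure ℚ)) (h : ResOrdLine r P) :
    ∃ b : Module.Basis (Fin 2) A V, ResOrdAt r P b := by
  classical
  obtain ⟨L, ⟨bbar, rfl⟩, hD, hI⟩ := h
  have hsurj : Function.Surjective (TensorProduct.mk A (ResidueField A) V 1) :=
    TensorProduct.mk_surjective A V (ResidueField A) Ideal.Quotient.mk_surjective
  choose e he using fun i => hsurj (bbar i)
  have he' : ∀ i, (1 : ResidueField A) ⊗ₜ[A] e i = bbar i := he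
  have hcomp : (TensorProduct.mk A (ResidueField A) V 1) ∘ e = bbar := funext he
  have hli : LinearIndependent A e := by
    apply Module.IsLocalRing.linearIndependent_of_flat
    rw [hcomp]
    exact bbar.linearIndependent
  have hsp : Submodule.span A (Set.range e) = ⊤ :=
    IsLocalRing.span_eq_top_of_tmul_eq_basis e bbar he'
  let b : Module.Basis (Fin 2) A V := Module.Basis.mk hli hsp.ge
  have hbe : ∀ i, b i = e i := fun i => Module.Basis.mk_apply hli hsp.ge i
  have hbb : Algebra.TensorProduct.basis (ResidueField A) b = bbar := by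
    apply Module.Basis.eq_of_apply_eq
    intro i
    rw [Algebra.TensorProduct.basis_apply, hbe, he']
  refine ⟨b, ?_, ?_⟩
  · intro τ hτ
    have h1 := hD τ hτ (bbar 0) (Submodule.mem_span_singleton_self _)
    rw [mem_span_basis_zero_iff, ← he', LinearMap.baseChange_tmul, ← hbb,
      residual_repr_tmul] at h1
    rw [hbe]
    exact (residue_eq_zero_iff _).1 h1
  · intro σ hσ v
    have h1 := hI σ hσ ((1 : ResidueField A) ⊗ₜ[A] v)
    rw [mem_span_basis_zero_iff, LinearMap.baseChange_tmul, ← TensorProduct.tmul_sub, ← hbb,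
      residual_repr_tmul] at h1
    exact (residue_eq_zero_iff _).1 h1

/-- The coordinate form is preserved by base change. -/
lemma resOrdAt_baseChange [Algebra A B] [IsLocalHom (algebraMap A B)]
    {V : Type} [AddCommGroup V] [Module A V]
    (r : (AlgebraicClosure ℚ ≃ₐ[ℚ] AlgebraicClosure ℚ) → Module.End A V)
    (P : ValuationSubring (AlgebraicClosure ℚ)) (b : Module.Basis (Fin 2) A V)
    (h : ResOrdAt r P b) :
    ResOrdAt (fun σ => (r σ).baseChange B) P (Algebra.TensorProduct.basis B b) := by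
  set ψ := algebraMap A B with hψdef
  have hmem : ∀ a ∈ maximalIdeal A, ψ a ∈ maximalIdeal B := fun a ha =>
    (mem_maximalIdeal _).2 (map_nonunit ψ a ((mem_maximalIdeal _).1 ha))
  have hrepr : ∀ (c : B) (v : V) (i : Fin 2),
      (Algebra.TensorProduct.basis B b).repr (c ⊗ₜ[A] v) i = c * ψ (b.repr v i) := by
    intro c v i
    rw [Algebra.TensorProduct.basis_repr_tmul, Finsupp.smul_apply, Finsupp.mapRange_apply,
      smul_eq_mul]
  constructor
  · intro τ hτ
    rw [Algebra.TensorProduct.basis_apply]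
    show (Algebra.TensorProduct.basis B b).repr ((r τ).baseChange B (1 ⊗ₜ[A] b 0)) 1 ∈ _
    rw [LinearMap.baseChange_tmul, hrepr, one_mul]
    exact hmem _ (h.1 τ hτ)
  · intro σ hσ v
    show (Algebra.TensorProduct.basis B b).repr ((r σ).baseChange B v - v) 1 ∈ _
    induction v using TensorProduct.induction_on with
    | zero => simp
    | tmul c v =>
      rw [LinearMap.baseChange_tmul, ← TensorProduct.tmul_sub, hrepr]
      exact Ideal.mul_mem_left _ _ (hmem _ (h.2 σ hσ v))
    | add x y hx hy =>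
      rw [map_add, add_sub_add_comm, map_add, Finsupp.add_apply]
      exact Ideal.add_mem _ hx hy

/-- Residual ordinarity is preserved by base change along a local homomorphism. -/
theorem residual_isOrdinaryAt_baseChangeAlong (ψ : A →+* B) (hψ : IsLocalHom ψ)
    (ρ : GaloisRepAdic A) (p : ℕ)
    (h : (GaloisRepAdic.ofResidualGaloisRep ρ.residual).IsOrdinaryAt p) :
    (GaloisRepAdic.ofResidualGaloisRep (ρ.baseChangeAlong ψ hψ).residual).IsOrdinaryAt p := by
  rw [residual_isOrdinaryAt_iff] at h ⊢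
  intro P hP
  obtain ⟨b, hb⟩ := exists_resOrdAt _ P (h P hP)
  letI : Algebra A B := ψ.toAlgebra
  haveI : IsLocalHom (algebraMap A B) := hψ
  exact resOrdLine_of_resOrdAt _ P _ (resOrdAt_baseChange (B := B) _ P b hb)

end ResOrd

section Inertia

variable {N : ℕ} [NeZero N] {S : Finset ℕ}

/-- **Inertia at `p` acts non-trivially modulo the maximal ideal** on a representation with
Frobenius characteristic polynomials `X ^ 2 - π (T_ℓ) X + ℓ`: the determinant is the cyclotomic
character, which is non-trivial on inertia at the odd prime `p`. -/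
theorem exists_inertia_notMem (hFD : Stmt_FD) (hCyc : Stmt_CycInertia) (hFrob : Stmt_FrobCyc)
    {p : ℕ} (hp : p.Prime) (hp2 : p ≠ 2) (hpS : p ∈ S)
    (hNS : ∀ q : ℕ, q.Prime → q ∣ N → q ∈ S)
    {T : Type} [CommRing T] [IsLocalRing T] (hpT : (p : T) ∈ maximalIdeal T)
    (π : CuspForm.heckeAlgebra N 2 (↑S : Set ℕ) →+* T) (ρ : GaloisRepAdic T)
    (hρ : HasFrobCharpoly π ρ)
    (P : ValuationSubring (AlgebraicClosure ℚ)) (hP : P.LiesOverPrime p) :
    ∃ σ₀ ∈ P.inertiaSubgroupIn ℚ, ∃ v₀ : ρ.V,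
      ρ.ρ σ₀ v₀ - v₀ ∉ maximalIdeal T • (⊤ : Submodule T ρ.V) := by
  classical
  obtain ⟨σ₀, hσ₀, ζ, hζ, hne⟩ := hCyc p hp hp2 P hP
  refine ⟨σ₀, hσ₀, ?_⟩
  by_contra hcon
  rw [not_exists] at hcon
  have hall : ∀ v : ρ.V, ρ.ρ σ₀ v - v ∈ maximalIdeal T • (⊤ : Submodule T ρ.V) := fun v => by
    have := hcon v
    rwa [not_not] at this
  obtain ⟨L₁, hL₁, hcong⟩ := exists_field_congr ρ 1
  haveI : Algebra.IsAlgebraic ℚ (AlgebraicClosure ℚ) := AlgebraicClosure.isAlgebraic ℚ
  have hζalg : IsIntegral ℚ ζ := (Algebra.IsAlgebraic.isAlgebraic ζ).isIntegral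
  let L₂ : IntermediateField ℚ (AlgebraicClosure ℚ) := IntermediateField.adjoin ℚ {ζ}
  haveI : FiniteDimensional ℚ L₂ := IntermediateField.adjoin.finiteDimensional hζalg
  haveI : FiniteDimensional ℚ L₁ := hL₁
  have hL : FiniteDimensional ℚ (L₁ ⊔ L₂ : IntermediateField ℚ (AlgebraicClosure ℚ)) :=
    IntermediateField.finiteDimensional_sup L₁ L₂
  obtain ⟨D⟩ := FrobData.nonempty (N := N) hFD hNS (L₁ ⊔ L₂) hL σ₀
  have hℓp : D.ℓ ≠ p := fun h => D.notMem (by rw [h]; exact Finset.mem_coe.2 hpS)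
  have hcop : p.Coprime D.ℓ := (Nat.coprime_primes hp D.prime).2 (Ne.symm hℓp)
  -- the determinant
  have hdet := (charpoly_congr_of_frob ρ 1 hcong σ₀ D.σ D.j
    (fun x hx => D.agree x ((le_sup_left : L₁ ≤ L₁ ⊔ L₂) hx))
    (hρ D.ℓ D.prime D.notDvd D.notMem D.A D.liesOver D.σ D.frob)).2
  have hdet1 := (trace_det_congr (maximalIdeal T) (ρ.ρ σ₀) 1
    (fun v => by simpa using hall v)).2
  rw [pow_one] at hdet
  have hmem : ((D.ℓ : T)) ^ D.j - 1 ∈ maximalIdeal T := by
    have := Ideal.sub_mem _ hdet1 hdet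
    simpa using this
  -- the action on `ζ`
  have hσζ : ∀ x : AlgebraicClosure ℚ, x ^ p = 1 → D.σ x = x ^ D.ℓ := fun x hx =>
    hFrob D.ℓ D.prime D.A D.liesOver D.σ D.frob p hcop x hx
  have hpow : ∀ j : ℕ, ∀ x : AlgebraicClosure ℚ, x ^ p = 1 → (D.σ ^ j) x = x ^ (D.ℓ ^ j) := by
    intro j
    induction j with
    | zero => intro x _; simp
    | succ j ih =>
      intro x hx
      rw [pow_succ, AlgEquiv.mul_apply, hσζ x hx, ih (x ^ D.ℓ) (by rw [← pow_mul, mul_comm,
        pow_mul, hx, one_pow]), ← pow_mul, ← pow_succ']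
  have hζL : ζ ∈ (L₁ ⊔ L₂ : IntermediateField ℚ (AlgebraicClosure ℚ)) :=
    (le_sup_right : L₂ ≤ L₁ ⊔ L₂) (IntermediateField.mem_adjoin_simple_self ℚ ζ)
  have h1 : ζ ^ (D.ℓ ^ D.j) ≠ ζ := by
    rw [← hpow D.j ζ hζ, D.agree ζ hζL]
    exact hne
  have hndvd : ¬ (p ∣ D.ℓ ^ D.j - 1) := by
    rintro ⟨k, hk⟩
    apply h1
    have hpos : 1 ≤ D.ℓ ^ D.j := Nat.one_le_pow _ _ D.prime.pos
    have : D.ℓ ^ D.j = p * k + 1 := by omega
    rw [this, pow_succ, pow_mul, hζ, one_pow, one_mul]
  have hcop2 : Nat.Coprime p (D.ℓ ^ D.j - 1) := (Nat.Prime.coprime_iff_not_dvd hp).2 hndvd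
  have hone : (1 : T) ∈ maximalIdeal T := by
    have hb := Nat.isCoprime_iff_coprime.2 hcop2
    obtain ⟨a, b, hab⟩ := hb
    have hcast : ((a : ℤ) : T) * (p : T) + ((b : ℤ) : T) * ((D.ℓ : T) ^ D.j - 1) = 1 := by
      have hpos : 1 ≤ D.ℓ ^ D.j := Nat.one_le_pow _ _ D.prime.pos
      have := congrArg (fun z : ℤ => (z : T)) hab
      simp only [Int.cast_add, Int.cast_mul, Int.cast_natCast, Int.cast_one] at this
      rw [Nat.cast_sub hpos] at this
      simpa using this
    rw [← hcast]
    exact Ideal.add_mem _ (Ideal.mul_mem_left _ _ hpT) (Ideal.mul_mem_left _ _ hmem)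
  exact (Ideal.ne_top_iff_one _).1 (maximalIdeal.isMaximal T).ne_top hone

end Inertia

end Fermat.Agent.R.H86
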