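import Mathlib
import Fermat.Agent.S30.Defs
import Fermat.Agent.R.H89_Quad

/-!
# S30 wiring, WPs D and F in the exact shape of `Fermat/Agent/S30/Defs.lean`

* `stmt_LemmaB : Fermat.Agent.S30.Stmt_LemmaB`
* `stmt_CharSum : Fermat.Agent.S30.Stmt_CharSum`
-/

set_option autoImplicit false

open Polynomial

namespace Fermat.Agent.R.H89

open Fermat.Agent.S30

/-- **WP D (Lemma B)** in the exact interface shape. -/
theorem stmt_LemmaB : Stmt_LemmaB := by
  intro R _ _ G _ ρ ε hQ
  choose a ha using hQ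
  rcases lemmaB ρ ε a ha with h | h
  · exact Or.inr h
  · exact Or.inl (fun g => (h g).1)

/-- The diagonal representation `ψ ⊕ ε ψ⁻¹`. -/
noncomputable def h89CharSum {R : Type} [CommRing R] {G : Type} [Group G] (ψ ε : G →* Rˣ) :
    G →* Matrix (Fin 2) (Fin 2) R where
  toFun g := Matrix.diagonal ![(ψ g : R), ((ε g * (ψ g)⁻¹ : Rˣ) : R)]
  map_one' := by
    ext i j
    fin_cases i <;> fin_cases j <;> simp
  map_mul' g h := by
    rw [Matrix.diagonal_mul_diagonal]
    congr 1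
    ext i
    fin_cases i
    · simp
    · simp only [map_mul, mul_inv_rev, Units.val_mul]
      simp
      ring

/-- **WP F (CharSum)** in the exact interface shape. -/
theorem stmt_CharSum : Stmt_CharSum := by
  intro R _ G _ ψ ε
  refine ⟨h89CharSum ψ ε, fun g => rfl, ?_⟩
  intro g a ℓ h hℓ
  rcases subsingleton_or_nontrivial R with hR | hR
  · exact Subsingleton.elim _ _
  · have h1 : (h89CharSum ψ ε g) =
        Matrix.diagonal ![(ψ g : R), ((ε g * (ψ g)⁻¹ : Rˣ) : R)] := rfl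
    rw [Matrix.charpoly_fin_two, h1]
    have hdet : (Matrix.diagonal ![(ψ g : R), ((ε g * (ψ g)⁻¹ : Rˣ) : R)]).det = ℓ := by
      rw [Matrix.det_diagonal, Fin.prod_univ_two]
      simp only [Matrix.cons_val_zero, Matrix.cons_val_one]
      rw [← hℓ, ← Units.val_mul]
      congr 1
      rw [mul_comm, mul_assoc, inv_mul_cancel, mul_one]
    have htr : (Matrix.diagonal ![(ψ g : R), ((ε g * (ψ g)⁻¹ : Rˣ) : R)]).trace = a := by
      rw [Matrix.trace_diagonal, Fin.sum_univ_two]
      simp only [Matrix.cons_val_zero, Matrix.cons_val_one]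
      -- ψ + ε ψ⁻¹ = a  from  ψ² - a ψ + ε = 0
      have hu : ((ψ g : Rˣ) : R) * ((ψ g)⁻¹ : Rˣ) = 1 := by
        rw [← Units.val_mul, mul_inv_cancel, Units.val_one]
      have h2 : ((ψ g : Rˣ) : R) * ((ψ g : R) + ((ε g * (ψ g)⁻¹ : Rˣ) : R) - a) = 0 := by
        rw [Units.val_mul]
        calc ((ψ g : Rˣ) : R) * ((ψ g : R) + (ε g : R) * ((ψ g)⁻¹ : Rˣ) - a)
            = ((ψ g : R) * ψ g - a * ψ g) + (ε g : R) * ((ψ g : R) * ((ψ g)⁻¹ : Rˣ)) := by ring
          _ = ((ψ g : R) * ψ g - a * ψ g) + (ε g : R) := by rw [hu, mul_one]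
          _ = 0 := h
      have h3 := (Units.mul_right_eq_zero (ψ g)).1 h2
      exact sub_eq_zero.1 h3
    rw [hdet, htr]

end Fermat.Agent.R.H89
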