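import Mathlib
import Fermat.Agent.R.H2_PDVR

/-!
# Cluster R, leaf L3c (helper2): `p`-adic separation of a reduced order by DVR points — core

`T` a commutative ring, finite and free over `ℤ`, reduced; `p` a prime.  Then there are finitely
many ring homomorphisms `χ_i : T → O_i` to complete discrete valuation rings (characteristic `0`,
finite residue field, `p ∈ 𝔪`) and a constant `c` such that
`(∀ i, χ_i y ∈ (p ^ (m + c))) → y ∈ (p ^ m)`.

Route: `A = ℤ_[p] ⊗ T` is reduced (étale base change), so it embeds in the product of the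
normalisations `O_𝔮` of `A ⧸ 𝔮` (`𝔮` minimal primes, leaf L3b/L4); a noetherian argument gives
the constant `c`.
-/

set_option autoImplicit false
set_option linter.style.haveILetI false
set_option linter.unusedSectionVars false
set_option linter.dupNamespace false

open IsLocalRing TensorProduct

namespace Fermat.Agent.R.H2

/-! ## Piece 1: the noetherian lemma -/

/-- If `Χ : M → W` is injective and `W` is noetherian, divisibility by `π ^ (m + c)` in `W`
implies divisibility by `π ^ m` in `M`. -/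
theorem exists_pow_smul_bound {O : Type*} [CommRing O] (π : O) {M W : Type*}
    [AddCommGroup M] [Module O M] [AddCommGroup W] [Module O W] [IsNoetherian O W]
    (Χ : M →ₗ[O] W) (hΧ : Function.Injective Χ) :
    ∃ c : ℕ, ∀ (m : ℕ) (x : M), (∃ w : W, Χ x = π ^ (m + c) • w) → ∃ x' : M, x = π ^ m • x' := by
  -- the chain `N k = {w | π ^ k • w ∈ range Χ}`
  let f : ℕ →o Submodule O W :=
    { toFun := fun k => (LinearMap.range Χ).comap (LinearMap.lsmul O W (π ^ k))
      monotone' := by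
        intro a b hab w hw
        rw [Submodule.mem_comap] at hw ⊢
        obtain ⟨d, rfl⟩ := Nat.exists_eq_add_of_le hab
        have : (LinearMap.lsmul O W (π ^ (a + d))) w
            = π ^ d • (LinearMap.lsmul O W (π ^ a)) w := by
          simp only [LinearMap.lsmul_apply, smul_smul, pow_add, mul_comm]
        rw [this]
        exact Submodule.smul_mem _ _ hw }
  obtain ⟨c, hc⟩ := monotone_stabilizes_iff_noetherian.mpr (inferInstance : IsNoetherian O W) f
  refine ⟨c, fun m x ⟨w, hw⟩ => ?_⟩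
  have h1 : w ∈ f (m + c) := by
    show (LinearMap.lsmul O W (π ^ (m + c))) w ∈ LinearMap.range Χ
    rw [LinearMap.lsmul_apply, ← hw]
    exact ⟨x, rfl⟩
  rw [← hc (m + c) (Nat.le_add_left c m)] at h1
  obtain ⟨x', hx'⟩ := h1
  refine ⟨x', hΧ ?_⟩
  rw [map_smul, hx', hw, LinearMap.lsmul_apply, smul_smul, pow_add]

/-! ## Piece 2: descent of divisibility from `ℤ_[p] ⊗ T` to `T` -/

section descent

variable (p : ℕ) [Fact p.Prime] (T : Type) [CommRing T] [Module.Free ℤ T] [Module.Finite ℤ T]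

theorem mem_span_pow_of_tmul_eq (m : ℕ) (y : T) (a : ℤ_[p] ⊗[ℤ] T)
    (h : (1 : ℤ_[p]) ⊗ₜ[ℤ] y = (p : ℤ_[p]) ^ m • a) :
    y ∈ Ideal.span {(p : T) ^ m} := by
  classical
  let b := Module.Free.chooseBasis ℤ T
  let B := Algebra.TensorProduct.basis ℤ_[p] b
  have hcoord : ∀ i, ((b.repr y i : ℤ) : ℤ_[p]) = (p : ℤ_[p]) ^ m * B.repr a i := by
    intro i
    have h1 := congrArg (fun z => B.repr z i) h
    simp only [B, Algebra.TensorProduct.basis_repr_tmul, map_smul, Finsupp.smul_apply,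
      smul_eq_mul, one_mul, Finsupp.mapRange_apply, eq_intCast] at h1
    exact h1
  have hdvd : ∀ i, ((p : ℤ) ^ m) ∣ b.repr y i := by
    intro i
    rw [← PadicInt.pow_p_dvd_int_iff]
    exact ⟨_, hcoord i⟩
  choose z hz using hdvd
  rw [Ideal.mem_span_singleton]
  refine ⟨∑ i, z i • b i, ?_⟩
  rw [← b.sum_repr y, Finset.mul_sum]
  refine Finset.sum_congr rfl fun i _ => ?_
  rw [hz i, mul_smul, zsmul_eq_mul, zsmul_eq_mul]
  push_cast
  ring

end descent

/-! ## Piece 3: `ℤ_[p] ⊗ T` is reduced -/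

section reduced

variable (T : Type) [CommRing T] [Module.Free ℤ T] [Module.Finite ℤ T] [IsReduced T]

attribute [local instance] Algebra.TensorProduct.rightAlgebra in
theorem isReduced_rat_tensor : IsReduced (ℚ ⊗[ℤ] T) := by
  haveI : IsLocalization (Algebra.algebraMapSubmonoid T (nonZeroDivisors ℤ)) (ℚ ⊗[ℤ] T) :=
    IsLocalization.tensorRight (R := ℤ) (S := T) ℚ (nonZeroDivisors ℤ)
  exact isReduced_localizationPreserves (Algebra.algebraMapSubmonoid T (nonZeroDivisors ℤ))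
    (ℚ ⊗[ℤ] T) inferInstance

theorem formallyEtale_rat_tensor : Algebra.FormallyEtale ℚ (ℚ ⊗[ℤ] T) := by
  haveI := isReduced_rat_tensor T
  haveI : IsArtinianRing (ℚ ⊗[ℤ] T) := IsArtinianRing.of_finite ℚ _
  letI (I : MaximalSpectrum (ℚ ⊗[ℤ] T)) : Field ((ℚ ⊗[ℤ] T) ⧸ I.asIdeal) :=
    Ideal.Quotient.field I.asIdeal
  rw [Algebra.FormallyEtale.iff_exists_algEquiv_prod]
  exact ⟨MaximalSpectrum (ℚ ⊗[ℤ] T), inferInstance, fun I => (ℚ ⊗[ℤ] T) ⧸ I.asIdeal,
    inferInstance, inferInstance, (IsArtinianRing.equivPi (ℚ ⊗[ℤ] T)).restrictScalars ℚ,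
    fun I => inferInstance⟩

theorem isReduced_padic_tensor_rat (p : ℕ) [Fact p.Prime] :
    IsReduced (ℚ_[p] ⊗[ℚ] (ℚ ⊗[ℤ] T)) := by
  haveI := formallyEtale_rat_tensor T
  exact Algebra.FormallyUnramified.isReduced_of_field ℚ_[p] (ℚ_[p] ⊗[ℚ] (ℚ ⊗[ℤ] T))

theorem isReduced_padicRat_tensor (p : ℕ) [Fact p.Prime] : IsReduced (ℚ_[p] ⊗[ℤ] T) := by
  haveI := isReduced_padic_tensor_rat T p
  exact isReduced_of_injective
    (Algebra.TensorProduct.cancelBaseChange ℤ ℚ ℚ_[p] ℚ_[p] T).symm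
    (Algebra.TensorProduct.cancelBaseChange ℤ ℚ ℚ_[p] ℚ_[p] T).symm.injective

theorem isReduced_padicInt_tensor (p : ℕ) [Fact p.Prime] : IsReduced (ℤ_[p] ⊗[ℤ] T) := by
  haveI := isReduced_padicRat_tensor T p
  let f : ℤ_[p] →ₐ[ℤ] ℚ_[p] := (algebraMap ℤ_[p] ℚ_[p]).toIntAlgHom
  have hf : Function.Injective f := IsFractionRing.injective ℤ_[p] ℚ_[p]
  let g : (ℤ_[p] ⊗[ℤ] T) →ₐ[ℤ] (ℚ_[p] ⊗[ℤ] T) := Algebra.TensorProduct.map f (AlgHom.id ℤ T)
  have hg : Function.Injective g := by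
    have h1 : Function.Injective (LinearMap.rTensor T f.toLinearMap) :=
      Module.Flat.rTensor_preserves_injective_linearMap _ hf
    have h2 : ⇑g = ⇑(LinearMap.rTensor T f.toLinearMap) := by
      ext x
      induction x using TensorProduct.induction_on with
      | zero => simp
      | tmul a t => simp [g]
      | add x y hx hy => simp only [map_add, hx, hy]
    rw [h2]; exact h1
  exact isReduced_of_injective g hg

end reduced

/-! ## Piece 4: the points and the assembly -/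

/-- A point of `T` with values in a complete DVR of characteristic `0`, residue characteristic
`p`, finite residue field. -/
structure DVRPoint (p : ℕ) (T : Type) [CommRing T] : Type 1 where
  /-- the coefficient ring -/
  R : Type
  [instCommRing : CommRing R]
  [instIsDomain : IsDomain R]
  [instDVR : IsDiscreteValuationRing R]
  [instComplete : IsAdicComplete (IsLocalRing.maximalIdeal R) R]
  [instFiniteResidue : Finite (IsLocalRing.ResidueField R)]
  [instCharZero : CharZero R]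
  hp : (p : R) ∈ IsLocalRing.maximalIdeal R
  /-- the point -/
  χ : T →+* R

attribute [instance] DVRPoint.instCommRing DVRPoint.instIsDomain DVRPoint.instDVR
  DVRPoint.instComplete DVRPoint.instFiniteResidue DVRPoint.instCharZero

/-- Normalisation data of a finite faithful domain `B` over `O`. -/
structure NormPoint (O : Type) [CommRing O] (B : Type) [CommRing B] [Algebra O B] : Type 1 where
  /-- the coefficient ring -/
  R : Type
  [instCommRing : CommRing R]
  [instIsDomain : IsDomain R]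
  [instDVR : IsDiscreteValuationRing R]
  [instComplete : IsAdicComplete (IsLocalRing.maximalIdeal R) R]
  [instFiniteResidue : Finite (IsLocalRing.ResidueField R)]
  [instCharZero : CharZero R]
  [instAlgebra : Algebra O R]
  [instFinite : Module.Finite O R]
  [instLocalHom : IsLocalHom (algebraMap O R)]
  /-- the embedding -/
  j : B →+* R
  hj : Function.Injective j
  hjO : ∀ a : O, j (algebraMap O B a) = algebraMap O R a

attribute [instance] NormPoint.instCommRing NormPoint.instIsDomain NormPoint.instDVR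
  NormPoint.instComplete NormPoint.instFiniteResidue NormPoint.instCharZero
  NormPoint.instAlgebra NormPoint.instFinite NormPoint.instLocalHom

theorem nonempty_normPoint (O : Type) [CommRing O] [IsDomain O] [IsDiscreteValuationRing O]
    [IsAdicComplete (maximalIdeal O) O] [Finite (ResidueField O)] [CharZero O]
    (B : Type) [CommRing B] [IsDomain B] [Algebra O B] [Module.Finite O B] [FaithfulSMul O B] :
    Nonempty (NormPoint O B) := by
  obtain ⟨O', iCR, iD, iDVR, iAC, iFin, iCZ, iAlg, iMF, iLH, j, -, hjinj, hjO, -⟩ :=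
    exists_dvr_of_finite_domain O B
  exact ⟨{ R := O', j := j, hj := hjinj, hjO := hjO }⟩

section faithful

variable (p : ℕ) [Fact p.Prime] (A : Type) [CommRing A] [Algebra ℤ_[p] A]
  [Module.IsTorsionFree ℤ_[p] A]

/-- `ℤ_[p]` injects into the quotient of a torsion-free algebra by a minimal prime. -/
theorem injective_algebraMap_quotient_minimalPrime (𝔮 : Ideal A) (h𝔮 : 𝔮 ∈ minimalPrimes A) :
    Function.Injective (algebraMap ℤ_[p] (A ⧸ 𝔮)) := by
  haveI h𝔮prime : 𝔮.IsPrime := h𝔮.1.1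
  have hpnzd : (p : A) ∈ nonZeroDivisors A := by
    rw [mem_nonZeroDivisors_iff_right]
    intro x hx
    have h1 : (p : ℤ_[p]) • x = 0 := by
      rw [Nat.cast_smul_eq_nsmul, nsmul_eq_mul, mul_comm]; exact hx
    have hp0 : (p : ℤ_[p]) ≠ 0 := by
      exact_mod_cast (Fact.out : p.Prime).ne_zero
    exact (smul_eq_zero.mp h1).resolve_left hp0
  have hp𝔮 : (p : A) ∉ 𝔮 := fun h =>
    Set.disjoint_left.1 (Ideal.disjoint_nonZeroDivisors_of_mem_minimalPrimes h𝔮) h hpnzd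
  rw [RingHom.injective_iff_ker_eq_bot]
  by_contra hne
  have hprime : (RingHom.ker (algebraMap ℤ_[p] (A ⧸ 𝔮))).IsPrime := RingHom.ker_isPrime _
  have hmax := hprime.isMaximal hne
  have heq := IsLocalRing.eq_maximalIdeal hmax
  have hpm : (p : ℤ_[p]) ∈ maximalIdeal ℤ_[p] := by
    rw [PadicInt.maximalIdeal_eq_span_p]
    exact Ideal.subset_span rfl
  rw [← heq, RingHom.mem_ker, map_natCast] at hpm
  have : (p : A) ∈ 𝔮 := by
    rw [← Ideal.Quotient.eq_zero_iff_mem, map_natCast]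
    exact hpm
  exact hp𝔮 this

end faithful

section assembly

variable (p : ℕ) [Fact p.Prime] (T : Type) [CommRing T] [Module.Free ℤ T] [Module.Finite ℤ T]
  [IsReduced T]

/-- **Core of L3c**: `p`-adic separation of a reduced order by finitely many DVR points. -/
theorem exists_sep :
    ∃ (ι : Type) (_ : Finite ι) (P : ι → DVRPoint p T) (c : ℕ),
      ∀ (m : ℕ) (y : T), (∀ i, (P i).χ y ∈ Ideal.span {((p : (P i).R)) ^ (m + c)}) →
        y ∈ Ideal.span {(p : T) ^ m} := by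
  classical
  haveI : IsReduced (ℤ_[p] ⊗[ℤ] T) := isReduced_padicInt_tensor T p
  haveI : IsNoetherianRing (ℤ_[p] ⊗[ℤ] T) := IsNoetherianRing.of_finite ℤ_[p] _
  have hfin : (minimalPrimes (ℤ_[p] ⊗[ℤ] T)).Finite :=
    minimalPrimes.finite_of_isNoetherianRing _
  haveI : Finite ↥(minimalPrimes (ℤ_[p] ⊗[ℤ] T)) := hfin.to_subtype
  haveI : Fintype ↥(minimalPrimes (ℤ_[p] ⊗[ℤ] T)) := Fintype.ofFinite _
  haveI hprime (𝔮 : ↥(minimalPrimes (ℤ_[p] ⊗[ℤ] T))) : (𝔮 : Ideal (ℤ_[p] ⊗[ℤ] T)).IsPrime :=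
    𝔮.2.1.1
  haveI hfaith (𝔮 : ↥(minimalPrimes (ℤ_[p] ⊗[ℤ] T))) :
      FaithfulSMul ℤ_[p] ((ℤ_[p] ⊗[ℤ] T) ⧸ (𝔮 : Ideal (ℤ_[p] ⊗[ℤ] T))) :=
    (faithfulSMul_iff_algebraMap_injective _ _).2
      (injective_algebraMap_quotient_minimalPrime p _ 𝔮.1 𝔮.2)
  -- the normalisations
  let D (𝔮 : ↥(minimalPrimes (ℤ_[p] ⊗[ℤ] T))) :
      NormPoint ℤ_[p] ((ℤ_[p] ⊗[ℤ] T) ⧸ (𝔮 : Ideal (ℤ_[p] ⊗[ℤ] T))) :=
    Classical.choice (nonempty_normPoint ℤ_[p] _)
  -- the map to the product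
  let F (𝔮 : ↥(minimalPrimes (ℤ_[p] ⊗[ℤ] T))) : (ℤ_[p] ⊗[ℤ] T) →ₐ[ℤ_[p]] (D 𝔮).R :=
    { toRingHom := (D 𝔮).j.comp (Ideal.Quotient.mk _)
      commutes' := fun a => (D 𝔮).hjO a }
  let Χ : (ℤ_[p] ⊗[ℤ] T) →ₗ[ℤ_[p]] (∀ 𝔮 : ↥(minimalPrimes (ℤ_[p] ⊗[ℤ] T)), (D 𝔮).R) :=
    LinearMap.pi fun 𝔮 => (F 𝔮).toLinearMap
  have hΧ : Function.Injective Χ := by
    rw [injective_iff_map_eq_zero]
    intro x hx
    have hmem : ∀ 𝔮 ∈ minimalPrimes (ℤ_[p] ⊗[ℤ] T), x ∈ 𝔮 := by
      intro 𝔮 h𝔮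
      have h1 := congrFun hx ⟨𝔮, h𝔮⟩
      have h2 : (D ⟨𝔮, h𝔮⟩).j (Ideal.Quotient.mk _ x) = 0 := h1
      have h3 := (D ⟨𝔮, h𝔮⟩).hj (h2.trans (map_zero _).symm)
      exact Ideal.Quotient.eq_zero_iff_mem.mp h3
    have h4 : x ∈ sInf (minimalPrimes (ℤ_[p] ⊗[ℤ] T)) := by
      rw [Submodule.mem_sInf]
      exact hmem
    have h5 : sInf (minimalPrimes (ℤ_[p] ⊗[ℤ] T)) = nilradical (ℤ_[p] ⊗[ℤ] T) := by
      rw [minimalPrimes, Ideal.sInf_minimalPrimes]; rfl
    rw [h5, nilradical_eq_zero] at h4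
    exact h4
  haveI : IsNoetherian ℤ_[p] (∀ 𝔮 : ↥(minimalPrimes (ℤ_[p] ⊗[ℤ] T)), (D 𝔮).R) :=
    isNoetherian_of_isNoetherianRing_of_finite ℤ_[p] _
  obtain ⟨c, hc⟩ := exists_pow_smul_bound (p : ℤ_[p]) Χ hΧ
  -- the points
  let ι : T →+* ℤ_[p] ⊗[ℤ] T := (Algebra.TensorProduct.includeRight (R := ℤ) (A := ℤ_[p])
    (B := T)).toRingHom
  have hpm : (p : ℤ_[p]) ∈ maximalIdeal ℤ_[p] := by
    rw [PadicInt.maximalIdeal_eq_span_p]
    exact Ideal.subset_span rfl
  let P (𝔮 : ↥(minimalPrimes (ℤ_[p] ⊗[ℤ] T))) : DVRPoint p T :=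
    { R := (D 𝔮).R
      hp := by
        have : algebraMap ℤ_[p] (D 𝔮).R (p : ℤ_[p]) ∈ maximalIdeal (D 𝔮).R := by
          rw [IsLocalRing.mem_maximalIdeal, mem_nonunits_iff] at hpm ⊢
          exact fun h => hpm (isUnit_of_map_unit (algebraMap ℤ_[p] (D 𝔮).R) _ h)
        rwa [map_natCast] at this
      χ := ((D 𝔮).j.comp (Ideal.Quotient.mk _)).comp ι }
  refine ⟨↥(minimalPrimes (ℤ_[p] ⊗[ℤ] T)), inferInstance, P, c, fun m y hy => ?_⟩
  choose w hw using fun 𝔮 => Ideal.mem_span_singleton'.mp (hy 𝔮)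
  have hX : Χ ((1 : ℤ_[p]) ⊗ₜ[ℤ] y) = (p : ℤ_[p]) ^ (m + c) • w := by
    funext 𝔮
    show (P 𝔮).χ y = ((p : ℤ_[p]) ^ (m + c) • w) 𝔮
    rw [Pi.smul_apply, Algebra.smul_def, map_pow, map_natCast, ← hw 𝔮, mul_comm]
  obtain ⟨x', hx'⟩ := hc m _ ⟨w, hX⟩
  exact mem_span_pow_of_tmul_eq p T m y x' hx'

end assembly

end Fermat.Agent.R.H2
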