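import Mathlib
import Fermat.Agent.R.H2_SepCore

/-!
# Cluster R (helper2): the local Hecke algebra `T` of a Hecke–Galois datum is reduced and is
separated by its points in complete discrete valuation rings — core (no Hecke algebra here)

* `isReduced_of_adjoin_eq_top` : a `K`-algebra (`K` a field of characteristic `0`) generated by
  the image of a reduced ring which is finite free over `ℤ` is reduced.
* `isReduced_of_free_of_adjoin_eq_top` : an algebra `T`, free over a domain `O` of
  characteristic `0`, generated by the image of such a ring, is reduced.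
* `exists_point_ne_zero` : if moreover `O` is a complete DVR with finite residue field and `T`
  is local and finite over `O`, every `t ≠ 0` is non-zero at some local homomorphism to a
  complete DVR (characteristic `0`, finite residue field).
-/

set_option autoImplicit false
set_option linter.style.haveILetI false
set_option linter.unusedSectionVars false
set_option linter.dupNamespace false

open IsLocalRing TensorProduct

namespace Fermat.Agent.R.H2

section reducedK

variable (𝕋 : Type) [CommRing 𝕋] [Module.Free ℤ 𝕋] [Module.Finite ℤ 𝕋] [IsReduced 𝕋]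
  (K : Type) [Field K] [CharZero K]
  (R : Type) [CommRing R] [Algebra K R]

/-- A `K`-algebra generated by the image of a reduced order is reduced (`K` of
characteristic `0`). -/
theorem isReduced_of_adjoin_eq_top (π : 𝕋 →+* R)
    (hgen : Algebra.adjoin K (Set.range π) = ⊤) : IsReduced R := by
  letI : Algebra ℚ R := ((algebraMap K R).comp (algebraMap ℚ K)).toAlgebra
  haveI : IsScalarTower ℚ K R := IsScalarTower.of_algebraMap_eq (fun _ => rfl)
  haveI := formallyEtale_rat_tensor 𝕋
  let g : (ℚ ⊗[ℤ] 𝕋) →ₐ[ℚ] R :=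
    Algebra.TensorProduct.lift (Algebra.ofId ℚ R) π.toIntAlgHom (fun _ _ => Commute.all _ _)
  let Ψ : (K ⊗[ℚ] (ℚ ⊗[ℤ] 𝕋)) →ₐ[K] R :=
    Algebra.TensorProduct.lift (Algebra.ofId K R) g (fun _ _ => Commute.all _ _)
  have hΨ : Function.Surjective Ψ := by
    rw [← AlgHom.range_eq_top, eq_top_iff, ← hgen]
    apply Algebra.adjoin_le
    rintro _ ⟨t, rfl⟩
    refine ⟨(1 : K) ⊗ₜ[ℚ] ((1 : ℚ) ⊗ₜ[ℤ] t), ?_⟩
    simp [Ψ, g]
  haveI h1 : Algebra.FormallyUnramified ℚ (ℚ ⊗[ℤ] 𝕋) := inferInstance
  haveI h2 : Algebra.FormallyUnramified K (K ⊗[ℚ] (ℚ ⊗[ℤ] 𝕋)) := inferInstance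
  haveI : Algebra.FormallyUnramified K R :=
    Algebra.FormallyUnramified.of_surjective (R := K) (A := K ⊗[ℚ] (ℚ ⊗[ℤ] 𝕋)) (B := R) Ψ hΨ
  haveI : Module.Finite K R := Module.Finite.of_surjective Ψ.toLinearMap hΨ
  exact Algebra.FormallyUnramified.isReduced_of_field K R

end reducedK

section reducedO

variable (𝕋 : Type) [CommRing 𝕋] [Module.Free ℤ 𝕋] [Module.Finite ℤ 𝕋] [IsReduced 𝕋]
  (O : Type) [CommRing O] [IsDomain O] [CharZero O]
  (T : Type) [CommRing T] [Algebra O T] [Module.Flat O T]

/-- An algebra, flat over a domain `O` of characteristic `0`, generated over `O` by the image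
of a reduced order, is reduced. -/
theorem isReduced_of_flat_of_adjoin_eq_top (π : 𝕋 →+* T)
    (hgen : Algebra.adjoin O (Set.range π) = ⊤) : IsReduced T := by
  haveI : CharZero (FractionRing O) :=
    charZero_of_injective_algebraMap (IsFractionRing.injective O (FractionRing O))
  let ι : T →ₐ[O] (FractionRing O) ⊗[O] T := Algebra.TensorProduct.includeRight
  have hι : Function.Injective ι :=
    Algebra.TensorProduct.includeRight_injective (IsFractionRing.injective O (FractionRing O))
  let π' : 𝕋 →+* (FractionRing O) ⊗[O] T := ι.toRingHom.comp π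
  have hmem : ∀ x : T, ι x ∈ Algebra.adjoin (FractionRing O) (Set.range π') := by
    let S' : Subalgebra O T :=
      ((Algebra.adjoin (FractionRing O) (Set.range π')).restrictScalars O).comap ι
    have hle : Algebra.adjoin O (Set.range π) ≤ S' := by
      apply Algebra.adjoin_le
      rintro _ ⟨t, rfl⟩
      exact Algebra.subset_adjoin ⟨t, rfl⟩
    intro x
    have hx : x ∈ S' := hle (hgen ▸ Algebra.mem_top)
    exact hx
  have hgen' : Algebra.adjoin (FractionRing O) (Set.range π') = ⊤ := by
    rw [eq_top_iff]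
    rintro z -
    induction z using TensorProduct.induction_on with
    | zero => exact Subalgebra.zero_mem _
    | tmul k x =>
      have h1 : k ⊗ₜ[O] x = k • ι x := by
        simp [ι, TensorProduct.smul_tmul']
      rw [h1]
      exact Subalgebra.smul_mem _ (hmem x) k
    | add a b ha hb => exact Subalgebra.add_mem _ ha hb
  haveI : IsReduced ((FractionRing O) ⊗[O] T) :=
    isReduced_of_adjoin_eq_top 𝕋 (FractionRing O) _ π' hgen'
  exact isReduced_of_injective ι hι

end reducedO

section point

variable (O : Type) [CommRing O] [IsDomain O] [IsDiscreteValuationRing O]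
  [IsAdicComplete (maximalIdeal O) O] [Finite (ResidueField O)] [CharZero O]
  (T : Type) [CommRing T] [Algebra O T] [Module.Finite O T] [Module.Free O T]

/-- `O` injects into the quotient of a torsion-free algebra by a minimal prime. -/
theorem injective_algebraMap_quotient_minimalPrime' (𝔮 : Ideal T) (h𝔮 : 𝔮 ∈ minimalPrimes T) :
    Function.Injective (algebraMap O (T ⧸ 𝔮)) := by
  haveI h𝔮prime : 𝔮.IsPrime := h𝔮.1.1
  rw [injective_iff_map_eq_zero]
  intro a ha
  by_contra ha0
  have hnzd : algebraMap O T a ∈ nonZeroDivisors T := by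
    rw [mem_nonZeroDivisors_iff_right]
    intro x hx
    have h1 : a • x = 0 := by
      rw [Algebra.smul_def, mul_comm]; exact hx
    exact (smul_eq_zero.mp h1).resolve_left ha0
  have hmem : algebraMap O T a ∈ 𝔮 := by
    rw [← Ideal.Quotient.eq_zero_iff_mem]
    rw [IsScalarTower.algebraMap_apply O T (T ⧸ 𝔮)] at ha
    exact ha
  exact Set.disjoint_left.1 (Ideal.disjoint_nonZeroDivisors_of_mem_minimalPrimes h𝔮) hmem hnzd

variable [IsLocalRing T] [IsReduced T]

include O in
/-- The points of a reduced local finite free `O`-algebra in complete discrete valuation rings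
separate its elements. -/
theorem exists_point_ne_zero (t : T) (ht : t ≠ 0) :
    ∃ (O' : Type) (_ : CommRing O') (_ : IsDomain O') (_ : IsDiscreteValuationRing O')
      (_ : IsAdicComplete (maximalIdeal O') O') (_ : Finite (ResidueField O'))
      (_ : CharZero O') (ψ : T →+* O'), IsLocalHom ψ ∧ ψ t ≠ 0 := by
  classical
  -- a minimal prime avoiding `t`
  obtain ⟨𝔮, h𝔮min, ht𝔮⟩ : ∃ 𝔮 ∈ minimalPrimes T, t ∉ 𝔮 := by
    by_contra hcon
    push Not at hcon
    have h1 : t ∈ sInf (minimalPrimes T) := by
      rw [Ideal.mem_sInf]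
      intro 𝔮 h𝔮
      exact hcon 𝔮 h𝔮
    have h2 : sInf (minimalPrimes T) = (⊥ : Ideal T) := by
      have := Ideal.sInf_minimalPrimes (I := (⊥ : Ideal T))
      rw [minimalPrimes]
      rw [this]
      exact nilradical_eq_zero T
    rw [h2] at h1
    exact ht ((Submodule.mem_bot T).1 h1)
  haveI h𝔮prime : 𝔮.IsPrime := h𝔮min.1.1
  have hinj : Function.Injective (algebraMap O (T ⧸ 𝔮)) :=
    injective_algebraMap_quotient_minimalPrime' O T 𝔮 h𝔮min
  haveI : FaithfulSMul O (T ⧸ 𝔮) := (faithfulSMul_iff_algebraMap_injective O (T ⧸ 𝔮)).2 hinj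
  obtain ⟨O', iCR, iD, iDVR, iAC, iFin, iCZ, iAlg, iMF, iLH, j, -, hjinj, -, hjmax⟩ :=
    exists_dvr_of_finite_domain O (T ⧸ 𝔮)
  refine ⟨O', iCR, iD, iDVR, iAC, iFin, iCZ, j.comp (Ideal.Quotient.mk 𝔮), ?_, ?_⟩
  · -- local homomorphism
    obtain ⟨𝔫, h𝔫⟩ := Ideal.exists_maximal (T ⧸ 𝔮)
    have h1 : (maximalIdeal O').comap j = 𝔫 := hjmax 𝔫 h𝔫
    have h2 : (𝔫.comap (Ideal.Quotient.mk 𝔮)).IsMaximal :=
      Ideal.comap_isMaximal_of_surjective _ Ideal.Quotient.mk_surjective
    have h3 : 𝔫.comap (Ideal.Quotient.mk 𝔮) = maximalIdeal T := IsLocalRing.eq_maximalIdeal h2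
    constructor
    intro x hx
    by_contra hxu
    have hxm : x ∈ maximalIdeal T := (IsLocalRing.mem_maximalIdeal x).2 hxu
    rw [← h3, Ideal.mem_comap, ← h1, Ideal.mem_comap] at hxm
    exact (IsLocalRing.mem_maximalIdeal _).1 hxm hx
  · intro h0
    rw [RingHom.comp_apply] at h0
    have h1 : Ideal.Quotient.mk 𝔮 t = 0 := hjinj (h0.trans (map_zero j).symm)
    exact ht𝔮 (Ideal.Quotient.eq_zero_iff_mem.1 h1)

end point

end Fermat.Agent.R.H2
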