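import Fermat.Agent.R.Defs

/-!
# Cluster R: leaf packages (exact statements)

Owners (see `NOTES/plan/R.md`):
* `Stmt_PDVR`         (L3b) helper25
* `Stmt_HeckeReduced` (L3a) helper58
* `Stmt_EigenChar`    (L5(0)) helper99
-/

set_option autoImplicit false

namespace Fermat.Agent.R

/-- **L3b (P-DVR).**  A maximal ideal `P` of a domain `R` that is finite over `ℤ` and of
characteristic `0` is cut out by an injective map to a complete discrete valuation ring of
characteristic `0` with finite residue field (completion of the ring of integers of `Frac R`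
at a prime above `P`). -/
def Stmt_PDVR : Prop :=
  ∀ (R : Type) [CommRing R] [IsDomain R] [CharZero R] [Module.Finite ℤ R]
    (P : Ideal R) [P.IsMaximal],
    ∃ (𝒪 : Type) (_ : CommRing 𝒪) (_ : IsDomain 𝒪) (_ : IsDiscreteValuationRing 𝒪)
      (_ : IsAdicComplete (IsLocalRing.maximalIdeal 𝒪) 𝒪)
      (_ : Finite (IsLocalRing.ResidueField 𝒪)) (_ : CharZero 𝒪) (ι : R →+* 𝒪),
      Function.Injective ι ∧ (IsLocalRing.maximalIdeal 𝒪).comap ι = P

/-- **L3a (the Hecke algebra away from the level is reduced).**  Consequence of the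
self-adjointness of `T_ℓ`, `ℓ ∤ N`, for the Petersson inner product. -/
def Stmt_HeckeReduced : Prop :=
  ∀ (N : ℕ) [NeZero N] (S : Set ℕ), (∀ q : ℕ, q.Prime → q ∣ N → q ∈ S) →
    IsReduced (CuspForm.heckeAlgebra N 2 S)

/-- **L5(0) (eigen-character).**  A normalised eigenform (in the prelude's sense: multiplicative
`q`-coefficients) of level `N` defines a ring homomorphism from the Hecke algebra to the ring of
algebraic integers sending `T_ℓ` to `a_ℓ`. -/
def Stmt_EigenChar : Prop :=
  ∀ (N : ℕ) [NeZero N] (S : Set ℕ) (g : CuspForm (CongruenceSubgroup.Gamma0 N) 2),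
    g.IsNormalizedEigenform →
    ∃ χ : CuspForm.heckeAlgebra N 2 S →+* integralClosure ℤ ℂ,
      ∀ (ℓ : ℕ) (hℓ : ℓ.Prime) (hℓN : ¬ ℓ ∣ N) (hℓS : ℓ ∉ S),
        ((χ (CuspForm.heckeAlgebra.T hℓ hℓN hℓS) : integralClosure ℤ ℂ) : ℂ) =
          ModularFormClass.qCoeff g ℓ

end Fermat.Agent.R
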