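import Fermat.Agent.S22
import Fermat.Agent.R.Leaves
import Fermat.Agent.R.H86_Defs2
import Fermat.Agent.R.H2_SepTCore

/-!
# Cluster R (helper2): `Stmt_HeckeReduced → Stmt_SepT`

The local Hecke algebra `T` of a Hecke–Galois datum is generated over `𝒪` by the image of the
Hecke algebra `𝕋` (finite over `ℤ` by S22, reduced by `Stmt_HeckeReduced`) and is free over
`𝒪`; hence it is reduced, and every `t ≠ 0` survives in the normalisation of `T ⧸ 𝔮` for some
minimal prime `𝔮`, which is a complete discrete valuation ring.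
-/

set_option autoImplicit false
set_option linter.style.haveILetI false

open IsLocalRing

namespace Fermat.Agent.R.H2

/-- The coefficient ring of a Hecke–Galois datum is reduced, if the Hecke algebra is. -/
theorem isReduced_of_heckeGaloisRepDatum (N : ℕ) [NeZero N] (S : Set ℕ)
    (𝒪 : Type) [CommRing 𝒪] [IsDomain 𝒪] [IsDiscreteValuationRing 𝒪]
    [IsAdicComplete (maximalIdeal 𝒪) 𝒪] [CharZero 𝒪]
    (θ : CuspForm.heckeAlgebra N 2 S →+* ResidueField 𝒪)
    (T : Type) [CommRing T] [IsLocalRing T] [IsNoetherianRing T]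
    [IsAdicComplete (maximalIdeal T) T] [Algebra 𝒪 T] [IsLocalHom (algebraMap 𝒪 T)]
    [Module.Finite 𝒪 T] [Module.Free 𝒪 T]
    (hred : IsReduced (CuspForm.heckeAlgebra N 2 S))
    (H : CuspForm.HeckeGaloisRepDatum N S 𝒪 θ T) : IsReduced T := by
  haveI : Module.Finite ℤ (CuspForm.heckeAlgebra N 2 S) := Fermat.Agent.S22.result N 2 S
  exact isReduced_of_flat_of_adjoin_eq_top (CuspForm.heckeAlgebra N 2 S) 𝒪 T H.π
    H.adjoin_range_π

/-- **`Stmt_SepT`** from the reducedness of the Hecke algebra (L3a). -/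
theorem stmt_SepT (hred : Fermat.Agent.R.Stmt_HeckeReduced) : Fermat.Agent.R.Stmt_SepT := by
  intro N _ S 𝒪 _ _ _ _ _ _ θ T _ _ _ _ _ _ _ _ hNS H t ht
  haveI : IsReduced T :=
    isReduced_of_heckeGaloisRepDatum N (↑S : Set ℕ) 𝒪 θ T (hred N (↑S : Set ℕ) hNS) H
  exact exists_point_ne_zero 𝒪 T t ht

end Fermat.Agent.R.H2
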