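import Fermat.Agent.R.H86_Defs3
import Fermat.Agent.R.H2_SepT

/-!
# Cluster R (helper2): `Stmt_HeckeReduced → Stmt_SepTc`

Finitely many points of the local Hecke algebra `T` of a datum (normalisations of `T ⧸ 𝔮`, `𝔮`
the minimal primes) separate `T` `p`-adically with a uniform loss `c` (noetherian argument
`exists_pow_smul_bound` of `H2_SepCore.lean`).
-/

set_option autoImplicit false
set_option linter.style.haveILetI false
set_option linter.unusedSectionVars false
set_option linter.dupNamespace false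

open IsLocalRing

namespace Fermat.Agent.R.H2

/-- A point of `T` which is an `O`-algebra homomorphism to a finite `O`-algebra, with kernel
contained in `𝔮`. -/
structure AlgTPoint (O : Type) [CommRing O] (T : Type) [CommRing T] [IsLocalRing T]
    [Algebra O T] (𝔮 : Ideal T) : Type 1 where
  /-- the coefficient ring -/
  R : Type
  [instCommRing : CommRing R]
  [instIsDomain : IsDomain R]
  [instDVR : IsDiscreteValuationRing R]
  [instComplete : IsAdicComplete (IsLocalRing.maximalIdeal R) R]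
  [instFiniteResidue : Finite (IsLocalRing.ResidueField R)]
  [instCharZero : CharZero R]
  [instAlgebra : Algebra O R]
  [instFinite : Module.Finite O R]
  /-- the point -/
  ψ : T →+* R
  isLocalHom : IsLocalHom ψ
  hψO : ∀ a : O, ψ (algebraMap O T a) = algebraMap O R a
  hker : ∀ t : T, ψ t = 0 → t ∈ 𝔮

attribute [instance] AlgTPoint.instCommRing AlgTPoint.instIsDomain AlgTPoint.instDVR
  AlgTPoint.instComplete AlgTPoint.instFiniteResidue AlgTPoint.instCharZero
  AlgTPoint.instAlgebra AlgTPoint.instFinite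

section core

variable (O : Type) [CommRing O] [IsDomain O] [IsDiscreteValuationRing O]
  [IsAdicComplete (maximalIdeal O) O] [Finite (ResidueField O)] [CharZero O]
  (T : Type) [CommRing T] [Algebra O T] [Module.Finite O T] [Module.Free O T] [IsLocalRing T]

/-- The normalisation of `T ⧸ 𝔮` as a point of `T`. -/
theorem nonempty_algTPoint (𝔮 : Ideal T) (h𝔮min : 𝔮 ∈ minimalPrimes T) :
    Nonempty (AlgTPoint O T 𝔮) := by
  haveI h𝔮prime : 𝔮.IsPrime := h𝔮min.1.1
  have hinj : Function.Injective (algebraMap O (T ⧸ 𝔮)) :=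
    injective_algebraMap_quotient_minimalPrime' O T 𝔮 h𝔮min
  haveI : FaithfulSMul O (T ⧸ 𝔮) := (faithfulSMul_iff_algebraMap_injective O (T ⧸ 𝔮)).2 hinj
  obtain ⟨O', iCR, iD, iDVR, iAC, iFin, iCZ, iAlg, iMF, iLH, j, -, hjinj, hjO, hjmax⟩ :=
    exists_dvr_of_finite_domain O (T ⧸ 𝔮)
  refine ⟨{ R := O', ψ := j.comp (Ideal.Quotient.mk 𝔮), isLocalHom := ?_, hψO := ?_,
            hker := ?_ }⟩
  · obtain ⟨𝔫, h𝔫⟩ := Ideal.exists_maximal (T ⧸ 𝔮)
    have h1 : (maximalIdeal O').comap j = 𝔫 := hjmax 𝔫 h𝔫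
    have h2 : (𝔫.comap (Ideal.Quotient.mk 𝔮)).IsMaximal :=
      Ideal.comap_isMaximal_of_surjective _ Ideal.Quotient.mk_surjective
    have h3 : 𝔫.comap (Ideal.Quotient.mk 𝔮) = maximalIdeal T := IsLocalRing.eq_maximalIdeal h2
    constructor
    intro x hx
    by_contra hxu
    have hxm : x ∈ maximalIdeal T := (IsLocalRing.mem_maximalIdeal x).2 hxu
    rw [← h3, Ideal.mem_comap, ← h1, Ideal.mem_comap] at hxm
    exact (IsLocalRing.mem_maximalIdeal _).1 hxm hx
  · intro a
    rw [RingHom.comp_apply]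
    exact hjO a
  · intro t h0
    rw [RingHom.comp_apply] at h0
    have h1 : Ideal.Quotient.mk 𝔮 t = 0 := hjinj (h0.trans (map_zero j).symm)
    exact Ideal.Quotient.eq_zero_iff_mem.1 h1

variable [IsReduced T]

include O in
/-- **Core of `Stmt_SepTc`.** -/
theorem exists_sepT (π : O) :
    ∃ (r : ℕ) (P : Fin r → TPoint T) (c : ℕ),
      ∀ (n : ℕ) (t : T),
        (∀ i, (P i).ψ t ∈ Ideal.span {((P i).ψ (algebraMap O T π)) ^ (n + c)}) →
          t ∈ Ideal.span {(algebraMap O T π) ^ n} := by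
  classical
  haveI : IsNoetherianRing T := IsNoetherianRing.of_finite O T
  have hfin : (minimalPrimes T).Finite := minimalPrimes.finite_of_isNoetherianRing _
  haveI : Finite ↥(minimalPrimes T) := hfin.to_subtype
  obtain ⟨r, ⟨e⟩⟩ := Finite.exists_equiv_fin ↥(minimalPrimes T)
  let D (i : Fin r) : AlgTPoint O T ((e.symm i : ↥(minimalPrimes T)) : Ideal T) :=
    Classical.choice (nonempty_algTPoint O T _ (e.symm i).2)
  let F (i : Fin r) : T →ₐ[O] (D i).R :=
    { toRingHom := (D i).ψ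
      commutes' := fun a => (D i).hψO a }
  let Χ : T →ₗ[O] (∀ i : Fin r, (D i).R) := LinearMap.pi fun i => (F i).toLinearMap
  have hΧ : Function.Injective Χ := by
    rw [injective_iff_map_eq_zero]
    intro x hx
    have hmem : ∀ 𝔮 ∈ minimalPrimes T, x ∈ 𝔮 := by
      intro 𝔮 h𝔮
      have h1 := congrFun hx (e ⟨𝔮, h𝔮⟩)
      have h2 : (D (e ⟨𝔮, h𝔮⟩)).ψ x = 0 := h1
      have h3 := (D (e ⟨𝔮, h𝔮⟩)).hker x h2
      rw [Equiv.symm_apply_apply] at h3
      exact h3
    have h4 : x ∈ sInf (minimalPrimes T) := by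
      rw [Submodule.mem_sInf]
      exact hmem
    have h5 : sInf (minimalPrimes T) = nilradical T := by
      rw [minimalPrimes, Ideal.sInf_minimalPrimes]; rfl
    rw [h5, nilradical_eq_zero] at h4
    exact h4
  haveI : IsNoetherian O (∀ i : Fin r, (D i).R) :=
    isNoetherian_of_isNoetherianRing_of_finite O _
  obtain ⟨c, hc⟩ := exists_pow_smul_bound π Χ hΧ
  let P (i : Fin r) : TPoint T :=
    { O := (D i).R, ψ := (D i).ψ, isLocalHom := (D i).isLocalHom }
  refine ⟨r, P, c, fun n t hy => ?_⟩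
  choose w hw using fun i => Ideal.mem_span_singleton'.mp (hy i)
  have hX : Χ t = π ^ (n + c) • w := by
    funext i
    show (D i).ψ t = (π ^ (n + c) • w) i
    have := hw i
    rw [Pi.smul_apply, Algebra.smul_def, map_pow, ← (D i).hψO π, ← this, mul_comm]
  obtain ⟨x', hx'⟩ := hc n t ⟨w, hX⟩
  rw [Ideal.mem_span_singleton']
  refine ⟨x', ?_⟩
  rw [hx', Algebra.smul_def, map_pow, mul_comm]

end core

/-- **`Stmt_SepTc`** from the reducedness of the Hecke algebra (L3a). -/
theorem stmt_SepTc (hred : Fermat.Agent.R.Stmt_HeckeReduced) : Fermat.Agent.R.Stmt_SepTc := by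
  intro N _ S 𝒪 _ _ _ _ _ _ θ T _ _ _ _ _ _ _ _ hNS H p _ _
  haveI : IsReduced T :=
    isReduced_of_heckeGaloisRepDatum N (↑S : Set ℕ) 𝒪 θ T (hred N (↑S : Set ℕ) hNS) H
  obtain ⟨r, P, c, h⟩ := exists_sepT 𝒪 T (p : 𝒪)
  refine ⟨r, P, c, fun n t ht => ?_⟩
  have h1 := h n t (fun i => by
    have := ht i
    rwa [map_natCast, map_natCast])
  rwa [map_natCast] at h1

end Fermat.Agent.R.H2
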