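import Fermat.Agent.R.H58_HeckeReduced
import Fermat.Agent.R.H2_SepTc

/-!
# Cluster R (helper2): `Stmt_SepTc`, unconditional

`Stmt_HeckeReduced` is proved in `Fermat/Agent/R/H58_HeckeReduced.lean` (helper58).
-/

set_option autoImplicit false

namespace Fermat.Agent.R.H2

/-- **`Stmt_SepTc`**, unconditional. -/
theorem stmt_SepTc_final : Fermat.Agent.R.Stmt_SepTc :=
  stmt_SepTc Fermat.Agent.R.H58.stmt_HeckeReduced

end Fermat.Agent.R.H2
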