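import Fermat.Agent.R.Leaves
import Fermat.Agent.R.Pet.L3a

/-!
# Cluster R, leaf L3a in the shape of `Fermat/Agent/R/Leaves.lean` (helper58; proof = Pet).
-/

set_option autoImplicit false

namespace Fermat.Agent.R.H58

/-- **L3a**: `Stmt_HeckeReduced`. -/
theorem stmt_HeckeReduced : Fermat.Agent.R.Stmt_HeckeReduced :=
  fun N _ S hS => Fermat.Agent.R.Pet.heckeAlgebra_isReduced N 2 S hS

end Fermat.Agent.R.H58
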