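import Fermat.Agent.R.H86_Defs2

/-!
# Cluster R: further interfaces for the S32 wiring (helper86)

* `TPoint T`      : a local homomorphism from `T` to a complete discrete valuation ring of
  characteristic `0` with finite residue field.
* `Stmt_SepTc`    : finitely many points of the local Hecke algebra `T` of a datum separate `T`
  `p`-adically, with a uniform loss `c` (the analogue of `Stmt_Sep` for `T`).
* `Stmt_FlatPi`   : `IsFlatGaloisModule` is closed under finite products.
-/

set_option autoImplicit false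

open Polynomial IsLocalRing

namespace Fermat.Agent.R

/-- A point of `T`: a local homomorphism to a complete discrete valuation ring of
characteristic `0` with finite residue field. -/
structure TPoint (T : Type) [CommRing T] [IsLocalRing T] : Type 1 where
  /-- the coefficient ring -/
  O : Type
  [instCommRing : CommRing O]
  [instIsDomain : IsDomain O]
  [instDVR : IsDiscreteValuationRing O]
  [instComplete : IsAdicComplete (IsLocalRing.maximalIdeal O) O]
  [instFiniteResidue : Finite (IsLocalRing.ResidueField O)]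
  [instCharZero : CharZero O]
  /-- the homomorphism -/
  ψ : T →+* O
  isLocalHom : IsLocalHom ψ

attribute [instance] TPoint.instCommRing TPoint.instIsDomain TPoint.instDVR
  TPoint.instComplete TPoint.instFiniteResidue TPoint.instCharZero

/-- **`p`-adic separation of `T` by finitely many points, with uniform loss.** -/
def Stmt_SepTc : Prop :=
  ∀ (N : ℕ) [NeZero N] (S : Finset ℕ)
    (𝒪 : Type) [CommRing 𝒪] [IsDomain 𝒪] [IsDiscreteValuationRing 𝒪]
    [IsAdicComplete (maximalIdeal 𝒪) 𝒪] [Finite (ResidueField 𝒪)] [CharZero 𝒪]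
    (θ : CuspForm.heckeAlgebra N 2 (↑S : Set ℕ) →+* ResidueField 𝒪)
    (T : Type) [CommRing T] [IsLocalRing T] [IsNoetherianRing T]
    [IsAdicComplete (maximalIdeal T) T] [Algebra 𝒪 T] [IsLocalHom (algebraMap 𝒪 T)]
    [Module.Finite 𝒪 T] [Module.Free 𝒪 T],
    (∀ q : ℕ, q.Prime → q ∣ N → q ∈ S) →
    ∀ (_H : CuspForm.HeckeGaloisRepDatum N (↑S : Set ℕ) 𝒪 θ T) (p : ℕ), p.Prime →
      (p : 𝒪) ∈ maximalIdeal 𝒪 →
      ∃ (r : ℕ) (P : Fin r → TPoint T) (c : ℕ),
        ∀ (n : ℕ) (t : T), (∀ i, (P i).ψ t ∈ Ideal.span {((p : (P i).O)) ^ (n + c)}) →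
          t ∈ Ideal.span {((p : T)) ^ n}

/-- Flatness passes to finite products. -/
def Stmt_FlatPi : Prop :=
  ∀ (p : ℕ), p.Prime →
    ∀ (r : ℕ) (M : Fin r → Type) [∀ i, AddCommGroup (M i)]
      (act : ∀ i, (AlgebraicClosure ℚ ≃ₐ[ℚ] AlgebraicClosure ℚ) → M i → M i),
      (∀ i, IsFlatGaloisModule p (M i) (act i)) →
      IsFlatGaloisModule p (∀ i, M i) (fun σ x i => act i σ (x i))

end Fermat.Agent.R
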