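import Fermat.Agent.R.Defs
import Fermat.Agent.R.H2_SepCore

/-!
# Cluster R, leaf L3c (helper2): `IsReduced 𝕋 → Stmt_Sep N S p`

`Stmt_Sep` (defined in `Fermat/Agent/R/Defs.lean`) for the Hecke algebra
`𝕋 = heckeAlgebra N 2 S`, from reducedness of `𝕋` and finiteness of `𝕋` over `ℤ` (S22).
-/

set_option autoImplicit false
set_option linter.style.haveILetI false

open IsLocalRing

namespace Fermat.Agent.R.H2

/-- The Hecke algebra is torsion free over `ℤ` (it is a ring of endomorphisms of a complex
vector space). -/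
theorem heckeAlgebra_isTorsionFree (N : ℕ) [NeZero N] (k : ℤ) (S : Set ℕ) :
    Module.IsTorsionFree ℤ (CuspForm.heckeAlgebra N k S) := by
  infer_instance

/-- **L3c**: a reduced Hecke algebra (finite over `ℤ`) is `p`-adically separated by finitely
many points with values in complete discrete valuation rings. -/
theorem stmt_Sep_of_isReduced (N : ℕ) [NeZero N] (S : Finset ℕ) (p : ℕ) [Fact p.Prime]
    [Module.Finite ℤ (CuspForm.heckeAlgebra N 2 (↑S : Set ℕ))]
    (hred : IsReduced (CuspForm.heckeAlgebra N 2 (↑S : Set ℕ))) :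
    Fermat.Agent.R.Stmt_Sep N S p := by
  obtain ⟨ι, hι, P, c, hP⟩ := exists_sep p (CuspForm.heckeAlgebra N 2 (↑S : Set ℕ))
  exact ⟨ι, hι, fun i => { R := (P i).R, hp := (P i).hp, χ := (P i).χ }, c, hP⟩

end Fermat.Agent.R.H2
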