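import Fermat.Agent.S22
import Fermat.Agent.R.H2_Sep

/-!
# Cluster R, leaf L3c (helper2): `IsReduced 𝕋 → Stmt_Sep N S p`, with S22 plugged in
-/

set_option autoImplicit false
set_option linter.style.haveILetI false

namespace Fermat.Agent.R.H2

/-- **L3c** with the finiteness of the Hecke algebra (S22) plugged in. -/
theorem stmt_Sep_of_isReduced' (N : ℕ) [NeZero N] (S : Finset ℕ) (p : ℕ) [Fact p.Prime]
    (hred : IsReduced (CuspForm.heckeAlgebra N 2 (↑S : Set ℕ))) :
    Fermat.Agent.R.Stmt_Sep N S p := by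
  haveI : Module.Finite ℤ (CuspForm.heckeAlgebra N 2 (↑S : Set ℕ)) :=
    Fermat.Agent.S22.result N 2 (↑S : Set ℕ)
  exact stmt_Sep_of_isReduced N S p hred

end Fermat.Agent.R.H2
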