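import Fermat.Agent.R.H58_HeckeReduced
import Fermat.Agent.R.H2_SepT
import Fermat.Agent.R.H2_SepS22

/-!
# Cluster R (helper2): `Stmt_SepT` and `Stmt_Sep`, unconditional

`Stmt_HeckeReduced` is proved in `Fermat/Agent/R/H58_HeckeReduced.lean` (helper58).
-/

set_option autoImplicit false

namespace Fermat.Agent.R.H2

/-- **`Stmt_SepT`**, unconditional. -/
theorem stmt_SepT_final : Fermat.Agent.R.Stmt_SepT :=
  stmt_SepT Fermat.Agent.R.H58.stmt_HeckeReduced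

/-- **`Stmt_Sep`** (L3c), unconditional. -/
theorem stmt_Sep_final (N : ℕ) [NeZero N] (S : Finset ℕ) (p : ℕ) [Fact p.Prime]
    (hNS : ∀ q : ℕ, q.Prime → q ∣ N → q ∈ (↑S : Set ℕ)) :
    Fermat.Agent.R.Stmt_Sep N S p :=
  stmt_Sep_of_isReduced' N S p (Fermat.Agent.R.H58.stmt_HeckeReduced N (↑S : Set ℕ) hNS)

end Fermat.Agent.R.H2
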