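import Fermat.Agent.S30.H29_Wiring
import Fermat.Agent.S29.H33_Core
import Fermat.Agent.S42.H33_Wiring
import Fermat.Agent.S31.Final
import Fermat.Agent.Lib.FrobDensity.Main

/-!
# Cluster R: the chain from the Tate piece to the statements S29, S30, S31, S42 (helper33)

Everything in cluster R that depends only on `S30.Stmt_TatePiece` (the single geometric input
from cluster G), composed: as soon as `Stmt_TatePiece` is proved, the four final files are
one-liners.  This file checks that all the wirings are co-importable and fit together.
-/

set_option autoImplicit false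

namespace Fermat.Agent.R.H33

open Fermat.Agent

/-- S30 from the Tate piece (Frobenius density is proved). -/
theorem s30_of_tatePiece (h : S30.Stmt_TatePiece) : R.Stmt_S30 :=
  S30.H29.stmt_S30_of h Lib.FrobDensity.stmt_FD

/-- S29 from the Tate piece. -/
theorem s29_of_tatePiece (h : S30.Stmt_TatePiece) : S29.H33.Stmt_S29 :=
  S29.H33.stmt_S29_of_S30 (s30_of_tatePiece h)

/-- S42 from the Tate piece. -/
theorem s42_of_tatePiece (h : S30.Stmt_TatePiece) (P : FreyPackage) (M : ℕ) (hM : 0 < M) :
    P.EigenformResidualAttachmentAt M :=
  S42.H33.result_of_S30 (s30_of_tatePiece h) P M hM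

end Fermat.Agent.R.H33
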